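/-
Program H (S18), chapter RED/CORE (helper24): CONTRACT between MODEL (BASE/PUR/CUSP) and CORE.

`TwoChartModel` lists EXACTLY what the abstract core (b'') needs from the smooth two-chart model
of `F = K·F_M` over the DVR `R = A_K`:  `B0 ∋ t`, `B1 ∋ t⁻¹` subalgebras of `F` ("integral
closures of `R[t]`, `R[t⁻¹]`"), `Ov` the Gauss valuation ring of `F` with uniformiser `π`.
Everything is stated with elements of `F` (no localisation types, no quotient types), so that
each side may use its own implementation of localisations.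

`CoreB` is the statement of the abstract core theorem (proved in `CoreB24.lean`):
for `u ≡ 1 mod π Ov` whose divisor on the generic fibre is `m`-divisible (`m` invertible in `R`),
there is `s ≠ 0` with `s ^ m * u` algebraic (integral) over `K`.
-/
import Mathlib

set_option autoImplicit false

namespace Fermat.Agent.RED.CORE.CoreIface24

open Polynomial

variable (R K F : Type*) [CommRing R] [Field K] [Field F] [Algebra R K] [Algebra K F]
  [Algebra R F] [IsScalarTower R K F]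

/-- The smooth two-chart model, as a list of elementary properties. -/
structure TwoChartModel (π : R) (t : F) (B0 B1 : Subalgebra R F) (Ov : ValuationSubring F) :
    Prop where
  /-- the base `R` is noetherian (a DVR in the application) -/
  noethR : IsNoetherianRing R
  /-- `K = Frac R` -/
  fracR : IsFractionRing R K
  /-- `π` is a uniformiser of `R`: every nonzero element is a unit times a power of `π` -/
  dvrR : ∀ r : R, r ≠ 0 → ∃ (k : ℕ) (v : Rˣ), r = π ^ k * v
  /-- the charts are noetherian rings -/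
  noeth0 : IsNoetherianRing B0
  noeth1 : IsNoetherianRing B1
  /-- `t ≠ 0`, `t ∈ B0`, `t⁻¹ ∈ B1` -/
  t_ne : t ≠ 0
  t_mem : t ∈ B0
  tinv_mem : t⁻¹ ∈ B1
  /-- the charts are integrally closed in `F` -/
  intcl0 : ∀ x : F, IsIntegral B0 x → x ∈ B0
  intcl1 : ∀ x : F, IsIntegral B1 x → x ∈ B1
  /-- the charts are integral over `R[t]`, `R[t⁻¹]` -/
  int0 : ∀ x ∈ B0, IsIntegral (Algebra.adjoin R {t}) x
  int1 : ∀ x ∈ B1, IsIntegral (Algebra.adjoin R {t⁻¹}) x
  /-- `F = Frac B0 = Frac B1` -/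
  frac0 : ∀ x : F, ∃ a ∈ B0, ∃ b ∈ B0, b ≠ 0 ∧ x * b = a
  frac1 : ∀ x : F, ∃ a ∈ B1, ∃ b ∈ B1, b ≠ 0 ∧ x * b = a
  /-- `B0` is a finite `R[t]`-module (explicit generators, the shape of `CechConnected14`) -/
  fin0 : ∃ (r : ℕ) (e : Fin r → F), (∀ i, e i ∈ B0) ∧
    ∀ x ∈ B0, ∃ P : Fin r → R[X], x = ∑ i, aeval t (P i) * e i
  /-- overlap: `B0[1/t] = B1[t]` -/
  ov0 : ∀ x ∈ B1, ∃ k : ℕ, t ^ k * x ∈ B0
  ov1 : ∀ x ∈ B0, ∃ k : ℕ, t⁻¹ ^ k * x ∈ B1
  /-- (G1) the Gauss valuation ring: contains the charts, `t` is a unit, `π` is a uniformiser -/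
  le_Ov0 : ∀ x ∈ B0, x ∈ Ov
  le_Ov1 : ∀ x ∈ B1, x ∈ Ov
  tinv_mem_Ov : t⁻¹ ∈ Ov
  pi_ne : algebraMap R F π ≠ 0
  pi_nonunit : (algebraMap R F π)⁻¹ ∉ Ov
  unif : ∀ x ∈ Ov, x⁻¹ ∉ Ov → ∃ c ∈ Ov, x = algebraMap R F π * c
  /-- (G1) the charts are `π`-saturated in `Ov` (the special fibre is integral) -/
  sat0 : ∀ b ∈ B0, ∀ c ∈ Ov, b = algebraMap R F π * c → c ∈ B0
  sat1 : ∀ b ∈ B1, ∀ c ∈ Ov, b = algebraMap R F π * c → c ∈ B1
  /-- (G2) smoothness: at every maximal ideal `x ∋ π` of a chart, the maximal ideal of the local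
  ring is generated by `π` and one more element `s` (so `B_x / π` is a DVR or a field). -/
  smooth0 : ∀ x : Ideal B0, x.IsMaximal → algebraMap R B0 π ∈ x →
    ∃ s ∈ x, ∀ y ∈ x, ∃ d : B0, d ∉ x ∧ d * y ∈ Ideal.span {algebraMap R B0 π, s}
  smooth1 : ∀ x : Ideal B1, x.IsMaximal → algebraMap R B1 π ∈ x →
    ∃ s ∈ x, ∀ y ∈ x, ∃ d : B1, d ∉ x ∧ d * y ∈ Ideal.span {algebraMap R B1 π, s}

/-- A place of `F / K`: a discrete valuation subring of `F` containing `K`
(the fields of `AlgebraicCurve.Place`). -/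
def IsKPlace (O : ValuationSubring F) : Prop :=
  (∀ a : K, algebraMap K F a ∈ O) ∧ O ≠ ⊤ ∧ IsPrincipalIdealRing O

/-- (U1): `u ≡ 1 mod π Ov`. -/
def U1 (π : R) (Ov : ValuationSubring F) (u : F) : Prop :=
  ∃ c ∈ Ov, u - 1 = algebraMap R F π * c

/-- (U2): the divisor of `u` on the generic fibre is divisible by `m`:
at every place of `F / K`, `u` is a unit times an `m`-th power. -/
def U2 (m : ℕ) (u : F) : Prop :=
  ∀ O : ValuationSubring F, IsKPlace K F O → ∃ f : F, f ≠ 0 ∧ u / f ^ m ∈ O ∧ f ^ m / u ∈ O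

/-- **Statement of the abstract core (b'').** -/
def CoreB : Prop :=
  ∀ (π : R) (t : F) (B0 B1 : Subalgebra R F) (Ov : ValuationSubring F),
    TwoChartModel R K F π t B0 B1 Ov →
    ∀ (m : ℕ), 0 < m → ∀ (minv : R), (m : R) * minv = 1 →
    ∀ u : F, U1 R F π Ov u → U2 K F m u →
      ∃ s : F, s ≠ 0 ∧ IsIntegral K (s ^ m * u)

end Fermat.Agent.RED.CORE.CoreIface24
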