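/-
Program H (S18), chapter RED/CORE, helper15: the LOCAL LEMMA (Mathlib only).

`C` a noetherian local domain, `π : C` a prime element such that `C ⧸ (π)` is a DVR
(= the local ring of a smooth relative curve over a DVR at a closed point of the special fibre).
Then
* `exists_eq_span_singleton` : every prime `p ≠ ⊥` with `π ∉ p` is principal, `p = (f)`, `f` prime;
* `exists_prime_mem`         : every nonzero prime ideal contains a prime element;
* `ufd`                      : `C` is a UFD (Kaplansky's criterion);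
* `maximalIdeal_eq_span_pair`: `𝔪_C = (π, s)` for every lift `s` of a uniformiser of `C ⧸ (π)`;
* `isUnit_of_forall_prime_not_dvd` : a nonzero element divisible by no prime element is a unit.

Proof of the first: the image of `p` in the DVR `C ⧸ (π)` is principal, generated by the class of some
`f ∈ p`; `p ∩ πC = πp` since `p` is prime and `π ∉ p`; so `p = fC + πp` and Nakayama gives `p = fC`.
-/
import Mathlib

set_option autoImplicit false

namespace Fermat.Agent.RED.CORE.LocalUFD15

open Ideal IsLocalRing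

variable {C : Type*} [CommRing C] [IsDomain C] [IsNoetherianRing C] [IsLocalRing C]

omit [IsDomain C] [IsNoetherianRing C] in
/-- A non-unit generates an ideal inside the Jacobson radical of a local ring. -/
theorem span_le_jacobson_bot {π : C} (hπ : ¬ IsUnit π) :
    Ideal.span {π} ≤ Ideal.jacobson (⊥ : Ideal C) := by
  rw [IsLocalRing.jacobson_eq_maximalIdeal ⊥ bot_ne_top, Ideal.span_le, Set.singleton_subset_iff]
  exact (IsLocalRing.mem_maximalIdeal _).mpr hπ

omit [IsDomain C] in
/-- **LOCAL LEMMA.** Every nonzero prime ideal not containing `π` is principal, generated by a prime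
element. (Only `C ⧸ (π)` a principal ideal ring is used.) -/
theorem exists_eq_span_singleton (π : C) (hπ : ¬ IsUnit π)
    [IsPrincipalIdealRing (C ⧸ Ideal.span {π})]
    (p : Ideal C) [hp : p.IsPrime] (hp0 : p ≠ ⊥) (hπp : π ∉ p) :
    ∃ f : C, f ∈ p ∧ Prime f ∧ p = Ideal.span {f} := by
  -- the image of `p` in `C ⧸ (π)` is principal, generated by the class of some `f ∈ p`
  set mk := Ideal.Quotient.mk (Ideal.span {π}) with hmk
  have hsurj : Function.Surjective mk := Ideal.Quotient.mk_surjective
  obtain ⟨g, hg⟩ := (IsPrincipalIdealRing.principal (Ideal.map mk p)).principal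
  have hgmem : g ∈ Ideal.map mk p := by
    rw [hg]; exact Submodule.mem_span_singleton_self g
  obtain ⟨f, hfp, hfg⟩ := (Ideal.mem_map_iff_of_surjective mk hsurj).mp hgmem
  -- `p ≤ (f) ⊔ (π) • p`
  have hle : p ≤ Ideal.span {f} ⊔ Ideal.span {π} • p := by
    intro x hx
    have hx' : mk x ∈ Ideal.map mk p := Ideal.mem_map_of_mem mk hx
    rw [hg] at hx'
    obtain ⟨a', ha'⟩ := Submodule.mem_span_singleton.mp hx'
    obtain ⟨a, rfl⟩ := hsurj a'
    have hker : x - a * f ∈ Ideal.span {π} := by
      rw [← Ideal.Quotient.eq_zero_iff_mem, map_sub, map_mul, hfg, ← ha', smul_eq_mul, sub_self]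
    obtain ⟨y, hy⟩ := Ideal.mem_span_singleton'.mp hker
    have hyp : y ∈ p := by
      have h1 : y * π ∈ p := by rw [hy]; exact p.sub_mem hx (p.mul_mem_left a hfp)
      exact (hp.mem_or_mem h1).resolve_right hπp
    have hx2 : x = a * f + π * y := by rw [mul_comm π y, hy]; ring
    rw [hx2]
    refine Submodule.add_mem_sup (Ideal.mem_span_singleton'.mpr ⟨a, rfl⟩) ?_
    exact Ideal.mul_mem_mul (Ideal.subset_span rfl) hyp
  have hfg' : p.FG := (isNoetherianRing_iff_ideal_fg C).mp inferInstance p
  have hpf : p ≤ Ideal.span {f} :=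
    Submodule.le_of_le_smul_of_le_jacobson_bot hfg' (span_le_jacobson_bot hπ) hle
  have hfp' : Ideal.span {f} ≤ p := by
    rw [Ideal.span_le, Set.singleton_subset_iff]; exact hfp
  have hpeq : p = Ideal.span {f} := le_antisymm hpf hfp'
  have hf0 : f ≠ 0 := by
    rintro rfl
    apply hp0
    rw [hpeq]
    simp
  refine ⟨f, hfp, ?_, hpeq⟩
  rw [← Ideal.span_singleton_prime hf0, ← hpeq]
  exact hp

omit [IsDomain C] in
/-- Every nonzero prime ideal of `C` contains a prime element. -/
theorem exists_prime_mem (π : C) (hπ : Prime π)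
    [IsPrincipalIdealRing (C ⧸ Ideal.span {π})]
    (p : Ideal C) (hp0 : p ≠ ⊥) (hp : p.IsPrime) : ∃ x ∈ p, Prime x := by
  by_cases hπp : π ∈ p
  · exact ⟨π, hπp, hπ⟩
  · obtain ⟨f, hfp, hf, -⟩ := exists_eq_span_singleton π hπ.not_isUnit p hp0 hπp
    exact ⟨f, hfp, hf⟩

/-- `C` is a UFD. -/
theorem ufd (π : C) (hπ : Prime π) [IsPrincipalIdealRing (C ⧸ Ideal.span {π})] :
    UniqueFactorizationMonoid C :=
  UniqueFactorizationMonoid.iff_exists_prime_mem_of_isPrime.mpr
    fun p hp0 hp => exists_prime_mem π hπ p hp0 hp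

omit [IsDomain C] [IsNoetherianRing C] in
/-- `𝔪_C = (π, s)` whenever the class of `s` generates the maximal ideal of `C ⧸ (π)`. -/
theorem maximalIdeal_eq_span_pair (π s : C) (hπ : ¬ IsUnit π)
    (hs : Ideal.map (Ideal.Quotient.mk (Ideal.span {π})) (maximalIdeal C) =
      Ideal.span {Ideal.Quotient.mk (Ideal.span {π}) s})
    (hsm : s ∈ maximalIdeal C) :
    maximalIdeal C = Ideal.span {π, s} := by
  have hπm : π ∈ maximalIdeal C := (IsLocalRing.mem_maximalIdeal _).mpr hπ
  apply le_antisymm
  · intro x hx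
    have hx' : Ideal.Quotient.mk (Ideal.span {π}) x ∈
        Ideal.map (Ideal.Quotient.mk (Ideal.span {π})) (maximalIdeal C) :=
      Ideal.mem_map_of_mem _ hx
    rw [hs] at hx'
    obtain ⟨a', ha'⟩ := Submodule.mem_span_singleton.mp hx'
    obtain ⟨a, rfl⟩ := Ideal.Quotient.mk_surjective a'
    have hker : x - a * s ∈ Ideal.span {π} := by
      rw [← Ideal.Quotient.eq_zero_iff_mem, map_sub, map_mul, ← ha', smul_eq_mul, sub_self]
    obtain ⟨y, hy⟩ := Ideal.mem_span_singleton'.mp hker
    have hx2 : x = y * π + a * s := by rw [hy]; ring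
    rw [hx2]
    exact Ideal.add_mem _ (Ideal.mul_mem_left _ _ (Ideal.subset_span (by simp)))
      (Ideal.mul_mem_left _ _ (Ideal.subset_span (by simp)))
  · rw [Ideal.span_le]
    rintro x (rfl | rfl)
    · exact hπm
    · exact hsm

/-- An element of `C` not divisible by any prime element is a unit. -/
theorem isUnit_of_forall_prime_not_dvd (π : C) (hπ : Prime π)
    [IsPrincipalIdealRing (C ⧸ Ideal.span {π})] (x : C) (hx0 : x ≠ 0)
    (hx : ∀ f : C, Prime f → ¬ f ∣ x) : IsUnit x := by
  have := ufd π hπ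
  by_contra hu
  obtain ⟨f, hf, hfx⟩ := WfDvdMonoid.exists_irreducible_factor hu hx0
  exact hx f (UniqueFactorizationMonoid.irreducible_iff_prime.mp hf) hfx

end Fermat.Agent.RED.CORE.LocalUFD15
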