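/-
Program H (S18), chapter RED/CORE, helper18: the END step of core route (b''):
an element of `F` integral over `R₀[t]` and over `R₀[t⁻¹]` (`R₀ → K ⊂ F`) is algebraic over `K`.
Hence `ρ = s^m u ∈ B0 ∩ B1` is a constant.

Proof: valuation-theoretic (no minimal polynomials).  If `x` is not algebraic over `K` there is a
valuation subring `V ⊇ K` of `F` with `x ∉ V` (Stacks 090P, in Mathlib); `t ∈ V` or `t⁻¹ ∈ V`, so
`R₀[t] ⊂ V` or `R₀[t⁻¹] ⊂ V`, and `V` is integrally closed in `F`: contradiction.
-/
import Mathlib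

set_option autoImplicit false

namespace Fermat.Agent.RED.CORE.Constants18

variable {K F : Type*} [Field K] [Field F] [Algebra K F]

/-- An element integral over a subring of a valuation subring `V` lies in `V`. -/
theorem mem_valuationSubring_of_isIntegral (V : ValuationSubring F) (S : Subring F)
    (hS : S ≤ V.toSubring) {x : F} (hx : IsIntegral ↥S x) : x ∈ V := by
  let φ : ↥S →+* ↥V :=
    { toFun := fun s => ⟨(s : F), hS s.2⟩
      map_one' := rfl
      map_mul' := fun _ _ => rfl
      map_zero' := rfl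
      map_add' := fun _ _ => rfl }
  have hx' : IsIntegral ↥V x := by
    have := hx.map_of_comp_eq φ (RingHom.id F) (by ext; rfl)
    simpa using this
  obtain ⟨y, hy⟩ := IsIntegrallyClosed.isIntegral_iff.mp hx'
  rw [← hy]
  exact y.2

/-- **Valuative criterion for constants**: an element lying in every valuation subring of `F`
containing `K` is algebraic over `K`. -/
theorem isAlgebraic_of_forall_valuationSubring (x : F)
    (h : ∀ V : ValuationSubring F, (∀ a : K, algebraMap K F a ∈ V) → x ∈ V) :
    IsAlgebraic K x := by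
  by_contra hx
  have hxR : x ∉ (integralClosure K F).toSubring := fun hmem =>
    hx (isAlgebraic_iff_isIntegral.mpr hmem)
  obtain ⟨V, hV, hxV⟩ := Subring.exists_le_valuationSubring_of_isIntegrallyClosedIn hxR
  exact hxV (h V fun a => hV ((integralClosure K F).algebraMap_mem a))

variable {R₀ : Type*} [CommRing R₀] [Algebra R₀ K] [Algebra R₀ F] [IsScalarTower R₀ K F]

/-- `R₀[t] ⊂ V` when `K ⊂ V` and `t ∈ V`. -/
theorem adjoin_le_valuationSubring (V : ValuationSubring F) (hK : ∀ a : K, algebraMap K F a ∈ V)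
    {t : F} (ht : t ∈ V) : (Algebra.adjoin R₀ {t}).toSubring ≤ V.toSubring := by
  let V' : Subalgebra R₀ F :=
    { V.toSubring.toSubsemiring with
      algebraMap_mem' := fun r => by
        show algebraMap R₀ F r ∈ V
        rw [IsScalarTower.algebraMap_apply R₀ K F]
        exact hK _ }
  have hle : Algebra.adjoin R₀ {t} ≤ V' := Algebra.adjoin_le (by
    rintro y rfl
    exact ht)
  exact fun y hy => hle hy

/-- **Constants**: `x` integral over `R₀[t]` and over `R₀[t⁻¹]` is algebraic over `K`. -/
theorem isAlgebraic_of_isIntegral_both (t x : F)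
    (h0 : IsIntegral ↥(Algebra.adjoin R₀ {t}) x)
    (h1 : IsIntegral ↥(Algebra.adjoin R₀ {t⁻¹}) x) : IsAlgebraic K x := by
  apply isAlgebraic_of_forall_valuationSubring
  intro V hK
  rcases V.mem_or_inv_mem t with ht | ht
  · exact mem_valuationSubring_of_isIntegral V _ (adjoin_le_valuationSubring V hK ht) h0
  · exact mem_valuationSubring_of_isIntegral V _ (adjoin_le_valuationSubring V hK ht) h1

/-- The same with arbitrary subrings `S0 ∋`-generated inside `R₀[t]`, `R₀[t⁻¹]`. -/
theorem isAlgebraic_of_isIntegral_subrings (t x : F) (S0 S1 : Subring F)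
    (hS0 : S0 ≤ (Algebra.adjoin R₀ {t}).toSubring) (hS1 : S1 ≤ (Algebra.adjoin R₀ {t⁻¹}).toSubring)
    (h0 : IsIntegral ↥S0 x) (h1 : IsIntegral ↥S1 x) : IsAlgebraic K x := by
  apply isAlgebraic_of_forall_valuationSubring
  intro V hK
  rcases V.mem_or_inv_mem t with ht | ht
  · exact mem_valuationSubring_of_isIntegral V _
      (hS0.trans (adjoin_le_valuationSubring V hK ht)) h0
  · exact mem_valuationSubring_of_isIntegral V _
      (hS1.trans (adjoin_le_valuationSubring V hK ht)) h1

/-- **Constants, final form**: if `K` is algebraically closed in `F`, an element integral over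
`R₀[t]` and over `R₀[t⁻¹]` comes from `K`. -/
theorem exists_algebraMap_eq_of_isIntegral_both
    (hKF : ∀ y : F, IsAlgebraic K y → ∃ c : K, algebraMap K F c = y) (t x : F)
    (h0 : IsIntegral ↥(Algebra.adjoin R₀ {t}) x)
    (h1 : IsIntegral ↥(Algebra.adjoin R₀ {t⁻¹}) x) : ∃ c : K, algebraMap K F c = x :=
  hKF x (isAlgebraic_of_isIntegral_both t x h0 h1)

/-- Membership form: `x` in two subrings `B0`, `B1` of `F` all of whose elements are integral over
`R₀[t]`, resp. `R₀[t⁻¹]`. -/
theorem exists_algebraMap_eq_of_mem_both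
    (hKF : ∀ y : F, IsAlgebraic K y → ∃ c : K, algebraMap K F c = y) (t : F)
    (B0 B1 : Subring F)
    (hB0 : ∀ y ∈ B0, IsIntegral ↥(Algebra.adjoin R₀ {t}) y)
    (hB1 : ∀ y ∈ B1, IsIntegral ↥(Algebra.adjoin R₀ {t⁻¹}) y)
    {x : F} (hx0 : x ∈ B0) (hx1 : x ∈ B1) : ∃ c : K, algebraMap K F c = x :=
  exists_algebraMap_eq_of_isIntegral_both hKF t x (hB0 x hx0) (hB1 x hx1)

end Fermat.Agent.RED.CORE.Constants18
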