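/-
Abstract "Zariski connectedness by Čech" (helper14).

`O` a commutative ring with an element `π` such that `O/π` has only the trivial idempotents
(e.g. `O` local), `E` an `O`-algebra, `B₁ B₂ ≤ B₁₂` subalgebras ("two affine charts and their
intersection").  If
* `H⁰ = B₁ ⊓ B₂ = O`,
* `π B₁ ∩ O = π O`,
* the `π`-power torsion of `H¹ = B₁₂ / (B₁ + B₂)` is killed by `π ^ c`,
then a section of the structure sheaf modulo `π ^ (c + 1)` (a pair `e₁ ∈ B₁`, `e₂ ∈ B₂` with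
`e₁ - e₂ ∈ π ^ (c+1) B₁₂`) which is idempotent modulo `π` is congruent to `0` or `1` modulo `π`:
the special fibre is connected.
-/
import Mathlib

set_option autoImplicit false

namespace Fermat.Agent.RED.CORE.CechConnected14

open Polynomial

variable {O E : Type*} [CommRing O] [CommRing E] [Algebra O E]

/-- The abstract connectedness lemma. -/
theorem idempotent_trivial (π : O) (B₁ B₂ B₁₂ : Subalgebra O E)
    (hH0 : ∀ x : E, x ∈ B₁ → x ∈ B₂ → ∃ a : O, algebraMap O E a = x)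
    (hsat : ∀ a : O, (∃ b ∈ B₁, algebraMap O E a = algebraMap O E π * b) → π ∣ a)
    (hidem : ∀ a : O, π ∣ a * a - a → π ∣ a ∨ π ∣ a - 1)
    (c : ℕ)
    (hbdd : ∀ x ∈ B₁₂, ∀ n : ℕ, (∃ b₁ ∈ B₁, ∃ b₂ ∈ B₂, algebraMap O E π ^ n * x = b₁ + b₂) →
      ∃ b₁ ∈ B₁, ∃ b₂ ∈ B₂, algebraMap O E π ^ c * x = b₁ + b₂)
    (e₁ e₂ x : E) (he₁ : e₁ ∈ B₁) (he₂ : e₂ ∈ B₂) (hx : x ∈ B₁₂)
    (hglue : e₁ - e₂ = algebraMap O E π ^ (c + 1) * x)
    (hid : ∃ b ∈ B₁, e₁ * e₁ - e₁ = algebraMap O E π * b) :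
    (∃ b ∈ B₁, e₁ = algebraMap O E π * b) ∨ (∃ b ∈ B₁, e₁ - 1 = algebraMap O E π * b) := by
  set p : E := algebraMap O E π with hp
  -- bounded torsion
  obtain ⟨b₁, hb₁, b₂, hb₂, hb⟩ := hbdd x hx (c + 1)
    ⟨e₁, he₁, -e₂, B₂.neg_mem he₂, by rw [← hglue]; ring⟩
  -- the global section
  have hsec : e₁ - p * b₁ = e₂ + p * b₂ := by
    have : e₁ - e₂ = p * (b₁ + b₂) := by rw [hglue, pow_succ, ← hb]; ring
    linear_combination this
  have hpB₁ : p ∈ B₁ := B₁.algebraMap_mem π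
  have hpB₂ : p ∈ B₂ := B₂.algebraMap_mem π
  have h1 : e₁ - p * b₁ ∈ B₁ := B₁.sub_mem he₁ (B₁.mul_mem hpB₁ hb₁)
  have h2 : e₁ - p * b₁ ∈ B₂ := by rw [hsec]; exact B₂.add_mem he₂ (B₂.mul_mem hpB₂ hb₂)
  obtain ⟨a, ha⟩ := hH0 _ h1 h2
  obtain ⟨d, hd, hdd⟩ := hid
  -- `a` is idempotent modulo `π`
  have ha2 : π ∣ a * a - a := by
    apply hsat
    refine ⟨d - 2 * e₁ * b₁ + p * b₁ * b₁ + b₁, ?_, ?_⟩
    · refine B₁.add_mem (B₁.add_mem (B₁.sub_mem hd ?_) ?_) hb₁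
      · exact B₁.mul_mem (B₁.mul_mem (by
          have : (2 : E) = algebraMap O E 2 := (map_ofNat (algebraMap O E) 2).symm
          rw [this]; exact B₁.algebraMap_mem 2) he₁) hb₁
      · exact B₁.mul_mem (B₁.mul_mem hpB₁ hb₁) hb₁
    · rw [map_sub, map_mul, ha]
      linear_combination hdd
  rcases hidem a ha2 with ⟨a', ha'⟩ | ⟨a', ha'⟩
  · left
    refine ⟨algebraMap O E a' + b₁, B₁.add_mem (B₁.algebraMap_mem a') hb₁, ?_⟩
    have : algebraMap O E a = p * algebraMap O E a' := by rw [ha', map_mul]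
    rw [ha] at this
    linear_combination this
  · right
    refine ⟨algebraMap O E a' + b₁, B₁.add_mem (B₁.algebraMap_mem a') hb₁, ?_⟩
    have : algebraMap O E (a - 1) = p * algebraMap O E a' := by rw [ha', map_mul]
    rw [map_sub, ha, map_one] at this
    linear_combination this




/-- bounded `π`-power torsion of `N'' / N'` when `N'' ≤ span G ⊔ N'` with `G` finite and `O`
noetherian. -/
theorem bounded_torsion [IsNoetherianRing O] (π : O) (N' N'' : Submodule O E) (G : Set E)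
    (hG : G.Finite) (hle : N'' ≤ Submodule.span O G ⊔ N') :
    ∃ c : ℕ, ∀ x ∈ N'', ∀ n : ℕ, π ^ n • x ∈ N' → π ^ c • x ∈ N' := by
  classical
  -- the quotient module and the image of span G
  let Q := E ⧸ N'
  let V : Submodule O Q := (Submodule.span O G).map N'.mkQ
  have hVfg : V.FG := (Submodule.fg_span hG).map _
  have : IsNoetherian O V := isNoetherian_of_fg_of_noetherian V hVfg
  -- the chain of torsion submodules of V
  let K : ℕ →o Submodule O V :=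
    ⟨fun n => LinearMap.ker (LinearMap.lsmul O V (π ^ n)), by
      intro a b hab v hv
      rw [LinearMap.mem_ker, LinearMap.lsmul_apply] at hv ⊢
      obtain ⟨d, rfl⟩ := Nat.exists_eq_add_of_le hab
      rw [pow_add, mul_comm, mul_smul, hv, smul_zero]⟩
  obtain ⟨c, hc⟩ := (monotone_stabilizes_iff_noetherian.mpr inferInstance) K
  refine ⟨c, fun x hx n hn => ?_⟩
  -- the image of x lies in V
  have hxV : N'.mkQ x ∈ V := by
    have := hle hx
    obtain ⟨g, hg, y, hy, rfl⟩ := Submodule.mem_sup.mp this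
    have hy0 : N'.mkQ y = 0 := (Submodule.Quotient.mk_eq_zero N').mpr hy
    rw [map_add, hy0, add_zero]
    exact Submodule.mem_map_of_mem hg
  have hker : (⟨N'.mkQ x, hxV⟩ : V) ∈ K n := by
    show (⟨N'.mkQ x, hxV⟩ : V) ∈ LinearMap.ker (LinearMap.lsmul O V (π ^ n))
    rw [LinearMap.mem_ker, LinearMap.lsmul_apply]
    apply Subtype.ext
    show π ^ n • N'.mkQ x = 0
    rw [← map_smul]
    exact (Submodule.Quotient.mk_eq_zero N').mpr hn
  have hkerc : (⟨N'.mkQ x, hxV⟩ : V) ∈ K c := by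
    rcases le_total n c with h | h
    · exact K.monotone h hker
    · rw [hc n h]; exact hker
  have : (⟨N'.mkQ x, hxV⟩ : V) ∈ LinearMap.ker (LinearMap.lsmul O V (π ^ c)) := hkerc
  rw [LinearMap.mem_ker, LinearMap.lsmul_apply] at this
  have h2 := congrArg Subtype.val this
  have h3 : π ^ c • N'.mkQ x = 0 := h2
  rw [← map_smul] at h3
  exact (Submodule.Quotient.mk_eq_zero N').mp h3





/-- the finite set of generators of `H¹`. -/
def gens (u : E) {r : ℕ} (b : Fin r → E) (N : ℕ) : Set E :=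
  Set.range fun p : Fin r × Fin N => u ^ (p.2 : ℕ) * b p.1

theorem gens_finite (u : E) {r : ℕ} (b : Fin r → E) (N : ℕ) : (gens u b N).Finite :=
  Set.finite_range _

/-- `H¹ = M₁₂ / (M₁ + M₂)` is a finitely generated `O`-module (module version: `M₁` stable under
`t`, `M₂` stable under `u = t⁻¹`, `M₁` generated over `O[t]` by the `b i`, `M₁₂ = ⋃ uᵏ M₁`,
`u ^ N * b i ∈ M₂`). -/
theorem cech_h1_span_module (t u : E) (htu : t * u = 1) (M₁ M₂ M₁₂ : Submodule O E)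
    (ht : ∀ x ∈ M₁, t * x ∈ M₁) (hu : ∀ x ∈ M₂, u * x ∈ M₂) {r : ℕ} (b : Fin r → E)
    (hb : ∀ i, b i ∈ M₁)
    (hgen : ∀ x ∈ M₁, ∃ P : Fin r → O[X], x = ∑ i, aeval t (P i) * b i)
    (h12 : ∀ x ∈ M₁₂, ∃ k : ℕ, t ^ k * x ∈ M₁)
    (N : ℕ) (hN : ∀ i, u ^ N * b i ∈ M₂) :
    M₁₂ ≤ Submodule.span O (gens u b N) ⊔ (M₁ ⊔ M₂) := by
  set T : Submodule O E := Submodule.span O (gens u b N) ⊔ (M₁ ⊔ M₂) with hT
  have hB₁T : ∀ y ∈ M₁, y ∈ T := fun y hy =>
    Submodule.mem_sup_right (Submodule.mem_sup_left hy)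
  have hB₂T : ∀ y ∈ M₂, y ∈ T := fun y hy =>
    Submodule.mem_sup_right (Submodule.mem_sup_right hy)
  have htpow : ∀ (d : ℕ) (x : E), x ∈ M₁ → t ^ d * x ∈ M₁ := by
    intro d
    induction d with
    | zero => intro x hx; simpa using hx
    | succ d ih => intro x hx; rw [pow_succ, mul_assoc]; exact ih _ (ht x hx)
  have hupow : ∀ (d : ℕ) (x : E), x ∈ M₂ → u ^ d * x ∈ M₂ := by
    intro d
    induction d with
    | zero => intro x hx; simpa using hx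
    | succ d ih => intro x hx; rw [pow_succ, mul_assoc]; exact ih _ (hu x hx)
  -- negative powers
  have hneg : ∀ (i : Fin r) (a : ℕ), u ^ a * b i ∈ T := by
    intro i a
    by_cases ha : a < N
    · apply Submodule.mem_sup_left
      apply Submodule.subset_span
      exact ⟨(i, ⟨a, ha⟩), rfl⟩
    · rw [not_lt] at ha
      obtain ⟨d, rfl⟩ := Nat.exists_eq_add_of_le ha
      apply hB₂T
      rw [pow_add, mul_comm (u ^ N), mul_assoc]
      exact hupow d _ (hN i)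
  -- mixed monomials
  have hut : ∀ k : ℕ, u ^ k * t ^ k = 1 := by
    intro k
    rw [← mul_pow, mul_comm, htu, one_pow]
  have hmix : ∀ (i : Fin r) (k d : ℕ), u ^ k * (t ^ d * b i) ∈ T := by
    intro i k d
    rcases le_total k d with h | h
    · obtain ⟨e, rfl⟩ := Nat.exists_eq_add_of_le h
      apply hB₁T
      have : u ^ k * (t ^ (k + e) * b i) = t ^ e * b i := by
        rw [pow_add, ← mul_assoc, ← mul_assoc, hut, one_mul]
      rw [this]
      exact htpow e _ (hb i)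
    · obtain ⟨e, rfl⟩ := Nat.exists_eq_add_of_le h
      have : u ^ (d + e) * (t ^ d * b i) = u ^ e * b i := by
        rw [pow_add, mul_comm (u ^ d), mul_assoc, ← mul_assoc (u ^ d), hut, one_mul]
      rw [this]
      exact hneg i e
  intro x hx
  obtain ⟨k, hk⟩ := h12 x hx
  obtain ⟨P, hP⟩ := hgen _ hk
  have hx' : x = u ^ k * (t ^ k * x) := by rw [← mul_assoc, hut, one_mul]
  rw [hx', hP, Finset.mul_sum]
  refine Submodule.sum_mem _ fun i _ => ?_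
  rw [aeval_eq_sum_range, Finset.sum_mul, Finset.mul_sum]
  refine Submodule.sum_mem _ fun d _ => ?_
  rw [smul_mul_assoc, mul_smul_comm]
  exact Submodule.smul_mem _ _ (hmix i k d)

/-- `H¹ = B₁₂ / (B₁ + B₂)` is a finitely generated `O`-module (two-chart ring version). -/
theorem cech_h1_span (t u : E) (htu : t * u = 1) (B₁ B₂ B₁₂ : Subalgebra O E)
    (ht : t ∈ B₁) (hu : u ∈ B₂) {r : ℕ} (b : Fin r → E) (hb : ∀ i, b i ∈ B₁)
    (hgen : ∀ x ∈ B₁, ∃ P : Fin r → O[X], x = ∑ i, aeval t (P i) * b i)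
    (h12 : ∀ x ∈ B₁₂, ∃ k : ℕ, t ^ k * x ∈ B₁)
    (N : ℕ) (hN : ∀ i, u ^ N * b i ∈ B₂) :
    Subalgebra.toSubmodule B₁₂ ≤ Submodule.span O (gens u b N) ⊔
      (Subalgebra.toSubmodule B₁ ⊔ Subalgebra.toSubmodule B₂) :=
  cech_h1_span_module t u htu (Subalgebra.toSubmodule B₁) (Subalgebra.toSubmodule B₂)
    (Subalgebra.toSubmodule B₁₂) (fun _ hx => B₁.mul_mem ht hx) (fun _ hx => B₂.mul_mem hu hx)
    b hb hgen h12 N hN

/-- Bounded torsion of `H¹` of a "twisted" two-chart module (formal functions for a line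
bundle): `O` noetherian, hypotheses of `cech_h1_span_module`. -/
theorem cech_h1_bounded_torsion [IsNoetherianRing O] (π : O) (t u : E) (htu : t * u = 1)
    (M₁ M₂ M₁₂ : Submodule O E)
    (ht : ∀ x ∈ M₁, t * x ∈ M₁) (hu : ∀ x ∈ M₂, u * x ∈ M₂) {r : ℕ} (b : Fin r → E)
    (hb : ∀ i, b i ∈ M₁)
    (hgen : ∀ x ∈ M₁, ∃ P : Fin r → O[X], x = ∑ i, aeval t (P i) * b i)
    (h12 : ∀ x ∈ M₁₂, ∃ k : ℕ, t ^ k * x ∈ M₁)
    (N : ℕ) (hN : ∀ i, u ^ N * b i ∈ M₂) :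
    ∃ c : ℕ, ∀ x ∈ M₁₂, ∀ n : ℕ, π ^ n • x ∈ M₁ ⊔ M₂ → π ^ c • x ∈ M₁ ⊔ M₂ :=
  bounded_torsion π (M₁ ⊔ M₂) M₁₂ (gens u b N) (gens_finite u b N)
    (cech_h1_span_module t u htu M₁ M₂ M₁₂ ht hu b hb hgen h12 N hN)

/-- **Connectedness of the special fibre, assembled.**  `O` noetherian, `π ∈ O` with `O/π`
having only trivial idempotents; two charts `B₁ ∋ t`, `B₂ ∋ u = t⁻¹` inside `B₁₂ = B₁[u]`,
`B₁` finite over `O[t]` (generators `b i`, with `u ^ N * b i ∈ B₂`), `B₁ ⊓ B₂ = O`,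
`π B₁ ∩ O = π O`.  Then there is `c` such that every section modulo `π ^ (c + 1)` that is
idempotent modulo `π` is `0` or `1` modulo `π`. -/
theorem special_fibre_connected [IsNoetherianRing O] (π : O) (t u : E) (htu : t * u = 1)
    (B₁ B₂ B₁₂ : Subalgebra O E) (ht : t ∈ B₁) (hu : u ∈ B₂) {r : ℕ} (b : Fin r → E)
    (hb : ∀ i, b i ∈ B₁)
    (hgen : ∀ x ∈ B₁, ∃ P : Fin r → O[X], x = ∑ i, aeval t (P i) * b i)
    (h12 : ∀ x ∈ B₁₂, ∃ k : ℕ, t ^ k * x ∈ B₁)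
    (N : ℕ) (hN : ∀ i, u ^ N * b i ∈ B₂)
    (hH0 : ∀ x : E, x ∈ B₁ → x ∈ B₂ → ∃ a : O, algebraMap O E a = x)
    (hsat : ∀ a : O, (∃ b ∈ B₁, algebraMap O E a = algebraMap O E π * b) → π ∣ a)
    (hidem : ∀ a : O, π ∣ a * a - a → π ∣ a ∨ π ∣ a - 1) :
    ∃ c : ℕ, ∀ e₁ e₂ x : E, e₁ ∈ B₁ → e₂ ∈ B₂ → x ∈ B₁₂ →
      e₁ - e₂ = algebraMap O E π ^ (c + 1) * x →
      (∃ b ∈ B₁, e₁ * e₁ - e₁ = algebraMap O E π * b) →
      (∃ b ∈ B₁, e₁ = algebraMap O E π * b) ∨ (∃ b ∈ B₁, e₁ - 1 = algebraMap O E π * b) := by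
  obtain ⟨c, hc⟩ := bounded_torsion π
    (Subalgebra.toSubmodule B₁ ⊔ Subalgebra.toSubmodule B₂) (Subalgebra.toSubmodule B₁₂)
    (gens u b N) (gens_finite u b N)
    (cech_h1_span t u htu B₁ B₂ B₁₂ ht hu b hb hgen h12 N hN)
  refine ⟨c, fun e₁ e₂ x he₁ he₂ hx hglue hid =>
    idempotent_trivial π B₁ B₂ B₁₂ hH0 hsat hidem c ?_ e₁ e₂ x he₁ he₂ hx hglue hid⟩
  intro y hy n ⟨b₁, hb₁, b₂, hb₂, h⟩
  have hsm : ∀ k : ℕ, π ^ k • y = algebraMap O E π ^ k * y := fun k => by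
    rw [Algebra.smul_def, map_pow]
  have h1 : π ^ n • y ∈ Subalgebra.toSubmodule B₁ ⊔ Subalgebra.toSubmodule B₂ := by
    rw [hsm, h]
    exact Submodule.add_mem_sup hb₁ hb₂
  have h2 := hc y hy n h1
  rw [hsm] at h2
  obtain ⟨c₁, hc₁, c₂, hc₂, h3⟩ := Submodule.mem_sup.mp h2
  exact ⟨c₁, hc₁, c₂, hc₂, h3.symm⟩

end Fermat.Agent.RED.CORE.CechConnected14
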