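/-
Program H (S18), chapter RED/CORE (helper14): step (K4) of the line-bundle core (b*), abstract
form.  Formal functions for a "twisted" two-chart module `M₁, M₂ ⊂ M₁₂` over a noetherian base
`O`: if for every `n` there are `σ ∈ M₁`, `τ ∈ M₂` with `σ - τ ∈ π ^ n M₁₂`, then some `σ` can be
corrected by an element of `π M₁` to a GLOBAL section: `σ - π a ∈ M₁ ⊓ M₂`.
-/
import Mathlib
import Fermat.Agent.RED.CORE.CechConnected14

set_option autoImplicit false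

namespace Fermat.Agent.RED.CORE.CechSection14

open Polynomial

variable {O E : Type*} [CommRing O] [CommRing E] [Algebra O E]

/-- (K4), one level: bounded torsion by `π ^ c` and a section modulo `π ^ (c + 1)` give a global
section congruent to it modulo `π M₁`. -/
theorem exists_global_of_bounded (π : O) (M₁ M₂ M₁₂ : Submodule O E) (c : ℕ)
    (hbdd : ∀ x ∈ M₁₂, ∀ n : ℕ, π ^ n • x ∈ M₁ ⊔ M₂ → π ^ c • x ∈ M₁ ⊔ M₂)
    (σ τ x : E) (hσ : σ ∈ M₁) (hτ : τ ∈ M₂) (hx : x ∈ M₁₂)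
    (hglue : σ - τ = π ^ (c + 1) • x) :
    ∃ a ∈ M₁, ∃ b ∈ M₂, σ - π • a = τ + π • b := by
  have h1 : π ^ (c + 1) • x ∈ M₁ ⊔ M₂ := by
    rw [← hglue]
    exact Submodule.sub_mem _ (Submodule.mem_sup_left hσ) (Submodule.mem_sup_right hτ)
  obtain ⟨a, ha, b, hb, hab⟩ := Submodule.mem_sup.mp (hbdd x hx (c + 1) h1)
  refine ⟨a, ha, b, hb, ?_⟩
  have h2 : σ - τ = π • (a + b) := by
    rw [hglue, hab, pow_succ, mul_comm, mul_smul]
  rw [smul_add] at h2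
  linear_combination (exp := 1) h2

/-- (K4): formal functions.  `O` noetherian, Čech hypotheses on `M₁ M₂ M₁₂` (as in
`CechConnected14.cech_h1_span_module`), and for EVERY `n` a pair `σ ∈ M₁`, `τ ∈ M₂` with
`Q σ` and `σ - τ ∈ π ^ n M₁₂`.  Then there is `σ ∈ M₁` with `Q σ` and `a ∈ M₁` such that
`σ - π a ∈ M₁ ⊓ M₂` is a global section. -/
theorem exists_global_section [IsNoetherianRing O] (π : O) (t u : E) (htu : t * u = 1)
    (M₁ M₂ M₁₂ : Submodule O E)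
    (ht : ∀ x ∈ M₁, t * x ∈ M₁) (hu : ∀ x ∈ M₂, u * x ∈ M₂) {r : ℕ} (b : Fin r → E)
    (hb : ∀ i, b i ∈ M₁)
    (hgen : ∀ x ∈ M₁, ∃ P : Fin r → O[X], x = ∑ i, aeval t (P i) * b i)
    (h12 : ∀ x ∈ M₁₂, ∃ k : ℕ, t ^ k * x ∈ M₁)
    (N : ℕ) (hN : ∀ i, u ^ N * b i ∈ M₂)
    (Q : E → Prop)
    (hsec : ∀ n : ℕ, ∃ σ ∈ M₁, ∃ τ ∈ M₂, ∃ x ∈ M₁₂, Q σ ∧ σ - τ = π ^ n • x) :
    ∃ σ ∈ M₁, Q σ ∧ ∃ a ∈ M₁, σ - π • a ∈ M₁ ⊓ M₂ := by
  obtain ⟨c, hc⟩ := CechConnected14.cech_h1_bounded_torsion π t u htu M₁ M₂ M₁₂ ht hu b hb hgen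
    h12 N hN
  obtain ⟨σ, hσ, τ, hτ, x, hx, hQ, hglue⟩ := hsec (c + 1)
  obtain ⟨a, ha, b', hb', hab⟩ := exists_global_of_bounded π M₁ M₂ M₁₂ c hc σ τ x hσ hτ hx hglue
  refine ⟨σ, hσ, hQ, a, ha, ?_, ?_⟩
  · exact Submodule.sub_mem _ hσ (Submodule.smul_mem _ _ ha)
  · rw [hab]
    exact Submodule.add_mem _ hτ (Submodule.smul_mem _ _ hb')

end Fermat.Agent.RED.CORE.CechSection14
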