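/-
Program H (S18), chapter RED/CORE (helper24): the abstract core (b*) "Newton + Cech".

`F` a field, `R` a noetherian ring (the DVR `A_K`) with `π : R`, `m` invertible in `R`;
two charts `B0 ∋ t`, `B1 ∋ t⁻¹` inside `B01 = B0[1/t] = B1[t]` (subalgebras of `F`, closed under
`m`-th roots, `B0` finite over `R[t]`), a subring `Ov` ("the Gauss valuation ring") containing
`B01` in which `π` is a non-unit, `1 + π Ov ⊂ Ovˣ`, the charts being `π`-saturated in `Ov`.
For `u ≡ 1 mod π Ov`, if on each chart there is `g_i ≡ 1 mod π Ov` with `g_i ^ m * u ∈ B_i`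
(START), then there is a GLOBAL `s ≡ 1 mod π Ov`, `s ≠ 0`, with `s ^ m * u ∈ B0 ⊓ B1`.

No completion, no cover, no sheaves: Newton iteration on each chart inside the fractional ideal
`{g : g ^ m * u ∈ B_i}`, uniqueness of the roots in `Ov`, saturation, and helper14's
`CechSection14.exists_global_of_bounded` / `CechConnected14.cech_h1_bounded_torsion`.
-/
import Mathlib
import Fermat.Agent.RED.CORE.CechSection14

set_option autoImplicit false

namespace Fermat.Agent.RED.CORE.NewtonCech24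

open Polynomial

section Hensel

variable {B : Type*} [CommRing B]

/-- `(1 + x)^m = 1 + m x + x^2 c`. -/
theorem one_add_pow_expand (x : B) (m : ℕ) :
    ∃ c : B, (1 + x) ^ m = 1 + m * x + x ^ 2 * c := by
  induction m with
  | zero => exact ⟨0, by simp⟩
  | succ m ih =>
    obtain ⟨c, hc⟩ := ih
    refine ⟨m + c + x * c, ?_⟩
    rw [pow_succ, hc]; push_cast; ring

/-- Newton iteration for `m`-th roots of `w⁻¹`, `w ≡ 1 mod π`, `m` invertible. -/
theorem exists_root_mod_pow (π w minv : B) (m : ℕ) (hm : (m : B) * minv = 1)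
    (hw : π ∣ w - 1) :
    ∀ n : ℕ, ∃ b : B, π ∣ b - 1 ∧ π ^ (n + 1) ∣ b ^ m * w - 1 := by
  intro n
  induction n with
  | zero => exact ⟨1, by simp, by simpa using hw⟩
  | succ n ih =>
    obtain ⟨b, hb1, hb⟩ := ih
    set δ : B := b ^ m * w - 1 with hδ
    obtain ⟨c, hc⟩ := one_add_pow_expand (-(minv * δ)) m
    have hπδ : π ∣ δ := dvd_trans (dvd_pow_self π (Nat.succ_ne_zero n)) hb
    refine ⟨b * (1 + -(minv * δ)), ?_, ?_⟩
    · have : b * (1 + -(minv * δ)) - 1 = (b - 1) - b * minv * δ := by ring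
      rw [this]
      exact dvd_sub hb1 (Dvd.dvd.mul_left hπδ _)
    · have h1 : (b * (1 + -(minv * δ))) ^ m * w - 1
          = δ ^ 2 * (minv ^ 2 * c * (1 + δ) - 1) := by
        have hbw : b ^ m * w = 1 + δ := by rw [hδ]; ring
        rw [mul_pow, mul_right_comm, hbw, hc]
        linear_combination (-δ - δ ^ 2) * hm
      rw [h1]
      have h2 : π ^ (n + 1 + 1) ∣ δ ^ 2 := by
        have : π ^ (n + 1 + 1) ∣ (π ^ (n + 1)) ^ 2 := by
          rw [← pow_mul]; exact pow_dvd_pow π (by omega)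
        exact dvd_trans this (pow_dvd_pow_of_dvd hb 2)
      exact Dvd.dvd.mul_right h2 _

end Hensel

section RootIdeal

variable {R F : Type*} [CommRing R] [Field F] [Algebra R F]

/-- mixed monomials: if `x^m u, y^m u ∈ B` and `B` is closed under `m`-th roots then
`x^a y^b u ∈ B` for `a + b = m`. -/
theorem mixed_mem (B : Subalgebra R F) (m : ℕ)
    (hroot : ∀ x : F, x ^ m ∈ B → x ∈ B) (u x y : F) (hx : x ^ m * u ∈ B) (hy : y ^ m * u ∈ B)
    (a b : ℕ) (hab : a + b = m) : x ^ a * y ^ b * u ∈ B := by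
  apply hroot
  have : (x ^ a * y ^ b * u) ^ m = (x ^ m * u) ^ a * (y ^ m * u) ^ b := by
    rw [mul_pow, mul_pow, mul_pow, mul_pow, ← pow_mul, ← pow_mul, ← pow_mul, ← pow_mul,
      mul_comm a m, mul_comm b m]
    have : u ^ m = u ^ a * u ^ b := by rw [← pow_add, hab]
    rw [this]; ring
  rw [this]
  exact B.mul_mem (B.pow_mem hx a) (B.pow_mem hy b)

/-- the fractional ideal `{g : g^m u ∈ B}` as an `R`-submodule of `F`. -/
def rootIdeal (B : Subalgebra R F) (m : ℕ) (hroot : ∀ x : F, x ^ m ∈ B → x ∈ B) (hm : 0 < m)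
    (u : F) : Submodule R F where
  carrier := {g | g ^ m * u ∈ B}
  zero_mem' := by
    show (0 : F) ^ m * u ∈ B
    rw [zero_pow hm.ne', zero_mul]; exact B.zero_mem
  add_mem' := by
    intro x y hx hy
    show (x + y) ^ m * u ∈ B
    rw [add_pow, Finset.sum_mul]
    refine B.sum_mem fun k hk => ?_
    have hk' : k ≤ m := Nat.lt_succ_iff.mp (Finset.mem_range.mp hk)
    have h1 := mixed_mem B m hroot u x y hx hy k (m - k) (by omega)
    have : x ^ k * y ^ (m - k) * (m.choose k : F) * u = (m.choose k : F) * (x ^ k * y ^ (m - k) * u) := by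
      ring
    rw [this]
    exact B.mul_mem (B.natCast_mem _) h1
  smul_mem' := by
    intro c x hx
    show (c • x) ^ m * u ∈ B
    rw [Algebra.smul_def, mul_pow, mul_assoc]
    exact B.mul_mem (B.pow_mem (B.algebraMap_mem c) m) hx

theorem mem_rootIdeal (B : Subalgebra R F) (m : ℕ) (hroot : ∀ x : F, x ^ m ∈ B → x ∈ B)
    (hm : 0 < m) (u g : F) : g ∈ rootIdeal B m hroot hm u ↔ g ^ m * u ∈ B := Iff.rfl

theorem mul_mem_rootIdeal (B : Subalgebra R F) (m : ℕ) (hroot : ∀ x : F, x ^ m ∈ B → x ∈ B)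
    (hm : 0 < m) (u g b : F) (hb : b ∈ B) (hg : g ∈ rootIdeal B m hroot hm u) :
    b * g ∈ rootIdeal B m hroot hm u := by
  rw [mem_rootIdeal] at hg ⊢
  rw [mul_pow, mul_assoc]
  exact B.mul_mem (B.pow_mem hb m) hg

end RootIdeal

section Cong

variable {F : Type*} [Field F]

/-- `a ∈ p^n S`, explicit form. -/
def PD (S : Subring F) (p : F) (n : ℕ) (a : F) : Prop := ∃ c ∈ S, a = p ^ n * c

theorem PD.add {S : Subring F} {p : F} {n : ℕ} {a b : F} (ha : PD S p n a) (hb : PD S p n b) :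
    PD S p n (a + b) := by
  obtain ⟨c, hc, rfl⟩ := ha
  obtain ⟨d, hd, rfl⟩ := hb
  exact ⟨c + d, S.add_mem hc hd, by ring⟩

theorem PD.sub {S : Subring F} {p : F} {n : ℕ} {a b : F} (ha : PD S p n a) (hb : PD S p n b) :
    PD S p n (a - b) := by
  obtain ⟨c, hc, rfl⟩ := ha
  obtain ⟨d, hd, rfl⟩ := hb
  exact ⟨c - d, S.sub_mem hc hd, by ring⟩

theorem PD.mul_left {S : Subring F} {p : F} {n : ℕ} {a : F} (ha : PD S p n a) {b : F}
    (hb : b ∈ S) : PD S p n (b * a) := by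
  obtain ⟨c, hc, rfl⟩ := ha
  exact ⟨b * c, S.mul_mem hb hc, by ring⟩

theorem PD.mul_right {S : Subring F} {p : F} {n : ℕ} {a : F} (ha : PD S p n a) {b : F}
    (hb : b ∈ S) : PD S p n (a * b) := by
  rw [mul_comm]; exact ha.mul_left hb

theorem PD.zero (S : Subring F) (p : F) (n : ℕ) : PD S p n 0 := ⟨0, S.zero_mem, by simp⟩

theorem PD.mem {S : Subring F} {p : F} (hp : p ∈ S) {n : ℕ} {a : F} (ha : PD S p n a) : a ∈ S := by
  obtain ⟨c, hc, rfl⟩ := ha
  exact S.mul_mem (S.pow_mem hp n) hc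

/-- `x ≡ 1`, `y ≡ 1 mod p` implies `x y ≡ 1`. -/
theorem PD.mul_one {S : Subring F} {p : F} (hp : p ∈ S) {x y : F} (hx : PD S p 1 (x - 1))
    (hy : PD S p 1 (y - 1)) : PD S p 1 (x * y - 1) := by
  have hxS : x ∈ S := by
    have := hx.mem hp
    have h2 : x = (x - 1) + 1 := by ring
    rw [h2]; exact S.add_mem this S.one_mem
  have : x * y - 1 = x * (y - 1) + (x - 1) := by ring
  rw [this]
  exact (hy.mul_left hxS).add hx

theorem PD.pow_one {S : Subring F} {p : F} (hp : p ∈ S) {x : F} (hx : PD S p 1 (x - 1)) (k : ℕ) :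
    PD S p 1 (x ^ k - 1) := by
  induction k with
  | zero => simpa using PD.zero S p 1
  | succ k ih => rw [pow_succ]; exact PD.mul_one hp ih hx

end Cong

section FG

variable {R F : Type*} [CommRing R] [Field F] [Algebra R F]

theorem aeval_mem_subalgebra (B : Subalgebra R F) (t : F) (ht : t ∈ B) (P : R[X]) :
    aeval t P ∈ B := by
  have := Subalgebra.aeval_coe B (⟨t, ht⟩ : B) P
  simp only at this
  rw [this]
  exact (aeval (⟨t, ht⟩ : B) P).2

theorem aeval_mul_mem (I : Submodule R F) (t : F) (hIt : ∀ x ∈ I, t * x ∈ I) (P : R[X]) (x : F)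
    (hx : x ∈ I) : aeval t P * x ∈ I := by
  have hpow : ∀ (d : ℕ) (y : F), y ∈ I → t ^ d * y ∈ I := by
    intro d
    induction d with
    | zero => intro y hy; simpa using hy
    | succ d ih => intro y hy; rw [pow_succ, mul_assoc]; exact ih _ (hIt y hy)
  rw [aeval_eq_sum_range, Finset.sum_mul]
  refine I.sum_mem fun d _ => ?_
  rw [smul_mul_assoc]
  exact I.smul_mem _ (hpow d x hx)

/-- A `t`-stable `R`-submodule `I` of `F` which is carried into a finite `R[t]`-module `B` by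
multiplication with some `κ ≠ 0` is finitely generated over `R[t]` (`R` noetherian). -/
theorem fg_over_poly [IsNoetherianRing R] (t : F) (B : Subalgebra R F) (ht : t ∈ B) {r : ℕ}
    (e : Fin r → F) (he : ∀ i, e i ∈ B)
    (hgen : ∀ x ∈ B, ∃ P : Fin r → R[X], x = ∑ i, aeval t (P i) * e i)
    (I : Submodule R F) (hIt : ∀ x ∈ I, t * x ∈ I) (κ : F) (hκ : κ ≠ 0)
    (hκI : ∀ x ∈ I, κ * x ∈ B) :
    ∃ (r' : ℕ) (b : Fin r' → F), (∀ i, b i ∈ I) ∧
      ∀ x ∈ I, ∃ P : Fin r' → R[X], x = ∑ i, aeval t (P i) * b i := by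
  classical
  let alg : Algebra R[X] F := (aeval t : R[X] →ₐ[R] F).toRingHom.toAlgebra
  have hsmul : ∀ (P : R[X]) (x : F), P • x = aeval t P * x := fun P x => by
    rw [Algebra.smul_def]; rfl
  let B' : Submodule R[X] F :=
    { carrier := B
      zero_mem' := B.zero_mem
      add_mem' := B.add_mem
      smul_mem' := fun P x hx => by
        show P • x ∈ B
        rw [hsmul]; exact B.mul_mem (aeval_mem_subalgebra B t ht P) hx }
  let I' : Submodule R[X] F :=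
    { carrier := I
      zero_mem' := I.zero_mem
      add_mem' := I.add_mem
      smul_mem' := fun P x hx => by
        show P • x ∈ I
        rw [hsmul]; exact aeval_mul_mem I t hIt P x hx }
  have hB'fg : B'.FG := by
    have : B' = Submodule.span R[X] (Set.range e) := by
      apply le_antisymm
      · intro x hx
        obtain ⟨P, hP⟩ := hgen x hx
        rw [hP]
        refine Submodule.sum_mem _ fun i _ => ?_
        rw [← hsmul]
        exact Submodule.smul_mem _ _ (Submodule.subset_span ⟨i, rfl⟩)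
      · rw [Submodule.span_le]
        rintro _ ⟨i, rfl⟩
        exact he i
    rw [this]
    exact Submodule.fg_span (Set.finite_range e)
  have : IsNoetherian R[X] B' := isNoetherian_of_fg_of_noetherian B' hB'fg
  have hJle : I'.map (LinearMap.mulLeft R[X] κ) ≤ B' := by
    rintro _ ⟨x, hx, rfl⟩
    exact hκI x hx
  have hJfg : (I'.map (LinearMap.mulLeft R[X] κ)).FG := Submodule.FG.of_le_of_isNoetherian hJle
  have hI'eq : I' = (I'.map (LinearMap.mulLeft R[X] κ)).map (LinearMap.mulLeft R[X] κ⁻¹) := by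
    apply le_antisymm
    · intro x hx
      refine ⟨κ * x, ⟨x, hx, rfl⟩, ?_⟩
      simp [LinearMap.mulLeft_apply, ← mul_assoc, inv_mul_cancel₀ hκ]
    · rintro _ ⟨_, ⟨x, hx, rfl⟩, rfl⟩
      have : κ⁻¹ * (κ * x) = x := by rw [← mul_assoc, inv_mul_cancel₀ hκ, one_mul]
      simp only [LinearMap.mulLeft_apply]
      rw [this]; exact hx
  have hI'fg : I'.FG := by rw [hI'eq]; exact hJfg.map _
  obtain ⟨r', b, hb⟩ := Submodule.fg_iff_exists_fin_generating_family.mp hI'fg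
  refine ⟨r', b, fun i => ?_, fun x hx => ?_⟩
  · have : b i ∈ I' := by rw [← hb]; exact Submodule.subset_span ⟨i, rfl⟩
    exact this
  · have hx' : x ∈ Submodule.span R[X] (Set.range b) := by rw [hb]; exact hx
    obtain ⟨c, hc⟩ := (Submodule.mem_span_range_iff_exists_fun _).mp hx'
    refine ⟨c, ?_⟩
    rw [← hc]
    exact Finset.sum_congr rfl fun i _ => hsmul _ _

end FG

section Main

variable {R F : Type*} [CommRing R] [Field F] [Algebra R F]

/-- Newton on one chart: from a start `g` (`g ^ m * u ∈ B`, `g ≡ 1 mod p Ov`) to a root of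
`x ^ m * u = 1` modulo `p ^ (n+1) B`, still in the fractional ideal and `≡ 1 mod p Ov`. -/
theorem chart_newton (π minv : R) (m : ℕ) (hminv : (m : R) * minv = 1)
    (B : Subalgebra R F) (Ov : Subring F) (hBOv : ∀ x ∈ B, x ∈ Ov)
    (hsat : ∀ b ∈ B, ∀ c ∈ Ov, b = algebraMap R F π * c → c ∈ B)
    (u : F) (hu : PD Ov (algebraMap R F π) 1 (u - 1))
    (g : F) (hg : g ^ m * u ∈ B) (hg' : PD Ov (algebraMap R F π) 1 (g - 1)) (n : ℕ) :
    ∃ x : F, x ^ m * u ∈ B ∧ PD Ov (algebraMap R F π) 1 (x - 1) ∧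
      ∃ c ∈ B, x ^ m * u - 1 = algebraMap R F π ^ (n + 1) * c := by
  set p : F := algebraMap R F π with hp
  have hpOv : p ∈ Ov := hBOv _ (B.algebraMap_mem π)
  have hw1 : PD Ov p 1 (g ^ m * u - 1) := PD.mul_one hpOv (PD.pow_one hpOv hg' m) hu
  obtain ⟨c, hc, hwc⟩ := hw1
  rw [pow_one] at hwc
  have hcB : c ∈ B := hsat _ (B.sub_mem hg B.one_mem) c hc hwc
  -- work in the ring `B`
  have hdvd : algebraMap R B π ∣ (⟨g ^ m * u, hg⟩ : B) - 1 := by
    refine ⟨⟨c, hcB⟩, Subtype.ext ?_⟩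
    simpa using hwc
  have hmB : ((m : ℕ) : B) * algebraMap R B minv = 1 := by
    rw [← map_natCast (algebraMap R B), ← map_mul, hminv, map_one]
  obtain ⟨b, hb1, hbn⟩ := exists_root_mod_pow (algebraMap R B π) (⟨g ^ m * u, hg⟩ : B)
    (algebraMap R B minv) m hmB hdvd n
  obtain ⟨d, hd⟩ := hb1
  obtain ⟨d', hd'⟩ := hbn
  have hd1 : (b : F) - 1 = p * (d : F) := by
    have := congrArg Subtype.val hd
    simpa using this
  have hd2 : (b : F) ^ m * (g ^ m * u) - 1 = p ^ (n + 1) * (d' : F) := by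
    have := congrArg Subtype.val hd'
    simpa using this
  refine ⟨(b : F) * g, ?_, ?_, ⟨(d' : F), d'.2, ?_⟩⟩
  · rw [mul_pow, mul_assoc]
    exact B.mul_mem (B.pow_mem b.2 m) hg
  · refine PD.mul_one hpOv ⟨(d : F), hBOv _ d.2, ?_⟩ hg'
    rw [pow_one]; exact hd1
  · rw [mul_pow, mul_assoc]; exact hd2

end Main

section Final

variable {R F : Type*} [CommRing R] [Field F] [Algebra R F]

/-- iterated saturation. -/
theorem sat_pow (p : F) (B : Subalgebra R F) (Ov : Subring F) (hpOv : p ∈ Ov)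
    (hsat : ∀ b ∈ B, ∀ c ∈ Ov, b = p * c → c ∈ B) :
    ∀ (k : ℕ), ∀ b ∈ B, ∀ c ∈ Ov, b = p ^ k * c → c ∈ B := by
  intro k
  induction k with
  | zero => intro b hb c _ h; rw [pow_zero, one_mul] at h; rw [← h]; exact hb
  | succ k ih =>
    intro b hb c hc h
    have h1 : p ^ k * c ∈ B :=
      hsat b hb (p ^ k * c) (Ov.mul_mem (Ov.pow_mem hpOv k) hc) (by rw [h, pow_succ]; ring)
    exact ih _ h1 c hc rfl

/-- elements `≡ 1 mod p Ov` are nonzero when `p⁻¹ ∉ Ov`. -/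
theorem ne_zero_of_PD_sub_one {Ov : Subring F} {p : F} (hpnu : p⁻¹ ∉ Ov) {x : F}
    (hx : PD Ov p 1 (x - 1)) : x ≠ 0 := by
  rintro rfl
  obtain ⟨c, hc, h⟩ := hx
  rw [pow_one, zero_sub] at h
  apply hpnu
  have hp0 : p ≠ 0 := by
    rintro rfl
    rw [zero_mul] at h
    exact absurd h (by norm_num)
  have : p⁻¹ = -c := by
    field_simp
    linear_combination -h
  rw [this]; exact Ov.neg_mem hc

/-- elements `≡ 1 mod p Ov` are units of `Ov`. -/
theorem inv_mem_of_PD_sub_one {Ov : Subring F} {p : F}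
    (hunit : ∀ c ∈ Ov, (1 + p * c)⁻¹ ∈ Ov) {x : F} (hx : PD Ov p 1 (x - 1)) : x⁻¹ ∈ Ov := by
  obtain ⟨c, hc, h⟩ := hx
  rw [pow_one] at h
  have : x = 1 + p * c := by rw [← h]; ring
  rw [this]; exact hunit c hc

theorem mem_of_PD_sub_one {Ov : Subring F} {p : F} (hp : p ∈ Ov) {x : F}
    (hx : PD Ov p 1 (x - 1)) : x ∈ Ov := by
  have h2 : x = (x - 1) + 1 := by ring
  rw [h2]; exact Ov.add_mem (hx.mem hp) Ov.one_mem

theorem PD.sum {Ov : Subring F} {p : F} {n : ℕ} {ι : Type*} (s : Finset ι) (f : ι → F)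
    (h : ∀ i ∈ s, PD Ov p n (f i)) : PD Ov p n (∑ i ∈ s, f i) := by
  classical
  induction s using Finset.induction_on with
  | empty => simpa using PD.zero Ov p n
  | insert a s ha ih =>
    rw [Finset.sum_insert ha]
    exact (h a (Finset.mem_insert_self a s)).add
      (ih fun i hi => h i (Finset.mem_insert_of_mem hi))

/-- uniqueness of the Newton roots inside `Ov`. -/
theorem root_unique (m : ℕ) (Ov : Subring F) (p minv' : F) (hpOv : p ∈ Ov)
    (hminv' : (m : F) * minv' = 1) (hminvOv : minv' ∈ Ov)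
    (hpnu : p⁻¹ ∉ Ov) (hunit : ∀ c ∈ Ov, (1 + p * c)⁻¹ ∈ Ov)
    (u : F) (hu : PD Ov p 1 (u - 1)) (x y : F) (hx : PD Ov p 1 (x - 1)) (hy : PD Ov p 1 (y - 1))
    (n : ℕ) (hxn : PD Ov p n (x ^ m * u - 1)) (hyn : PD Ov p n (y ^ m * u - 1)) :
    PD Ov p n (x - y) := by
  set S : F := ∑ i ∈ Finset.range m, x ^ i * y ^ (m - 1 - i) with hS
  have hgeom : S * (x - y) = x ^ m - y ^ m := by
    rw [hS]
    exact Commute.geom_sum₂_mul (Commute.all x y) m
  -- S ≡ m mod p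
  have hSm : PD Ov p 1 (S - m) := by
    have : S - m = ∑ i ∈ Finset.range m, (x ^ i * y ^ (m - 1 - i) - 1) := by
      rw [Finset.sum_sub_distrib, Finset.sum_const, Finset.card_range, nsmul_eq_mul, mul_one]
    rw [this]
    exact PD.sum _ _ fun i _ => PD.mul_one hpOv (PD.pow_one hpOv hx i) (PD.pow_one hpOv hy _)
  -- S * minv' ≡ 1
  have hS1 : PD Ov p 1 (S * minv' - 1) := by
    have : S * minv' - 1 = (S - m) * minv' := by rw [sub_mul, hminv']
    rw [this]; exact hSm.mul_right hminvOv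
  have hSinv : (S * minv')⁻¹ ∈ Ov := inv_mem_of_PD_sub_one hunit hS1
  have hSne : S * minv' ≠ 0 := ne_zero_of_PD_sub_one hpnu hS1
  have hune : u ≠ 0 := ne_zero_of_PD_sub_one hpnu hu
  have huinv : u⁻¹ ∈ Ov := inv_mem_of_PD_sub_one hunit hu
  have hS0 : S ≠ 0 := left_ne_zero_of_mul hSne
  have hm0 : minv' ≠ 0 := right_ne_zero_of_mul hSne
  have key : x - y = (S * minv')⁻¹ * minv' * u⁻¹ * ((x ^ m * u - 1) - (y ^ m * u - 1)) := by
    have h1 : (x ^ m * u - 1) - (y ^ m * u - 1) = S * (x - y) * u := by rw [hgeom]; ring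
    rw [h1, mul_inv]
    field_simp
  rw [key]
  exact (hxn.sub hyn).mul_left
    (Ov.mul_mem (Ov.mul_mem hSinv hminvOv) huinv)

end Final

section Assemble

variable {R F : Type*} [CommRing R] [Field F] [Algebra R F]

/-- localisation step for the fractional ideals: if `x ∈ I(B01)` then `s ^ k * x ∈ I(B)`
for some `k`, where `s ∈ B` and `B01 = ⋃ s^{-k} B`. -/
theorem rootIdeal_loc (B B01 : Subalgebra R F) (m : ℕ) (hm : 0 < m) (s : F) (hs : s ∈ B)
    (hloc : ∀ x ∈ B01, ∃ k : ℕ, s ^ k * x ∈ B) (u x : F) (hx : x ^ m * u ∈ B01) :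
    ∃ k : ℕ, (s ^ k * x) ^ m * u ∈ B := by
  obtain ⟨k, hk⟩ := hloc _ hx
  refine ⟨k, ?_⟩
  obtain ⟨m', rfl⟩ : ∃ m', m = m' + 1 := ⟨m - 1, (Nat.sub_add_cancel hm).symm⟩
  have : (s ^ k * x) ^ (m' + 1) * u = (s ^ k) ^ m' * (s ^ k * (x ^ (m' + 1) * u)) := by ring
  rw [this]
  exact B.mul_mem (B.pow_mem (B.pow_mem hs k) m') hk

/-- **The abstract core (b\*).** -/
theorem exists_global_root [IsNoetherianRing R]
    (π : R) (m : ℕ) (hm : 0 < m) (minv : R) (hminv : (m : R) * minv = 1)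
    (t : F) (ht0 : t ≠ 0)
    (B0 B1 B01 : Subalgebra R F) (h0le : B0 ≤ B01) (h1le : B1 ≤ B01)
    (ht : t ∈ B0) (htinv : t⁻¹ ∈ B1)
    (hroot0 : ∀ x : F, x ^ m ∈ B0 → x ∈ B0)
    (hroot1 : ∀ x : F, x ^ m ∈ B1 → x ∈ B1)
    (hroot01 : ∀ x : F, x ^ m ∈ B01 → x ∈ B01)
    (hloc0 : ∀ x ∈ B01, ∃ k : ℕ, t ^ k * x ∈ B0)
    (hloc1 : ∀ x ∈ B01, ∃ k : ℕ, t⁻¹ ^ k * x ∈ B1)
    {r : ℕ} (e : Fin r → F) (he : ∀ i, e i ∈ B0)
    (hgen : ∀ x ∈ B0, ∃ P : Fin r → R[X], x = ∑ i, aeval t (P i) * e i)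
    (Ov : Subring F) (hB01Ov : ∀ x ∈ B01, x ∈ Ov)
    (hrootOv : ∀ x : F, x ^ m ∈ Ov → x ∈ Ov)
    (hpnu : (algebraMap R F π)⁻¹ ∉ Ov)
    (hunit : ∀ c ∈ Ov, (1 + algebraMap R F π * c)⁻¹ ∈ Ov)
    (hsat0 : ∀ b ∈ B0, ∀ c ∈ Ov, b = algebraMap R F π * c → c ∈ B0)
    (hsat1 : ∀ b ∈ B1, ∀ c ∈ Ov, b = algebraMap R F π * c → c ∈ B1)
    (hsat01 : ∀ b ∈ B01, ∀ c ∈ Ov, b = algebraMap R F π * c → c ∈ B01)
    (u : F) (hu : ∃ c ∈ Ov, u - 1 = algebraMap R F π * c)
    (g0 g1 : F) (hg0 : g0 ^ m * u ∈ B0) (hg0' : ∃ c ∈ Ov, g0 - 1 = algebraMap R F π * c)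
    (hg1 : g1 ^ m * u ∈ B1) (hg1' : ∃ c ∈ Ov, g1 - 1 = algebraMap R F π * c) :
    ∃ s : F, s ≠ 0 ∧ s ^ m * u ∈ B0 ∧ s ^ m * u ∈ B1 ∧
      ∃ c ∈ Ov, s - 1 = algebraMap R F π * c := by
  classical
  set p : F := algebraMap R F π with hp
  have toPD : ∀ {a : F}, (∃ c ∈ Ov, a = p * c) → PD Ov p 1 a := by
    rintro a ⟨c, hc, h⟩; exact ⟨c, hc, by rw [pow_one]; exact h⟩
  have hu' : PD Ov p 1 (u - 1) := toPD hu
  have hg0P : PD Ov p 1 (g0 - 1) := toPD hg0'
  have hg1P : PD Ov p 1 (g1 - 1) := toPD hg1'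
  have hpOv : p ∈ Ov := hB01Ov _ (B01.algebraMap_mem π)
  have hB0Ov : ∀ x ∈ B0, x ∈ Ov := fun x hx => hB01Ov x (h0le hx)
  have hB1Ov : ∀ x ∈ B1, x ∈ Ov := fun x hx => hB01Ov x (h1le hx)
  have hune : u ≠ 0 := ne_zero_of_PD_sub_one hpnu hu'
  have huinv : u⁻¹ ∈ Ov := inv_mem_of_PD_sub_one hunit hu'
  have huOv : u ∈ Ov := mem_of_PD_sub_one hpOv hu'
  have hg0ne : g0 ≠ 0 := ne_zero_of_PD_sub_one hpnu hg0P
  -- the three fractional ideals
  set I0 := rootIdeal B0 m hroot0 hm u with hI0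
  set I1 := rootIdeal B1 m hroot1 hm u with hI1
  set I01 := rootIdeal B01 m hroot01 hm u with hI01
  have hI0le : I0 ≤ I01 := fun x hx => h0le hx
  have hI1le : I1 ≤ I01 := fun x hx => h1le hx
  -- Čech data
  have htI0 : ∀ x ∈ I0, t * x ∈ I0 := fun x hx => mul_mem_rootIdeal B0 m hroot0 hm u x t ht hx
  have htI1 : ∀ x ∈ I1, t⁻¹ * x ∈ I1 := fun x hx =>
    mul_mem_rootIdeal B1 m hroot1 hm u x t⁻¹ htinv hx
  obtain ⟨m', hm'⟩ : ∃ m', m = 1 + m' := ⟨m - 1, by omega⟩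
  have hκ : g0 ^ m' * u ≠ 0 := mul_ne_zero (pow_ne_zero _ hg0ne) hune
  have hκI : ∀ x ∈ I0, g0 ^ m' * u * x ∈ B0 := by
    intro x hx
    have := mixed_mem B0 m hroot0 u x g0 hx hg0 1 m' hm'.symm
    have h2 : g0 ^ m' * u * x = x ^ 1 * g0 ^ m' * u := by ring
    rw [h2]; exact this
  obtain ⟨r', b, hbI0, hbgen⟩ := fg_over_poly t B0 ht e he hgen I0 htI0 _ hκ hκI
  have h12 : ∀ x ∈ I01, ∃ k : ℕ, t ^ k * x ∈ I0 := fun x hx =>
    rootIdeal_loc B0 B01 m hm t ht hloc0 u x hx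
  have h12' : ∀ x ∈ I01, ∃ k : ℕ, t⁻¹ ^ k * x ∈ I1 := fun x hx =>
    rootIdeal_loc B1 B01 m hm t⁻¹ htinv hloc1 u x hx
  choose kk hkk using fun i => h12' (b i) (hI0le (hbI0 i))
  have hN : ∀ i, t⁻¹ ^ (∑ j, kk j) * b i ∈ I1 := by
    intro i
    have hle : kk i ≤ ∑ j, kk j := Finset.single_le_sum (fun _ _ => Nat.zero_le _) (Finset.mem_univ i)
    obtain ⟨d, hd⟩ := Nat.exists_eq_add_of_le hle
    rw [hd, pow_add, mul_comm (t⁻¹ ^ kk i), mul_assoc]
    have hpow : ∀ (d : ℕ) (y : F), y ∈ I1 → t⁻¹ ^ d * y ∈ I1 := by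
      intro d
      induction d with
      | zero => intro y hy; simpa using hy
      | succ d ih => intro y hy; rw [pow_succ, mul_assoc]; exact ih _ (htI1 y hy)
    exact hpow d _ (hkk i)
  obtain ⟨c, hc⟩ := CechConnected14.cech_h1_bounded_torsion π t t⁻¹ (mul_inv_cancel₀ ht0)
    I0 I1 I01 htI0 htI1 b hbI0 hbgen h12 (∑ j, kk j) hN
  -- Newton on both charts at level `c + 1`
  obtain ⟨x, hxI, hx1, c0, hc0, hxc⟩ := chart_newton π minv m hminv B0 Ov hB0Ov hsat0 u hu' g0 hg0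
    hg0P c
  obtain ⟨y, hyI, hy1, c1, hc1, hyc⟩ := chart_newton π minv m hminv B1 Ov hB1Ov hsat1 u hu' g1 hg1
    hg1P c
  -- uniqueness in `Ov`
  have hminvF : (m : F) * algebraMap R F minv = 1 := by
    rw [← map_natCast (algebraMap R F), ← map_mul, hminv, map_one]
  have hxy : PD Ov p (c + 1) (x - y) :=
    root_unique m Ov p (algebraMap R F minv) hpOv hminvF (hB01Ov _ (B01.algebraMap_mem minv))
      hpnu hunit u hu' x y hx1 hy1 (c + 1) ⟨c0, hB0Ov _ hc0, hxc⟩ ⟨c1, hB1Ov _ hc1, hyc⟩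
  obtain ⟨γ, hγOv, hγ⟩ := hxy
  -- saturation: `γ ∈ I01`
  have hγI : γ ∈ I01 := by
    show γ ^ m * u ∈ B01
    have hxyI : x - y ∈ I01 := I01.sub_mem (hI0le hxI) (hI1le hyI)
    have h1 : (x - y) ^ m * u ∈ B01 := hxyI
    have h2 : (x - y) ^ m * u = p ^ ((c + 1) * m) * (γ ^ m * u) := by
      rw [hγ, mul_pow, ← pow_mul]; ring
    exact sat_pow p B01 Ov hpOv hsat01 _ _ h1 _ (Ov.mul_mem (Ov.pow_mem hγOv m) huOv) h2
  -- Čech
  have hglue : x - y = π ^ (c + 1) • γ := by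
    rw [hγ, Algebra.smul_def, map_pow]
  obtain ⟨a, haI, a', ha'I, haa⟩ := CechSection14.exists_global_of_bounded π I0 I1 I01 c hc x y γ
    hxI hyI hγI hglue
  -- `a ∈ Ov`
  have haOv : a ∈ Ov := by
    apply hrootOv
    have h1 : a ^ m * u ∈ B0 := haI
    have h2 : a ^ m = a ^ m * u * u⁻¹ := by
      rw [mul_assoc, mul_inv_cancel₀ hune, mul_one]
    rw [h2]
    exact Ov.mul_mem (hB0Ov _ h1) huinv
  have hs1 : PD Ov p 1 (x - π • a - 1) := by
    have h1 : x - π • a - 1 = (x - 1) - p * a := by rw [Algebra.smul_def]; ring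
    rw [h1]
    exact hx1.sub ⟨a, haOv, by rw [pow_one]⟩
  refine ⟨x - π • a, ne_zero_of_PD_sub_one hpnu hs1, ?_, ?_, ?_⟩
  · exact I0.sub_mem hxI (I0.smul_mem _ haI)
  · rw [haa]
    exact I1.add_mem hyI (I1.smul_mem _ ha'I)
  · obtain ⟨d, hd, h⟩ := hs1
    exact ⟨d, hd, by rw [h, pow_one]⟩

end Assemble

end Fermat.Agent.RED.CORE.NewtonCech24
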