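/-
Program H (S18), chapter RED/CORE (helper24): ASSEMBLY of the abstract core (b'').

`core_b_of_start`: from the contract `CoreIface24.TwoChartModel`, (U1) and a START on each chart
(`g_i ^ m * u ∈ B_i`, `g_i ≡ 1 mod π Ov`) to `s ≠ 0` with `s ^ m * u` integral over `K`:
builds the overlap chart `B01 = B0[1/t]`, discharges the hypotheses of
`NewtonCech24.exists_global_root`, and ends with `Constants18` (an element integral over `R[t]`
and over `R[t⁻¹]` is algebraic over `K`).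
-/
import Mathlib
import Fermat.Agent.RED.CORE.CoreIface24
import Fermat.Agent.RED.CORE.NewtonCech24
import Fermat.Agent.RED.CORE.Constants18

set_option autoImplicit false

namespace Fermat.Agent.RED.CORE.CoreB24

open Polynomial CoreIface24

variable {R K F : Type*} [CommRing R] [Field K] [Field F] [Algebra R K] [Algebra K F]
  [Algebra R F] [IsScalarTower R K F]

/-- The overlap chart `B01 = B0[1/t]`. -/
def overlap (t : F) (B0 : Subalgebra R F) (ht : t ∈ B0) : Subalgebra R F where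
  carrier := {x | ∃ k : ℕ, t ^ k * x ∈ B0}
  mul_mem' := by
    rintro x y ⟨k, hk⟩ ⟨j, hj⟩
    refine ⟨k + j, ?_⟩
    have h1 : t ^ (k + j) * (x * y) = (t ^ k * x) * (t ^ j * y) := by rw [pow_add]; ring
    rw [h1]
    exact B0.mul_mem hk hj
  one_mem' := ⟨0, by simp⟩
  add_mem' := by
    rintro x y ⟨k, hk⟩ ⟨j, hj⟩
    refine ⟨k + j, ?_⟩
    have h1 : t ^ (k + j) * (x + y) = t ^ j * (t ^ k * x) + t ^ k * (t ^ j * y) := by
      rw [pow_add]; ring
    rw [h1]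
    exact B0.add_mem (B0.mul_mem (B0.pow_mem ht j) hk) (B0.mul_mem (B0.pow_mem ht k) hj)
  zero_mem' := ⟨0, by simp⟩
  algebraMap_mem' := fun r => ⟨0, by simp⟩

theorem mem_overlap (t : F) (B0 : Subalgebra R F) (ht : t ∈ B0) (x : F) :
    x ∈ overlap t B0 ht ↔ ∃ k : ℕ, t ^ k * x ∈ B0 := Iff.rfl

/-- integrally closed in `F` implies closed under `m`-th roots. -/
theorem root_closed (B : Subalgebra R F) (intcl : ∀ x : F, IsIntegral B x → x ∈ B) (m : ℕ)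
    (hm : 0 < m) (x : F) (hx : x ^ m ∈ B) : x ∈ B := by
  apply intcl
  apply IsIntegral.of_pow hm
  exact isIntegral_algebraMap (R := B) (x := (⟨x ^ m, hx⟩ : B))

/-- valuation subrings are closed under roots. -/
theorem vs_root_closed (Ov : ValuationSubring F) (m : ℕ) (hm : 0 < m) (x : F) (hx : x ^ m ∈ Ov) :
    x ∈ Ov := by
  rcases Ov.mem_or_inv_mem x with h | h
  · exact h
  · rcases eq_or_ne x 0 with rfl | hx0
    · exact Ov.zero_mem
    · obtain ⟨m', rfl⟩ : ∃ m', m = m' + 1 := ⟨m - 1, (Nat.sub_add_cancel hm).symm⟩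
      have : x = x ^ (m' + 1) * (x⁻¹) ^ m' := by
        rw [pow_succ, inv_pow]
        field_simp
      rw [this]
      exact Ov.mul_mem _ _ hx (pow_mem h m')

theorem core_b_of_start (π : R) (t : F) (B0 B1 : Subalgebra R F) (Ov : ValuationSubring F)
    (M : TwoChartModel R K F π t B0 B1 Ov) (m : ℕ) (hm : 0 < m) (minv : R)
    (hminv : (m : R) * minv = 1) (u : F) (hu1 : U1 R F π Ov u)
    (g0 g1 : F) (hg0 : g0 ^ m * u ∈ B0) (hg0' : ∃ c ∈ Ov, g0 - 1 = algebraMap R F π * c)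
    (hg1 : g1 ^ m * u ∈ B1) (hg1' : ∃ c ∈ Ov, g1 - 1 = algebraMap R F π * c) :
    ∃ s : F, s ≠ 0 ∧ IsIntegral K (s ^ m * u) := by
  have := M.noethR
  set p : F := algebraMap R F π with hp
  have ht0 := M.t_ne
  have htinv_pow : ∀ k : ℕ, t⁻¹ ^ k * t ^ k = 1 := fun k => by
    rw [← mul_pow, inv_mul_cancel₀ ht0, one_pow]
  set B01 := overlap t B0 M.t_mem with hB01
  have h0le : B0 ≤ B01 := fun x hx => ⟨0, by simpa using hx⟩
  have h1le : B1 ≤ B01 := fun x hx => M.ov0 x hx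
  have hroot0 := root_closed B0 M.intcl0 m hm
  have hroot1 := root_closed B1 M.intcl1 m hm
  have hroot01 : ∀ x : F, x ^ m ∈ B01 → x ∈ B01 := by
    rintro x ⟨k, hk⟩
    refine ⟨k, hroot0 _ ?_⟩
    obtain ⟨m', rfl⟩ : ∃ m', m = m' + 1 := ⟨m - 1, (Nat.sub_add_cancel hm).symm⟩
    have : (t ^ k * x) ^ (m' + 1) = (t ^ k) ^ m' * (t ^ k * x ^ (m' + 1)) := by ring
    rw [this]
    exact B0.mul_mem (B0.pow_mem (B0.pow_mem M.t_mem k) m') hk
  have hloc0 : ∀ x ∈ B01, ∃ k : ℕ, t ^ k * x ∈ B0 := fun x hx => hx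
  have hloc1 : ∀ x ∈ B01, ∃ k : ℕ, t⁻¹ ^ k * x ∈ B1 := by
    rintro x ⟨k, hk⟩
    obtain ⟨j, hj⟩ := M.ov1 _ hk
    refine ⟨j, ?_⟩
    have : t⁻¹ ^ j * x = t⁻¹ ^ k * (t⁻¹ ^ j * (t ^ k * x)) := by
      have h1 : t⁻¹ ^ k * (t⁻¹ ^ j * (t ^ k * x)) = (t⁻¹ ^ k * t ^ k) * (t⁻¹ ^ j * x) := by ring
      rw [h1, htinv_pow, one_mul]
    rw [this]
    exact B1.mul_mem (B1.pow_mem M.tinv_mem k) hj
  obtain ⟨r, e, he, hgen⟩ := M.fin0
  have hB01Ov : ∀ x ∈ B01, x ∈ Ov.toSubring := by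
    rintro x ⟨k, hk⟩
    have : x = t⁻¹ ^ k * (t ^ k * x) := by rw [← mul_assoc, htinv_pow, one_mul]
    rw [this]
    exact Ov.mul_mem _ _ (pow_mem M.tinv_mem_Ov k) (M.le_Ov0 _ hk)
  have hrootOv : ∀ x : F, x ^ m ∈ Ov.toSubring → x ∈ Ov.toSubring := vs_root_closed Ov m hm
  have hunit : ∀ c ∈ Ov.toSubring, (1 + p * c)⁻¹ ∈ Ov.toSubring := by
    intro c hc
    by_contra h
    have hpOv : p ∈ Ov := M.le_Ov0 _ (B0.algebraMap_mem π)
    have hmem : 1 + p * c ∈ Ov := Ov.add_mem _ _ Ov.one_mem (Ov.mul_mem _ _ hpOv hc)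
    obtain ⟨c', hc', hcc⟩ := M.unif _ hmem h
    apply M.pi_nonunit
    have hp0 : p ≠ 0 := M.pi_ne
    have : p⁻¹ = c' - c := by
      field_simp
      linear_combination hcc
    show p⁻¹ ∈ Ov
    rw [this]
    exact sub_mem hc' hc
  have hsat01 : ∀ b ∈ B01, ∀ c ∈ Ov.toSubring, b = p * c → c ∈ B01 := by
    rintro b ⟨k, hk⟩ c hc hbc
    refine ⟨k, M.sat0 _ hk (t ^ k * c) ?_ ?_⟩
    · exact Ov.mul_mem _ _ (pow_mem (M.le_Ov0 _ M.t_mem) k) hc
    · rw [hbc]; ring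
  obtain ⟨s, hs0, hsB0, hsB1, -⟩ := NewtonCech24.exists_global_root π m hm minv hminv t ht0
    B0 B1 B01 h0le h1le M.t_mem M.tinv_mem hroot0 hroot1 hroot01 hloc0 hloc1 e he hgen
    Ov.toSubring hB01Ov hrootOv M.pi_nonunit hunit M.sat0 M.sat1 hsat01 u hu1
    g0 g1 hg0 hg0' hg1 hg1'
  refine ⟨s, hs0, ?_⟩
  exact isAlgebraic_iff_isIntegral.mp
    (Constants18.isAlgebraic_of_isIntegral_both (R₀ := R) t _ (M.int0 _ hsB0) (M.int1 _ hsB1))

end Fermat.Agent.RED.CORE.CoreB24
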