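/-
Program H (S18), chapter RED/CORE (helper24): FINAL shapes of the abstract core (b'').

`StartChartStmt` is the statement of step (D) START on ONE chart (proved in `StartD28`); from it
and the contract `CoreIface24.TwoChartModel`:

* `core_b_places_of` : (U1) + (U2) [prelude places: `∀ v : Place K F, (m:ℤ) ∣ v.ord u`] give
  `s ≠ 0` with `s ^ m * u` integral over `K`;
* `core_b_const_of`  : if moreover `K` is algebraically closed in `F`, then
  `∃ s ≠ 0, ∃ c : K, c ≠ 0 ∧ s ^ m = algebraMap K F c * u`.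
-/
import Mathlib
import Fermat.Prelude.Def_AlgebraicCurve_DivisorClassGroup
import Fermat.Agent.RED.CORE.CoreB24

set_option autoImplicit false

namespace Fermat.Agent.RED.CORE.CoreFinal24

open Polynomial CoreIface24

variable (R K F : Type*) [CommRing R] [Field K] [Field F] [Algebra R K] [Algebra K F]
  [Algebra R F] [IsScalarTower R K F]

/-- Statement of step (D) START on one chart `B` (the `B`-instances of the contract fields). -/
def StartChartStmt : Prop :=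
  ∀ (π : R) (B : Subalgebra R F) (Ov : ValuationSubring F),
    IsNoetherianRing B → IsFractionRing R K →
    (∀ r : R, r ≠ 0 → ∃ (k : ℕ) (v : Rˣ), r = π ^ k * v) →
    (∀ x : F, IsIntegral B x → x ∈ B) →
    (∀ x : F, ∃ a ∈ B, ∃ b ∈ B, b ≠ 0 ∧ x * b = a) →
    (∀ x ∈ B, x ∈ Ov) →
    algebraMap R F π ≠ 0 →
    (algebraMap R F π)⁻¹ ∉ Ov →
    (∀ x ∈ Ov, x⁻¹ ∉ Ov → ∃ c ∈ Ov, x = algebraMap R F π * c) →
    (∀ b ∈ B, ∀ c ∈ Ov, b = algebraMap R F π * c → c ∈ B) →
    (∀ x : Ideal B, x.IsMaximal → algebraMap R B π ∈ x →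
      ∃ s ∈ x, ∀ y ∈ x, ∃ d : B, d ∉ x ∧ d * y ∈ Ideal.span {algebraMap R B π, s}) →
    ∀ (m : ℕ), 0 < m → ∀ u : F, U1 R F π Ov u →
      (∀ v : AlgebraicCurve.Place K F, (m : ℤ) ∣ v.ord u) →
      ∃ g : F, g ^ m * u ∈ B ∧ ∃ c ∈ Ov, g - 1 = algebraMap R F π * c

variable {R K F}

/-- The abstract core with (U2) in the prelude-place form. -/
theorem core_b_places_of (hstart : StartChartStmt R K F) (π : R) (t : F)
    (B0 B1 : Subalgebra R F) (Ov : ValuationSubring F) (M : TwoChartModel R K F π t B0 B1 Ov)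
    (m : ℕ) (hm : 0 < m) (minv : R) (hminv : (m : R) * minv = 1) (u : F)
    (hu1 : U1 R F π Ov u) (hu2 : ∀ v : AlgebraicCurve.Place K F, (m : ℤ) ∣ v.ord u) :
    ∃ s : F, s ≠ 0 ∧ IsIntegral K (s ^ m * u) := by
  obtain ⟨g0, hg0, hg0'⟩ := hstart π B0 Ov M.noeth0 M.fracR M.dvrR M.intcl0 M.frac0 M.le_Ov0
    M.pi_ne M.pi_nonunit M.unif M.sat0 M.smooth0 m hm u hu1 hu2
  obtain ⟨g1, hg1, hg1'⟩ := hstart π B1 Ov M.noeth1 M.fracR M.dvrR M.intcl1 M.frac1 M.le_Ov1
    M.pi_ne M.pi_nonunit M.unif M.sat1 M.smooth1 m hm u hu1 hu2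
  exact CoreB24.core_b_of_start π t B0 B1 Ov M m hm minv hminv u hu1 g0 g1 hg0 hg0' hg1 hg1'

/-- The abstract core, constant form: if `K` is algebraically closed in `F` then `u` is a
constant times an `m`-th power. -/
theorem core_b_const_of (hstart : StartChartStmt R K F) (π : R) (t : F)
    (B0 B1 : Subalgebra R F) (Ov : ValuationSubring F) (M : TwoChartModel R K F π t B0 B1 Ov)
    (m : ℕ) (hm : 0 < m) (minv : R) (hminv : (m : R) * minv = 1) (u : F)
    (hu1 : U1 R F π Ov u) (hu2 : ∀ v : AlgebraicCurve.Place K F, (m : ℤ) ∣ v.ord u)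
    (hKF : ∀ y : F, IsAlgebraic K y → ∃ c : K, algebraMap K F c = y) :
    ∃ s : F, s ≠ 0 ∧ ∃ c : K, c ≠ 0 ∧ s ^ m = algebraMap K F c * u := by
  obtain ⟨s, hs0, hs⟩ := core_b_places_of hstart π t B0 B1 Ov M m hm minv hminv u hu1 hu2
  obtain ⟨c, hc⟩ := hKF _ (isAlgebraic_iff_isIntegral.mpr hs)
  -- `u ≠ 0`
  have hu0 : u ≠ 0 := by
    rintro rfl
    obtain ⟨o, ho, h⟩ := hu1
    apply M.pi_nonunit
    have hp0 := M.pi_ne
    have : (algebraMap R F π)⁻¹ = -o := by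
      field_simp
      linear_combination -h
    rw [this]
    exact neg_mem ho
  have hρ0 : s ^ m * u ≠ 0 := mul_ne_zero (pow_ne_zero m hs0) hu0
  have hc0 : c ≠ 0 := by
    rintro rfl
    rw [map_zero] at hc
    exact hρ0 hc.symm
  have hcF : algebraMap K F c ≠ 0 := by rw [hc]; exact hρ0
  refine ⟨s⁻¹, inv_ne_zero hs0, c⁻¹, inv_ne_zero hc0, ?_⟩
  rw [map_inv₀, hc, inv_pow]
  field_simp

end Fermat.Agent.RED.CORE.CoreFinal24
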