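/-
Program H (S18), chapter RED/CORE (helper14): the LOCAL LEMMA.

`O` a noetherian ring, `π` in its Jacobson radical, `O/π` a principal ideal ring
(e.g. `O` a noetherian local ring with `O/π` a DVR: the local ring of a smooth two-dimensional
model at a closed point of the special fibre).  Then every prime of `O` not containing `π` is
principal; if moreover `O` is a domain and `π` a prime element, `O` is a UFD.
-/
import Mathlib

set_option autoImplicit false

namespace Fermat.Agent.RED.CORE.LocalPrincipal14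

variable {O : Type*} [CommRing O]

/-- Every prime not containing `π` is principal (Nakayama). Only `π ∉ 𝔭`, primality and the
principality of the image of `𝔭` in `O/π` are used. -/
theorem isPrincipal_of_notMem [IsNoetherianRing O] (π : O)
    (hπ : π ∈ Ideal.jacobson (⊥ : Ideal O))
    [IsPrincipalIdealRing (O ⧸ Ideal.span {π})] (𝔭 : Ideal O) [h𝔭 : 𝔭.IsPrime] (hπ𝔭 : π ∉ 𝔭) :
    ∃ f ∈ 𝔭, 𝔭 = Ideal.span {f} := by
  set q := Ideal.Quotient.mk (Ideal.span {π}) with hq
  have hqs : Function.Surjective q := Ideal.Quotient.mk_surjective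
  -- generator of the image
  obtain ⟨g, hg⟩ := (IsPrincipalIdealRing.principal (𝔭.map q)).principal
  have hgmem : g ∈ 𝔭.map q := by rw [hg]; exact Submodule.mem_span_singleton_self g
  obtain ⟨f, hf, hfg⟩ := (Ideal.mem_map_iff_of_surjective q hqs).mp hgmem
  refine ⟨f, hf, le_antisymm ?_ ((Ideal.span_singleton_le_iff_mem 𝔭).mpr hf)⟩
  -- Nakayama
  have hsub : 𝔭 ≤ Ideal.span {f} ⊔ Ideal.span {π} • 𝔭 := by
    intro y hy
    have hy' : q y ∈ 𝔭.map q := Ideal.mem_map_of_mem q hy
    rw [hg] at hy'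
    obtain ⟨c', hc'⟩ := Ideal.mem_span_singleton'.mp hy'
    obtain ⟨c, rfl⟩ := hqs c'
    have hker : y - c * f ∈ Ideal.span {π} := by
      rw [← Ideal.Quotient.eq_zero_iff_mem, ← hq, map_sub, map_mul, hfg, hc', sub_self]
    obtain ⟨z, hz⟩ := Ideal.mem_span_singleton'.mp hker
    have hz𝔭 : z ∈ 𝔭 := by
      have h1 : z * π ∈ 𝔭 := by
        rw [hz]
        exact 𝔭.sub_mem hy (𝔭.mul_mem_left c hf)
      rcases h𝔭.mem_or_mem h1 with h | h
      · exact h
      · exact absurd h hπ𝔭
    have hy2 : y = c * f + π * z := by rw [mul_comm π z, hz]; ring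
    rw [hy2]
    refine Submodule.add_mem_sup (Ideal.mem_span_singleton'.mpr ⟨c, rfl⟩) ?_
    exact Ideal.mul_mem_mul (Ideal.mem_span_singleton_self π) hz𝔭
  have hfg' : (𝔭 : Submodule O O).FG := IsNoetherian.noetherian 𝔭
  have hjac : Ideal.span {π} ≤ Ideal.jacobson (⊥ : Ideal O) :=
    (Ideal.span_singleton_le_iff_mem _).mpr hπ
  exact Submodule.le_of_le_smul_of_le_jacobson_bot hfg' hjac hsub

/-- `O` is a UFD (Kaplansky's criterion). -/
theorem uniqueFactorizationMonoid [IsDomain O] [IsNoetherianRing O] (π : O)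
    (hπ : π ∈ Ideal.jacobson (⊥ : Ideal O)) (hprime : Prime π)
    [IsPrincipalIdealRing (O ⧸ Ideal.span {π})] : UniqueFactorizationMonoid O := by
  rw [UniqueFactorizationMonoid.iff_exists_prime_mem_of_isPrime]
  intro I hI hIprime
  by_cases hπI : π ∈ I
  · exact ⟨π, hπI, hprime⟩
  · obtain ⟨f, hf, hIf⟩ := isPrincipal_of_notMem π hπ I hπI
    refine ⟨f, hf, ?_⟩
    have hf0 : f ≠ 0 := by
      rintro rfl
      apply hI
      rw [hIf]
      simp
    rw [← Ideal.span_singleton_prime hf0, ← hIf]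
    exact hIprime

end Fermat.Agent.RED.CORE.LocalPrincipal14
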