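/-
Program H (S18), chapter RED/CORE, helper18: the C-PACKAGE of step (D) of core (b''), in the
`smooth` form of the contract `CoreIface24.TwoChartModel`.

`B ⊂ F` one chart of the model, `Ov` the Gauss valuation ring (uniformiser `π`), `x ∋ π` a maximal
ideal of `B` (a closed point of the special fibre), `C = B_x ⊂ F`
(`Localization.subalgebra.ofField`).  From the chart hypotheses `ChartHyp`:
`C ⊂ Ov`, `C ∩ π Ov = π C`, `π` is a prime element of `C` in the maximal ideal,
`𝔪_C = (π, s)`, `C/πC` is a principal ideal domain, `C` is a UFD.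
-/
import Mathlib
import Fermat.Agent.RED.CORE.LocalPrincipal14

set_option autoImplicit false
set_option linter.unusedSectionVars false
set_option linter.style.haveILetI false

noncomputable section

namespace Fermat.Agent.RED.CORE.LocalPkg18

variable {R F : Type*} [CommRing R] [Field F] [Algebra R F]

/-- The hypotheses on one chart `B` (literal shapes of the fields of `TwoChartModel`). -/
structure ChartHyp (π : R) (B : Subalgebra R F) (Ov : ValuationSubring F) : Prop where
  noethB : IsNoetherianRing B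
  frac : ∀ x : F, ∃ a ∈ B, ∃ b ∈ B, b ≠ 0 ∧ x * b = a
  le_Ov : ∀ x ∈ B, x ∈ Ov
  pi_ne : algebraMap R F π ≠ 0
  pi_nonunit : (algebraMap R F π)⁻¹ ∉ Ov
  unif : ∀ x ∈ Ov, x⁻¹ ∉ Ov → ∃ c ∈ Ov, x = algebraMap R F π * c
  sat : ∀ b ∈ B, ∀ c ∈ Ov, b = algebraMap R F π * c → c ∈ B
  smooth : ∀ x : Ideal B, x.IsMaximal → algebraMap R B π ∈ x →
    ∃ s ∈ x, ∀ y ∈ x, ∃ d : B, d ∉ x ∧ d * y ∈ Ideal.span {algebraMap R B π, s}

variable {π : R} {B : Subalgebra R F} {Ov : ValuationSubring F}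

/-- `F = Frac B`. -/
theorem isFractionRing (h : ChartHyp π B Ov) : IsFractionRing ↥B F := by
  refine IsFractionRing.of_field ↥B F fun z => ?_
  obtain ⟨a, ha, b, hb, hb0, hab⟩ := h.frac z
  refine ⟨⟨a, ha⟩, ⟨b, hb⟩, ?_⟩
  show z = a / b
  rw [eq_div_iff hb0, hab]

/-- `π ∈ Ov`. -/
theorem pi_mem_Ov (h : ChartHyp π B Ov) : algebraMap R F π ∈ Ov :=
  h.le_Ov _ (B.algebraMap_mem π)

/-- Elements of `Ov` not divisible by `π` are units of `Ov`. -/
theorem inv_mem_Ov_of_not_dvd (h : ChartHyp π B Ov) {z : F} (hz : z ∈ Ov)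
    (hnd : ¬ ∃ c ∈ Ov, z = algebraMap R F π * c) : z⁻¹ ∈ Ov := by
  by_contra hinv
  exact hnd (h.unif z hz hinv)

/-- `π Ov` is a prime ideal of `Ov`, elementwise. -/
theorem dvd_or_dvd_of_dvd_mul (h : ChartHyp π B Ov) {y z : F} (hy : y ∈ Ov) (hz : z ∈ Ov)
    (hyz : ∃ c ∈ Ov, y * z = algebraMap R F π * c) :
    (∃ c ∈ Ov, y = algebraMap R F π * c) ∨ (∃ c ∈ Ov, z = algebraMap R F π * c) := by
  by_contra hcon
  push Not at hcon
  obtain ⟨h1, h2⟩ := hcon
  have hy' : y⁻¹ ∈ Ov := inv_mem_Ov_of_not_dvd h hy (by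
    rintro ⟨c, hc, e⟩; exact h1 c hc e)
  have hz' : z⁻¹ ∈ Ov := inv_mem_Ov_of_not_dvd h hz (by
    rintro ⟨c, hc, e⟩; exact h2 c hc e)
  obtain ⟨c, hc, e⟩ := hyz
  have hy0 : y ≠ 0 := by
    rintro rfl
    exact h1 0 (zero_mem _) (by simp)
  have hz0 : z ≠ 0 := by
    rintro rfl
    exact h2 0 (zero_mem _) (by simp)
  apply h.pi_nonunit
  have : (algebraMap R F π)⁻¹ = c * (y⁻¹ * z⁻¹) := by
    have hc0 : algebraMap R F π * c ≠ 0 := by rw [← e]; exact mul_ne_zero hy0 hz0
    have hπ0 : algebraMap R F π ≠ 0 := left_ne_zero_of_mul hc0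
    calc (algebraMap R F π)⁻¹ = (algebraMap R F π)⁻¹ * (y * z) * (y⁻¹ * z⁻¹) := by
          field_simp
      _ = c * (y⁻¹ * z⁻¹) := by rw [e, inv_mul_cancel_left₀ hπ0]
  rw [this]
  exact mul_mem hc (mul_mem hy' hz')

/-! ### The local ring `C = B_x ⊂ F` -/

section LocC

variable [IsFractionRing ↥B F] (x : Ideal ↥B) [hx : x.IsPrime]

/-- `C = B_x` as a subalgebra of `F` (Mathlib's `Localization.subalgebra.ofField`). -/
abbrev locC : Subalgebra ↥B F :=
  Localization.subalgebra.ofField F x.primeCompl x.primeCompl_le_nonZeroDivisors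

theorem mem_locC_iff (z : F) :
    z ∈ locC (F := F) x ↔ ∃ a d : ↥B, d ∉ x ∧ z = (a : F) * (d : F)⁻¹ := by
  constructor
  · rintro ⟨a, d, hd, e⟩
    exact ⟨a, d, hd, e⟩
  · rintro ⟨a, d, hd, e⟩
    exact ⟨a, d, hd, e⟩

/-- `π` as an element of `C`. -/
def piC (π : R) : ↥(locC (F := F) x) := algebraMap ↥B ↥(locC (F := F) x) (algebraMap R ↥B π)

theorem coe_piC (π : R) : ((piC x π : ↥(locC (F := F) x)) : F) = algebraMap R F π := rfl

instance : IsLocalization.AtPrime ↥(locC (F := F) x) x :=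
  Localization.subalgebra.isLocalization_ofField F x.primeCompl x.primeCompl_le_nonZeroDivisors

instance : IsLocalRing ↥(locC (F := F) x) := IsLocalization.AtPrime.isLocalRing _ x

end LocC

/-! ### Facts about `C` from the chart hypotheses -/

section Facts

variable (h : ChartHyp π B Ov) [IsFractionRing ↥B F] (x : Ideal ↥B) [hx : x.IsMaximal]
  (hπx : algebraMap R ↥B π ∈ x)

include h hπx

/-- `d ∈ B ∖ x` is a unit of `Ov`. -/
theorem inv_mem_Ov (d : ↥B) (hd : d ∉ x) : ((d : F))⁻¹ ∈ Ov := by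
  apply inv_mem_Ov_of_not_dvd h (h.le_Ov _ d.2)
  rintro ⟨c, hc, e⟩
  have hcB : c ∈ B := h.sat _ d.2 c hc e
  apply hd
  have : d = algebraMap R ↥B π * ⟨c, hcB⟩ := Subtype.ext e
  rw [this]
  exact x.mul_mem_right _ hπx

/-- `C ⊂ Ov`. -/
theorem locC_le_Ov {z : F} (hz : z ∈ locC (F := F) x) : z ∈ Ov := by
  obtain ⟨a, d, hd, rfl⟩ := (mem_locC_iff x z).mp hz
  exact mul_mem (h.le_Ov _ a.2) (inv_mem_Ov h x hπx d hd)

/-- `C ∩ π Ov = π C`. -/
theorem locC_sat {z o : F} (hz : z ∈ locC (F := F) x) (ho : o ∈ Ov)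
    (e : z = algebraMap R F π * o) : o ∈ locC (F := F) x := by
  obtain ⟨a, d, hd, rfl⟩ := (mem_locC_iff x z).mp hz
  have hd0 : (d : F) ≠ 0 := by
    intro h0
    apply hd
    have : d = 0 := Subtype.ext h0
    rw [this]; exact x.zero_mem
  have hdo : (d : F) * o ∈ B := by
    apply h.sat (a : F) a.2 ((d : F) * o) (mul_mem (h.le_Ov _ d.2) ho)
    have : (a : F) = (a : F) * (d : F)⁻¹ * (d : F) := by
      rw [mul_assoc, inv_mul_cancel₀ hd0, mul_one]
    rw [this, e]; ring
  rw [mem_locC_iff]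
  refine ⟨⟨(d : F) * o, hdo⟩, d, hd, ?_⟩
  show o = (d : F) * o * (d : F)⁻¹
  rw [mul_comm (d : F) o, mul_assoc, mul_inv_cancel₀ hd0, mul_one]

/-- `π` is not a unit of `C`. -/
theorem piC_not_isUnit : ¬ IsUnit (piC (F := F) x π) := by
  intro hu
  obtain ⟨c, hc⟩ := hu.exists_right_inv
  apply h.pi_nonunit
  have h1 : algebraMap R F π * (c : F) = 1 := congrArg Subtype.val hc
  have : (algebraMap R F π)⁻¹ = (c : F) := inv_eq_of_mul_eq_one_right h1
  rw [this]
  exact locC_le_Ov h x hπx c.2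

/-- `π` is a prime element of `C`. -/
theorem prime_piC : Prime (piC (F := F) x π) := by
  refine ⟨?_, piC_not_isUnit h x hπx, ?_⟩
  · intro h0
    exact h.pi_ne (congrArg Subtype.val h0)
  · intro y z hyz
    obtain ⟨c, hc⟩ := hyz
    have hOv : ∃ c' ∈ Ov, (y : F) * (z : F) = algebraMap R F π * c' :=
      ⟨(c : F), locC_le_Ov h x hπx c.2, congrArg Subtype.val hc⟩
    rcases dvd_or_dvd_of_dvd_mul h (locC_le_Ov h x hπx y.2) (locC_le_Ov h x hπx z.2) hOv with
      ⟨o, ho, e⟩ | ⟨o, ho, e⟩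
    · left
      exact ⟨⟨o, locC_sat h x hπx y.2 ho e⟩, Subtype.ext e⟩
    · right
      exact ⟨⟨o, locC_sat h x hπx z.2 ho e⟩, Subtype.ext e⟩

theorem piC_mem_maximalIdeal :
    piC (F := F) x π ∈ IsLocalRing.maximalIdeal ↥(locC (F := F) x) :=
  (IsLocalRing.mem_maximalIdeal _).mpr (piC_not_isUnit h x hπx)

/-- Elements of `C` not divisible by `π` are units of `Ov`. -/
theorem inv_mem_Ov_of_not_piC_dvd (c : ↥(locC (F := F) x)) (hc : ¬ piC (F := F) x π ∣ c) :
    ((c : F))⁻¹ ∈ Ov := by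
  apply inv_mem_Ov_of_not_dvd h (locC_le_Ov h x hπx c.2)
  rintro ⟨o, ho, e⟩
  exact hc ⟨⟨o, locC_sat h x hπx c.2 ho e⟩, Subtype.ext e⟩

theorem isNoetherianRing_locC : IsNoetherianRing ↥(locC (F := F) x) :=
  IsLocalization.isNoetherianRing x.primeCompl _ h.noethB

/-- `𝔪_C = (π, s)`. -/
theorem exists_maximalIdeal_eq : ∃ s : ↥B, s ∈ x ∧
    IsLocalRing.maximalIdeal ↥(locC (F := F) x) =
      Ideal.span {piC (F := F) x π, algebraMap ↥B ↥(locC (F := F) x) s} := by
  obtain ⟨s, hs, hsm⟩ := h.smooth x hx hπx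
  refine ⟨s, hs, ?_⟩
  rw [← IsLocalization.AtPrime.map_eq_maximalIdeal x ↥(locC (F := F) x)]
  apply le_antisymm
  · rw [Ideal.map_le_iff_le_comap]
    intro y hy
    obtain ⟨d, hd, hdy⟩ := hsm y hy
    rw [Ideal.mem_comap]
    have hu : IsUnit (algebraMap ↥B ↥(locC (F := F) x) d) :=
      IsLocalization.map_units ↥(locC (F := F) x) (⟨d, hd⟩ : x.primeCompl)
    have hmem : algebraMap ↥B ↥(locC (F := F) x) (d * y) ∈
        Ideal.span {piC (F := F) x π, algebraMap ↥B ↥(locC (F := F) x) s} := by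
      have := Ideal.mem_map_of_mem (algebraMap ↥B ↥(locC (F := F) x)) hdy
      rw [Ideal.map_span] at this
      have himg : (algebraMap ↥B ↥(locC (F := F) x)) '' {algebraMap R ↥B π, s} =
          {piC (F := F) x π, algebraMap ↥B ↥(locC (F := F) x) s} := by
        rw [Set.image_pair]; rfl
      rwa [himg] at this
    rw [map_mul] at hmem
    obtain ⟨v, hv⟩ := hu.exists_left_inv
    have : algebraMap ↥B ↥(locC (F := F) x) y =
        v * (algebraMap ↥B ↥(locC (F := F) x) d * algebraMap ↥B ↥(locC (F := F) x) y) := by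
      rw [← mul_assoc, hv, one_mul]
    rw [this]
    exact Ideal.mul_mem_left _ v hmem
  · rw [Ideal.span_le]
    rintro y (rfl | rfl)
    · exact Ideal.mem_map_of_mem _ hπx
    · exact Ideal.mem_map_of_mem _ hs

/-- `C/πC` is a domain. -/
theorem isDomain_quot : IsDomain (↥(locC (F := F) x) ⧸ Ideal.span {piC (F := F) x π}) := by
  have hp := prime_piC h x hπx
  rw [Ideal.Quotient.isDomain_iff_prime, Ideal.span_singleton_prime hp.ne_zero]
  exact hp

/-- `C/πC` is a principal ideal ring (a DVR or a field). -/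
theorem isPrincipalIdealRing_quot :
    IsPrincipalIdealRing (↥(locC (F := F) x) ⧸ Ideal.span {piC (F := F) x π}) := by
  haveI : IsDomain (↥(locC (F := F) x) ⧸ Ideal.span {piC (F := F) x π}) := isDomain_quot h x hπx
  haveI : IsNoetherianRing ↥(locC (F := F) x) := isNoetherianRing_locC h x hπx
  have hqs : Function.Surjective (Ideal.Quotient.mk (Ideal.span {piC (F := F) x π})) :=
    Ideal.Quotient.mk_surjective
  haveI : Nontrivial (↥(locC (F := F) x) ⧸ Ideal.span {piC (F := F) x π}) :=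
    IsDomain.toNontrivial
  haveI : IsLocalRing (↥(locC (F := F) x) ⧸ Ideal.span {piC (F := F) x π}) :=
    IsLocalRing.of_surjective' _ hqs
  obtain ⟨s, -, hs⟩ := exists_maximalIdeal_eq h x hπx
  refine ((tfae_of_isNoetherianRing_of_isLocalRing_of_isDomain
    (↥(locC (F := F) x) ⧸ Ideal.span {piC (F := F) x π})).out 4 0).mp ?_
  refine ⟨⟨Ideal.Quotient.mk _ (algebraMap ↥B ↥(locC (F := F) x) s), ?_⟩⟩
  have hmap : IsLocalRing.maximalIdeal (↥(locC (F := F) x) ⧸ Ideal.span {piC (F := F) x π}) =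
      (IsLocalRing.maximalIdeal ↥(locC (F := F) x)).map
        (Ideal.Quotient.mk (Ideal.span {piC (F := F) x π})) := by
    rcases Ideal.map_eq_top_or_isMaximal_of_surjective _ hqs
      (IsLocalRing.maximalIdeal.isMaximal ↥(locC (F := F) x)) with htop | hmax
    · exfalso
      have h1 : (1 : ↥(locC (F := F) x) ⧸ Ideal.span {piC (F := F) x π}) ∈
          (IsLocalRing.maximalIdeal ↥(locC (F := F) x)).map
            (Ideal.Quotient.mk (Ideal.span {piC (F := F) x π})) := by
        rw [htop]; trivial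
      obtain ⟨y, hy, hy1⟩ := (Ideal.mem_map_iff_of_surjective _ hqs).mp h1
      have hker : y - 1 ∈ Ideal.span {piC (F := F) x π} :=
        Ideal.Quotient.eq.mp (hy1.trans (RingHom.map_one _).symm)
      have hle : Ideal.span {piC (F := F) x π} ≤ IsLocalRing.maximalIdeal ↥(locC (F := F) x) :=
        (Ideal.span_singleton_le_iff_mem _).mpr (piC_mem_maximalIdeal h x hπx)
      have h1m : (1 : ↥(locC (F := F) x)) ∈ IsLocalRing.maximalIdeal ↥(locC (F := F) x) := by
        have := Ideal.sub_mem _ hy (hle hker)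
        rwa [sub_sub_cancel] at this
      exact (IsLocalRing.maximalIdeal.isMaximal ↥(locC (F := F) x)).ne_top
        ((Ideal.eq_top_iff_one _).mpr h1m)
    · exact (IsLocalRing.eq_maximalIdeal hmax).symm
  show (IsLocalRing.maximalIdeal (↥(locC (F := F) x) ⧸ Ideal.span {piC (F := F) x π}) :
    Submodule _ _) = Submodule.span _ {_}
  rw [hmap, hs, Ideal.map_span, Set.image_pair]
  have h0 : Ideal.Quotient.mk (Ideal.span {piC (F := F) x π}) (piC (F := F) x π) = 0 :=
    Ideal.Quotient.eq_zero_iff_mem.mpr (Ideal.mem_span_singleton_self _)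
  rw [h0]
  apply le_antisymm
  · rw [Ideal.span_le]
    rintro y (rfl | rfl)
    · exact Ideal.zero_mem _
    · exact Ideal.subset_span rfl
  · apply Ideal.span_mono
    intro y hy
    right; exact hy

/-- `C` is a UFD. -/
theorem ufd : UniqueFactorizationMonoid ↥(locC (F := F) x) := by
  haveI : IsNoetherianRing ↥(locC (F := F) x) := isNoetherianRing_locC h x hπx
  haveI : IsPrincipalIdealRing (↥(locC (F := F) x) ⧸ Ideal.span {piC (F := F) x π}) :=
    isPrincipalIdealRing_quot h x hπx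
  refine LocalPrincipal14.uniqueFactorizationMonoid (piC (F := F) x π) ?_ (prime_piC h x hπx)
  rw [IsLocalRing.jacobson_eq_maximalIdeal ⊥ bot_ne_top]
  exact piC_mem_maximalIdeal h x hπx

/-- `C/πC` is integrally closed (it is a PID). -/
theorem isIntegrallyClosed_quot :
    IsIntegrallyClosed (↥(locC (F := F) x) ⧸ Ideal.span {piC (F := F) x π}) := by
  haveI : IsDomain (↥(locC (F := F) x) ⧸ Ideal.span {piC (F := F) x π}) := isDomain_quot h x hπx
  haveI : IsPrincipalIdealRing (↥(locC (F := F) x) ⧸ Ideal.span {piC (F := F) x π}) :=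
    isPrincipalIdealRing_quot h x hπx
  infer_instance

end Facts

/-! ### The `R`-algebra structure on `C` (Mathlib's `Subalgebra.algebra'`) -/

section Tower

variable [IsFractionRing ↥B F] (x : Ideal ↥B) [hx : x.IsPrime]

example : Algebra R ↥(locC (F := F) x) := inferInstance

example : IsScalarTower R ↥(locC (F := F) x) F := inferInstance

theorem algebraMap_R_locC (r : R) :
    algebraMap R ↥(locC (F := F) x) r = algebraMap ↥B ↥(locC (F := F) x) (algebraMap R ↥B r) := rfl

theorem algebraMap_R_locC_pi (π : R) : algebraMap R ↥(locC (F := F) x) π = piC (F := F) x π := rfl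

theorem coe_algebraMap_R_locC (r : R) :
    ((algebraMap R ↥(locC (F := F) x) r : ↥(locC (F := F) x)) : F) = algebraMap R F r := rfl

instance : IsFractionRing ↥(locC (F := F) x) F :=
  IsFractionRing.isFractionRing_of_isDomain_of_isLocalization x.primeCompl ↥(locC (F := F) x) F

end Tower

end Fermat.Agent.RED.CORE.LocalPkg18
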