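/-
Program H (S18), chapter RED/CORE, helper15 (Mathlib only): the factorisation step of (D) in core (b'').

`C` a domain with fraction field `F`, `p : C` a prime element.

* `primeVS p hp : ValuationSubring F` — the localisation `C_(p)` inside `F`:
  `x ∈ primeVS p hp ↔ ∃ a b : C, ¬ p ∣ b ∧ x * b = a` (needs finite `p`-multiplicities: `[WfDvdMonoid C]`,
  e.g. `C` noetherian or a UFD).
* `IsPUnit p x` : `x = a / b` with `p ∤ a`, `p ∤ b`; `isPUnit_iff_mem_and_inv_mem` : this is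
  `x ∈ primeVS ∧ x⁻¹ ∈ primeVS` (`x` is a unit of the DVR `C_(p)`).
* `algebraMap_mem_primeVS`, `inv_algebraMap_mem_primeVS` (`p ∤ c`), `inv_algebraMap_self_notMem_primeVS`,
  `primeVS_ne_top`, `isPUnit_div_pow_of_mem` (bridge from `u / x^m ∈ O ∧ x^m / u ∈ O`).
* `exists_unit_mul_pow_of_dvd_multiplicity` : in a UFD, `w ≠ 0` with all prime multiplicities divisible
  by `m` is `ε * c ^ m` with `ε` a unit.
* **`exists_unit_mul_pow`** (POW): `C` a UFD, `u ∈ F`, `u ≠ 0`, `m ≠ 0`; if for every prime `p` of `C`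
  there is `x ∈ F`, `x ≠ 0`, with `u / x ^ m` a `p`-unit, then `u = ε * f ^ m` with `ε ∈ Cˣ`, `f ∈ F`, `f ≠ 0`.
-/
import Mathlib

set_option autoImplicit false
set_option linter.unusedSectionVars false
set_option linter.unusedVariables false

namespace Fermat.Agent.RED.CORE.UnitPow15

open UniqueFactorizationMonoid

section PrimeVS

variable {C : Type*} [CommRing C] [IsDomain C] (F : Type*) [Field F] [Algebra C F]
  [IsFractionRing C F]

/-- `x = a / b` with `p ∤ a` and `p ∤ b`: `x` is a unit of the local ring `C_(p) ⊂ F`. -/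
def IsPUnit (p : C) (x : F) : Prop :=
  ∃ a b : C, ¬ p ∣ a ∧ ¬ p ∣ b ∧ x * algebraMap C F b = algebraMap C F a

variable {F}

theorem IsPUnit.ne_zero {p : C} {x : F} (h : IsPUnit F p x) : x ≠ 0 := by
  obtain ⟨a, b, ha, -, hx⟩ := h
  rintro rfl
  rw [zero_mul] at hx
  have : a = 0 := (FaithfulSMul.algebraMap_injective C F) (by rw [← hx, map_zero])
  exact ha (this ▸ dvd_zero p)

theorem IsPUnit.mul {p : C} (hp : Prime p) {x y : F} (hx : IsPUnit F p x) (hy : IsPUnit F p y) :
    IsPUnit F p (x * y) := by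
  obtain ⟨a, b, ha, hb, hab⟩ := hx
  obtain ⟨a', b', ha', hb', hab'⟩ := hy
  refine ⟨a * a', b * b', fun h => ?_, fun h => ?_, ?_⟩
  · exact (hp.dvd_or_dvd h).elim ha ha'
  · exact (hp.dvd_or_dvd h).elim hb hb'
  · rw [map_mul, map_mul, ← hab, ← hab']; ring

theorem IsPUnit.inv {p : C} {x : F} (hx : IsPUnit F p x) : IsPUnit F p x⁻¹ := by
  have hx0 := hx.ne_zero
  obtain ⟨a, b, ha, hb, hab⟩ := hx
  refine ⟨b, a, hb, ha, ?_⟩
  rw [← hab]
  field_simp

theorem isPUnit_algebraMap {p c : C} (hc : ¬ p ∣ c) (hp : ¬ p ∣ 1) : IsPUnit F p (algebraMap C F c) :=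
  ⟨c, 1, hc, hp, by simp⟩

variable (F) in
/-- The valuation ring `C_(p) ⊂ F = Frac C` of a prime element `p`. -/
def primeVS [WfDvdMonoid C] (p : C) (hp : Prime p) : ValuationSubring F where
  carrier := {x | ∃ a b : C, ¬ p ∣ b ∧ x * algebraMap C F b = algebraMap C F a}
  mul_mem' := by
    rintro x y ⟨a, b, hb, hab⟩ ⟨a', b', hb', hab'⟩
    refine ⟨a * a', b * b', fun h => (hp.dvd_or_dvd h).elim hb hb', ?_⟩
    rw [map_mul, map_mul, ← hab, ← hab']; ring
  one_mem' := ⟨1, 1, hp.not_dvd_one, by simp⟩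
  add_mem' := by
    rintro x y ⟨a, b, hb, hab⟩ ⟨a', b', hb', hab'⟩
    refine ⟨a * b' + a' * b, b * b', fun h => (hp.dvd_or_dvd h).elim hb hb', ?_⟩
    rw [map_add, map_mul, map_mul, map_mul, ← hab, ← hab']; ring
  zero_mem' := ⟨0, 1, hp.not_dvd_one, by simp⟩
  neg_mem' := by
    rintro x ⟨a, b, hb, hab⟩
    exact ⟨-a, b, hb, by rw [map_neg, ← hab]; ring⟩
  mem_or_inv_mem' := by
    intro x
    by_cases hx0 : x = 0
    · left; exact ⟨0, 1, hp.not_dvd_one, by simp [hx0]⟩
    obtain ⟨a₀, b₀, hb₀, rfl⟩ := IsFractionRing.div_surjective (A := C) x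
    have hb₀' : b₀ ≠ 0 := nonZeroDivisors.ne_zero hb₀
    have ha₀' : a₀ ≠ 0 := by
      rintro rfl
      exact hx0 (by simp)
    have hbF : algebraMap C F b₀ ≠ 0 := by
      rwa [Ne, map_eq_zero_iff _ (FaithfulSMul.algebraMap_injective C F)]
    have haF : algebraMap C F a₀ ≠ 0 := by
      rwa [Ne, map_eq_zero_iff _ (FaithfulSMul.algebraMap_injective C F)]
    obtain ⟨i, a, ha, rfl⟩ := WfDvdMonoid.max_power_factor' ha₀' hp.not_isUnit
    obtain ⟨j, b, hb, rfl⟩ := WfDvdMonoid.max_power_factor' hb₀' hp.not_isUnit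
    have hpF : algebraMap C F p ≠ 0 := by
      rw [Ne, map_eq_zero_iff _ (FaithfulSMul.algebraMap_injective C F)]
      exact hp.ne_zero
    have hbF' : algebraMap C F b ≠ 0 := by
      intro h0; apply hbF; rw [map_mul, h0, mul_zero]
    have haF' : algebraMap C F a ≠ 0 := by
      intro h0; apply haF; rw [map_mul, h0, mul_zero]
    rcases le_total j i with hji | hij
    · left
      obtain ⟨k, rfl⟩ := Nat.exists_eq_add_of_le hji
      refine ⟨p ^ k * a, b, hb, ?_⟩
      simp only [map_mul, map_pow, pow_add]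
      field_simp
    · right
      obtain ⟨k, rfl⟩ := Nat.exists_eq_add_of_le hij
      refine ⟨p ^ k * b, a, ha, ?_⟩
      simp only [map_mul, map_pow, pow_add]
      field_simp

theorem mem_primeVS_iff [WfDvdMonoid C] {p : C} {hp : Prime p} {x : F} :
    x ∈ primeVS F p hp ↔ ∃ a b : C, ¬ p ∣ b ∧ x * algebraMap C F b = algebraMap C F a :=
  Iff.rfl

theorem algebraMap_mem_primeVS [WfDvdMonoid C] {p : C} (hp : Prime p) (c : C) :
    algebraMap C F c ∈ primeVS F p hp :=
  ⟨c, 1, hp.not_dvd_one, by simp⟩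

/-- `x` is a unit of `C_(p)` iff it is a `p`-unit fraction. -/
theorem isPUnit_iff_mem_and_inv_mem [WfDvdMonoid C] {p : C} (hp : Prime p) {x : F} (hx0 : x ≠ 0) :
    IsPUnit F p x ↔ x ∈ primeVS F p hp ∧ x⁻¹ ∈ primeVS F p hp := by
  constructor
  · intro h
    obtain ⟨a', b', ha', hb', hab'⟩ := h.inv
    obtain ⟨a, b, ha, hb, hab⟩ := h
    exact ⟨⟨a, b, hb, hab⟩, ⟨a', b', hb', hab'⟩⟩
  · rintro ⟨⟨a, b, hb, hab⟩, ⟨a', b', hb', hab'⟩⟩
    refine ⟨a, b, fun ha => ?_, hb, hab⟩
    -- `a * a' = b * b'`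
    have h1 : algebraMap C F (a * a') = algebraMap C F (b * b') := by
      rw [map_mul, map_mul, ← hab, ← hab']
      field_simp
    have h2 : a * a' = b * b' := FaithfulSMul.algebraMap_injective C F h1
    have h3 : p ∣ b * b' := h2 ▸ Dvd.dvd.mul_right ha a'
    exact (hp.dvd_or_dvd h3).elim hb hb'

/-- `p` itself is not a unit of `C_(p)`. -/
theorem not_isPUnit_self {p : C} (hp : Prime p) : ¬ IsPUnit F p (algebraMap C F p) := by
  rintro ⟨a, b, ha, hb, hab⟩
  rw [← map_mul] at hab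
  have := FaithfulSMul.algebraMap_injective C F hab
  exact ha (this ▸ Dvd.intro b rfl)

/-- `c⁻¹ ∈ C_(p)` when `p ∤ c`. -/
theorem inv_algebraMap_mem_primeVS [WfDvdMonoid C] {p : C} (hp : Prime p) {c : C} (hc : ¬ p ∣ c) :
    (algebraMap C F c)⁻¹ ∈ primeVS F p hp := by
  have hc0 : c ≠ 0 := fun h => hc (h ▸ dvd_zero p)
  have hcF : algebraMap C F c ≠ 0 := by
    rwa [Ne, map_eq_zero_iff _ (FaithfulSMul.algebraMap_injective C F)]
  exact ⟨1, c, hc, by rw [map_one, inv_mul_cancel₀ hcF]⟩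

/-- `p⁻¹ ∉ C_(p)`. -/
theorem inv_algebraMap_self_notMem_primeVS [WfDvdMonoid C] {p : C} (hp : Prime p) :
    (algebraMap C F p)⁻¹ ∉ primeVS F p hp := by
  intro h
  have hpF : algebraMap C F p ≠ 0 := by
    rw [Ne, map_eq_zero_iff _ (FaithfulSMul.algebraMap_injective C F)]
    exact hp.ne_zero
  exact not_isPUnit_self hp
    ((isPUnit_iff_mem_and_inv_mem hp hpF).mpr ⟨algebraMap_mem_primeVS hp p, h⟩)

/-- `C_(p)` is a proper valuation subring of `F`. -/
theorem primeVS_ne_top [WfDvdMonoid C] {p : C} (hp : Prime p) : primeVS F p hp ≠ ⊤ := by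
  intro h
  apply inv_algebraMap_self_notMem_primeVS (F := F) hp
  rw [h]
  exact ValuationSubring.mem_top _

/-- Bridge: the valuation-subring form of "`u / x ^ m` is a unit of `C_(p)`". -/
theorem isPUnit_div_pow_of_mem [WfDvdMonoid C] {p : C} (hp : Prime p) {u x : F} {m : ℕ}
    (hu : u ≠ 0) (hx : x ≠ 0) (h1 : u / x ^ m ∈ primeVS F p hp) (h2 : x ^ m / u ∈ primeVS F p hp) :
    IsPUnit F p (u / x ^ m) := by
  refine (isPUnit_iff_mem_and_inv_mem hp (div_ne_zero hu (pow_ne_zero _ hx))).mpr ⟨h1, ?_⟩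
  rwa [inv_div]

end PrimeVS

section Pow

variable {C : Type*} [CommRing C] [IsDomain C] [UniqueFactorizationMonoid C]

/-- In a UFD, a nonzero element all of whose prime multiplicities are divisible by `m` is a unit
times an `m`-th power. -/
theorem exists_unit_mul_pow_of_dvd_multiplicity (m : ℕ) (w : C) (hw : w ≠ 0)
    (H : ∀ p : C, Prime p → m ∣ multiplicity p w) : ∃ (ε : Cˣ) (c : C), w = ε * c ^ m := by
  classical
  let _ : StrongNormalizationMonoid C := UniqueFactorizationMonoid.strongNormalizationMonoid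
  have hcount : ∀ a ∈ normalizedFactors w, m ∣ (normalizedFactors w).count a := by
    intro a ha
    have hirr := irreducible_of_normalized_factor a ha
    have hnorm : normalize a = a := normalize_normalized_factor a ha
    have h := multiplicity_eq_count_normalizedFactors hirr hw
    rw [hnorm] at h
    rw [← h]
    exact H a (prime_of_normalized_factor a ha)
  obtain ⟨s, hs⟩ := Multiset.exists_smul_of_dvd_count _ hcount
  have hprod : Associated (normalizedFactors w).prod w := prod_normalizedFactors hw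
  rw [hs, Multiset.prod_nsmul] at hprod
  obtain ⟨ε, hε⟩ := hprod
  exact ⟨ε, s.prod, by rw [← hε]; ring⟩

variable {F : Type*} [Field F] [Algebra C F] [IsFractionRing C F]

/-- **(POW)** `C` a UFD with fraction field `F`, `u ∈ F` nonzero.  If for every prime element `p` of `C`
there is `x ≠ 0` in `F` with `u / x ^ m` a `p`-unit (i.e. `m ∣ ord_p u`), then `u = ε * f ^ m` for a
unit `ε` of `C` and some `f ≠ 0` in `F`. -/
theorem exists_unit_mul_pow (m : ℕ) (hm : m ≠ 0) (u : F) (hu : u ≠ 0)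
    (H : ∀ p : C, Prime p → ∃ x : F, x ≠ 0 ∧ IsPUnit F p (u / x ^ m)) :
    ∃ (ε : Cˣ) (f : F), f ≠ 0 ∧ u = algebraMap C F (ε : C) * f ^ m := by
  have hinj := FaithfulSMul.algebraMap_injective C F
  obtain ⟨a₀, b₀, hb₀, rfl⟩ := IsFractionRing.div_surjective (A := C) u
  have hb₀' : b₀ ≠ 0 := nonZeroDivisors.ne_zero hb₀
  have ha₀' : a₀ ≠ 0 := by
    rintro rfl
    exact hu (by simp)
  have hbF : algebraMap C F b₀ ≠ 0 := by rwa [Ne, map_eq_zero_iff _ hinj]
  obtain ⟨m', rfl⟩ : ∃ m', m = m' + 1 := ⟨m - 1, (Nat.sub_add_cancel (Nat.pos_of_ne_zero hm)).symm⟩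
  -- `w = a₀ * b₀ ^ m'`
  set w : C := a₀ * b₀ ^ m' with hw
  have hw0 : w ≠ 0 := mul_ne_zero ha₀' (pow_ne_zero _ hb₀')
  have hdvd : ∀ p : C, Prime p → (m' + 1) ∣ multiplicity p w := by
    intro p hp
    obtain ⟨x, hx0, a, b, ha, hb, hab⟩ := H p hp
    obtain ⟨c, d, hd, rfl⟩ := IsFractionRing.div_surjective (A := C) x
    have hd' : d ≠ 0 := nonZeroDivisors.ne_zero hd
    have hc' : c ≠ 0 := by
      rintro rfl
      exact hx0 (by simp)
    have hdF : algebraMap C F d ≠ 0 := by rwa [Ne, map_eq_zero_iff _ hinj]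
    have hcF : algebraMap C F c ≠ 0 := by rwa [Ne, map_eq_zero_iff _ hinj]
    -- `w * d^m * b = a * (c * b₀)^m` in `C`
    replace hab : algebraMap C F a₀ * algebraMap C F d ^ (m' + 1) * algebraMap C F b =
        algebraMap C F a * (algebraMap C F b₀ * algebraMap C F c ^ (m' + 1)) := by
      rw [← hab, div_pow]
      field_simp
    have hC : w * d ^ (m' + 1) * b = a * (c * b₀) ^ (m' + 1) := by
      apply hinj
      simp only [hw, map_mul, map_pow]
      linear_combination (algebraMap C F b₀) ^ m' * hab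
    have hfin : ∀ z : C, z ≠ 0 → FiniteMultiplicity p z := fun z hz =>
      FiniteMultiplicity.of_prime_left hp hz
    have hb0 : b ≠ 0 := fun h => hb (h ▸ dvd_zero p)
    have ha0 : a ≠ 0 := fun h => ha (h ▸ dvd_zero p)
    have hL : multiplicity p (w * d ^ (m' + 1) * b) =
        multiplicity p w + (m' + 1) * multiplicity p d := by
      rw [multiplicity_mul hp (hfin _ (mul_ne_zero (mul_ne_zero hw0 (pow_ne_zero _ hd')) hb0)),
        multiplicity_mul hp (hfin _ (mul_ne_zero hw0 (pow_ne_zero _ hd'))),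
        (hfin d hd').multiplicity_pow hp, multiplicity_eq_zero.mpr hb, add_zero]
    have hR : multiplicity p (a * (c * b₀) ^ (m' + 1)) =
        (m' + 1) * multiplicity p (c * b₀) := by
      rw [multiplicity_mul hp (hfin _ (mul_ne_zero ha0 (pow_ne_zero _ (mul_ne_zero hc' hb₀')))),
        (hfin _ (mul_ne_zero hc' hb₀')).multiplicity_pow hp, multiplicity_eq_zero.mpr ha, zero_add]
    rw [hC, hR] at hL
    -- `(m'+1) * M = mult w + (m'+1) * D`
    have h1 : (m' + 1) ∣ multiplicity p w + (m' + 1) * multiplicity p d := ⟨_, hL.symm⟩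
    have h2 := Nat.dvd_sub h1 (dvd_mul_right (m' + 1) (multiplicity p d))
    simpa using h2
  obtain ⟨ε, c, hεc⟩ := exists_unit_mul_pow_of_dvd_multiplicity (m' + 1) w hw0 hdvd
  have hcF : algebraMap C F c ≠ 0 := by
    rw [Ne, map_eq_zero_iff _ hinj]
    rintro rfl
    rw [zero_pow (Nat.succ_ne_zero m'), mul_zero] at hεc
    exact hw0 hεc
  refine ⟨ε, algebraMap C F c / algebraMap C F b₀, div_ne_zero hcF hbF, ?_⟩
  have h1 : algebraMap C F a₀ * algebraMap C F b₀ ^ m' =
      algebraMap C F (ε : C) * algebraMap C F c ^ (m' + 1) := by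
    rw [← map_pow, ← map_pow, ← map_mul, ← map_mul, ← hεc]
  rw [div_pow, mul_div_assoc', ← h1, pow_succ]
  field_simp

end Pow

end Fermat.Agent.RED.CORE.UnitPow15
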