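/-
Program H (S18), chapter RED/CORE, helper15: bridge between the Prelude's `AlgebraicCurve.Place` and
the valuation subrings `primeVS p = C_(p)` of `UnitPow15` (Mathlib + Prelude `Place` only).

`C` a domain with finite multiplicities (`WfDvdMonoid`, e.g. a UFD), `F = Frac C`, `p : C` prime.

* `isUnit_iff_isPUnit`   : units of `C_(p)` = `p`-unit fractions.
* `exists_pow_mul_isPUnit` : every nonzero `x ∈ C_(p)` is `p ^ n * w`, `w` a `p`-unit.
* `irreducible_unif`, `isDiscreteValuationRing_primeVS`, `isPrincipalIdealRing_primeVS`.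
* `primePlace K hp hK : Place K F` (for a field `K` with `K ⊂ C_(p)`), `ord_unif = 1`,
  `ord_of_isPUnit = 0`.
* `exists_isPUnit_div_pow_of_dvd_ord` : `(m : ℤ) ∣ ord_p u` ⟹ `∃ x ≠ 0, u / x ^ m` is a `p`-unit.
* **`exists_unit_mul_pow_of_places`** : `C` a UFD, `π : C` prime, every element of `K` has a
  denominator `π ^ n` in `C`; `u ∈ F` a `π`-unit (U1) with `(m : ℤ) ∣ v.ord u` for all `v : Place K F`
  (U2).  Then `u = ε * f ^ m`, `ε ∈ Cˣ`, `f ≠ 0`.   [= the factorisation step of (D) in core (b'').]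
-/
import Mathlib
import Fermat.Prelude.Def_AlgebraicCurve_DivisorClassGroup
import Fermat.Agent.RED.CORE.UnitPow15

set_option autoImplicit false
set_option linter.unusedSectionVars false

noncomputable section

namespace Fermat.Agent.RED.CORE.PrimePlace15

open AlgebraicCurve Fermat.Agent.RED.CORE.UnitPow15

section Local

variable {C : Type*} [CommRing C] [IsDomain C] [WfDvdMonoid C] {F : Type*} [Field F] [Algebra C F]
  [IsFractionRing C F] {p : C} (hp : Prime p)

/-- `p` as an element of `C_(p)`. -/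
def unif : ↥(primeVS F p hp) := ⟨algebraMap C F p, algebraMap_mem_primeVS hp p⟩

theorem coe_unif : ((unif (F := F) hp : ↥(primeVS F p hp)) : F) = algebraMap C F p := rfl

include hp in
theorem algebraMap_p_ne_zero : algebraMap C F p ≠ 0 := by
  rw [Ne, map_eq_zero_iff _ (FaithfulSMul.algebraMap_injective C F)]
  exact hp.ne_zero

theorem unif_ne_zero : unif (F := F) hp ≠ 0 := fun h =>
  algebraMap_p_ne_zero (F := F) hp (congrArg Subtype.val h)

/-- Units of `C_(p)` are the `p`-unit fractions. -/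
theorem isUnit_iff_isPUnit (x : ↥(primeVS F p hp)) : IsUnit x ↔ IsPUnit F p (x : F) := by
  constructor
  · intro hx
    obtain ⟨y, hy⟩ := hx.exists_right_inv
    have hxy : (x : F) * (y : F) = 1 := by
      have := congrArg Subtype.val hy
      simpa using this
    have hx0 : (x : F) ≠ 0 := left_ne_zero_of_mul_eq_one hxy
    refine (isPUnit_iff_mem_and_inv_mem hp hx0).mpr ⟨x.2, ?_⟩
    have : (x : F)⁻¹ = (y : F) := inv_eq_of_mul_eq_one_right hxy
    rw [this]
    exact y.2
  · intro hx
    have hx0 : (x : F) ≠ 0 := hx.ne_zero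
    have hinv := ((isPUnit_iff_mem_and_inv_mem hp hx0).mp hx).2
    refine IsUnit.of_mul_eq_one ⟨(x : F)⁻¹, hinv⟩ (Subtype.ext ?_)
    show (x : F) * (x : F)⁻¹ = 1
    exact mul_inv_cancel₀ hx0

/-- Every nonzero element of `C_(p)` is `p ^ n` times a `p`-unit. -/
theorem exists_pow_mul_isPUnit {x : F} (hx : x ∈ primeVS F p hp) (hx0 : x ≠ 0) :
    ∃ (n : ℕ) (w : F), IsPUnit F p w ∧ x = algebraMap C F p ^ n * w := by
  obtain ⟨a, b, hb, hab⟩ := hx
  have hb0 : b ≠ 0 := fun h => hb (h ▸ dvd_zero p)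
  have hbF : algebraMap C F b ≠ 0 := by
    rwa [Ne, map_eq_zero_iff _ (FaithfulSMul.algebraMap_injective C F)]
  have ha0 : a ≠ 0 := by
    rintro rfl
    rw [map_zero] at hab
    exact hx0 ((mul_eq_zero.mp hab).resolve_right hbF)
  obtain ⟨n, a', ha', rfl⟩ := WfDvdMonoid.max_power_factor' ha0 hp.not_isUnit
  refine ⟨n, algebraMap C F a' / algebraMap C F b, ⟨a', b, ha', hb, by field_simp⟩, ?_⟩
  rw [map_mul, map_pow] at hab
  rw [mul_div_assoc', eq_div_iff hbF, hab]

include hp in
/-- `p ^ n` is a `p`-unit only for `n = 0`. -/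
theorem eq_zero_of_isPUnit_pow {n : ℕ} (h : IsPUnit F p (algebraMap C F p ^ n)) : n = 0 := by
  by_contra hn
  obtain ⟨a, b, ha, hb, hab⟩ := h
  rw [← map_pow, ← map_mul] at hab
  have hC := FaithfulSMul.algebraMap_injective C F hab
  apply ha
  rw [← hC]
  exact Dvd.dvd.mul_right (dvd_pow_self p hn) b

theorem not_isUnit_unif : ¬ IsUnit (unif (F := F) hp) := by
  rw [isUnit_iff_isPUnit, coe_unif]
  exact not_isPUnit_self hp

theorem irreducible_unif : Irreducible (unif (F := F) hp) := by
  refine ⟨not_isUnit_unif hp, fun y z hyz => ?_⟩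
  have hy0 : (y : F) ≠ 0 := by
    intro h
    apply algebraMap_p_ne_zero (F := F) hp
    have := congrArg Subtype.val hyz
    rw [coe_unif] at this
    rw [this]
    simp [h]
  have hz0 : (z : F) ≠ 0 := by
    intro h
    apply algebraMap_p_ne_zero (F := F) hp
    have := congrArg Subtype.val hyz
    rw [coe_unif] at this
    rw [this]
    simp [h]
  obtain ⟨i, w, hw, hyw⟩ := exists_pow_mul_isPUnit hp y.2 hy0
  obtain ⟨j, w', hw', hzw⟩ := exists_pow_mul_isPUnit hp z.2 hz0
  have hF : algebraMap C F p = (y : F) * (z : F) := by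
    have := congrArg Subtype.val hyz
    simpa [coe_unif] using this
  have hpF := algebraMap_p_ne_zero (F := F) hp
  -- `p = p^(i+j) * (w w')`
  have h1 : algebraMap C F p = algebraMap C F p ^ (i + j) * (w * w') := by
    conv_lhs => rw [hF, hyw, hzw]
    rw [pow_add]; ring
  have hww : IsPUnit F p (w * w') := hw.mul hp hw'
  rcases Nat.lt_or_ge (i + j) 1 with hlt | hge
  · -- `i + j = 0`: `p` would be a `p`-unit
    exfalso
    have h0 : i + j = 0 := by omega
    rw [h0, pow_zero, one_mul] at h1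
    exact not_isPUnit_self (F := F) hp (h1 ▸ hww)
  · obtain ⟨k, hk⟩ : ∃ k, i + j = k + 1 := ⟨i + j - 1, by omega⟩
    -- `p^k * (w w') = 1`, so `p^k` is a `p`-unit, `k = 0`
    have h2 : algebraMap C F p ^ k * (w * w') = 1 := by
      have h3 : algebraMap C F p * 1 = algebraMap C F p * (algebraMap C F p ^ k * (w * w')) := by
        rw [mul_one]
        conv_lhs => rw [h1, hk, pow_succ]
        ring
      exact (mul_left_cancel₀ hpF h3).symm
    have h4 : IsPUnit F p (algebraMap C F p ^ k) := by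
      have : algebraMap C F p ^ k = (w * w')⁻¹ := eq_inv_of_mul_eq_one_left h2
      rw [this]
      exact hww.inv
    have hk0 : k = 0 := eq_zero_of_isPUnit_pow hp h4
    have hij : i + j = 1 := by omega
    rcases Nat.eq_zero_or_pos i with hi | hi
    · left
      rw [isUnit_iff_isPUnit, hyw, hi, pow_zero, one_mul]
      exact hw
    · right
      have hj : j = 0 := by omega
      rw [isUnit_iff_isPUnit, hzw, hj, pow_zero, one_mul]
      exact hw'

theorem hasUnitMulPow :
    IsDiscreteValuationRing.HasUnitMulPowIrreducibleFactorization ↥(primeVS F p hp) := by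
  refine ⟨unif hp, irreducible_unif hp, fun {x} hx => ?_⟩
  have hx0 : (x : F) ≠ 0 := fun h => hx (Subtype.ext h)
  obtain ⟨n, w, hw, hxw⟩ := exists_pow_mul_isPUnit hp x.2 hx0
  have hwmem : w ∈ primeVS F p hp :=
    ((isPUnit_iff_mem_and_inv_mem hp hw.ne_zero).mp hw).1
  have hwu : IsUnit (⟨w, hwmem⟩ : ↥(primeVS F p hp)) := (isUnit_iff_isPUnit hp _).mpr hw
  refine ⟨n, hwu.unit, Subtype.ext ?_⟩
  show ((unif (F := F) hp : ↥(primeVS F p hp)) : F) ^ n * w = (x : F)
  rw [coe_unif, hxw]

theorem isDiscreteValuationRing_primeVS : IsDiscreteValuationRing ↥(primeVS F p hp) :=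
  IsDiscreteValuationRing.ofHasUnitMulPowIrreducibleFactorization (hasUnitMulPow hp)

theorem isPrincipalIdealRing_primeVS : IsPrincipalIdealRing ↥(primeVS F p hp) :=
  have := isDiscreteValuationRing_primeVS (F := F) hp
  inferInstance

variable (K : Type*) [Field K] [Algebra K F]

/-- The place of `F / K` attached to a prime element `p` of `C` with `K ⊂ C_(p)`. -/
def primePlace (hK : ∀ a : K, algebraMap K F a ∈ primeVS F p hp) : Place K F where
  toValuationSubring := primeVS F p hp
  algebraMap_mem' := hK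
  ne_top' := primeVS_ne_top hp
  isPrincipalIdealRing' := isPrincipalIdealRing_primeVS hp

variable {K}
variable (hK : ∀ a : K, algebraMap K F a ∈ primeVS F p hp)

theorem primePlace_toValuationSubring :
    (primePlace hp K hK).toValuationSubring = primeVS F p hp := rfl

theorem ord_unif : (primePlace hp K hK).ord (algebraMap C F p) = 1 :=
  (primePlace hp K hK).ord_coe_irreducible (π := unif hp) (irreducible_unif hp)

theorem ord_of_isPUnit {w : F} (hw : IsPUnit F p w) : (primePlace hp K hK).ord w = 0 := by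
  have hwmem : w ∈ primeVS F p hp :=
    ((isPUnit_iff_mem_and_inv_mem hp hw.ne_zero).mp hw).1
  have hwu : IsUnit (⟨w, hwmem⟩ : ↥(primeVS F p hp)) := (isUnit_iff_isPUnit hp _).mpr hw
  have := (primePlace hp K hK).ord_coe_unit hwu.unit
  simpa using this

/-- **Bridge**: if `m ∣ ord_p u` then `u / x ^ m` is a `p`-unit for a suitable `x ≠ 0`. -/
theorem exists_isPUnit_div_pow_of_dvd_ord (u : F) (hu : u ≠ 0) (m : ℕ)
    (h : (m : ℤ) ∣ (primePlace hp K hK).ord u) : ∃ x : F, x ≠ 0 ∧ IsPUnit F p (u / x ^ m) := by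
  obtain ⟨k, hk⟩ := h
  obtain ⟨w, hw⟩ := (primePlace hp K hK).exists_unit_mul_zpow hu (π := unif hp) (irreducible_unif hp)
  have hpF := algebraMap_p_ne_zero (F := F) hp
  refine ⟨algebraMap C F p ^ k, zpow_ne_zero k hpF, ?_⟩
  have hwP : IsPUnit F p (((w : ↥(primePlace hp K hK).toValuationSubring) : F)) :=
    (isUnit_iff_isPUnit hp (w : ↥(primePlace hp K hK).toValuationSubring)).mp w.isUnit
  have hx : (algebraMap C F p ^ k) ^ m = algebraMap C F p ^ ((primePlace hp K hK).ord u) := by
    rw [hk, ← zpow_natCast, ← zpow_mul, mul_comm]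
  have : u / (algebraMap C F p ^ k) ^ m =
      ((w : ↥(primePlace hp K hK).toValuationSubring) : F) := by
    rw [hx, div_eq_iff (zpow_ne_zero _ hpF)]
    exact hw
  rw [this]
  exact hwP

end Local

section Global

variable {C : Type*} [CommRing C] [IsDomain C] [UniqueFactorizationMonoid C] {F : Type*} [Field F]
  [Algebra C F] [IsFractionRing C F] (K : Type*) [Field K] [Algebra K F]

/-- A prime `p` not associated to `π` has `K ⊂ C_(p)` as soon as every element of `K` has a
denominator `π ^ n`. -/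
theorem algebraMap_mem_primeVS_of_not_associated {π p : C} (hπ : Prime π) (hp : Prime p)
    (hpπ : ¬ Associated p π)
    (hK : ∀ a : K, ∃ (c : C) (n : ℕ), algebraMap K F a * algebraMap C F π ^ n = algebraMap C F c)
    (a : K) : algebraMap K F a ∈ primeVS F p hp := by
  obtain ⟨c, n, hc⟩ := hK a
  refine ⟨c, π ^ n, fun h => hpπ ?_, by rw [map_pow]; exact hc⟩
  exact (hp.dvd_prime_iff_associated hπ).mp (hp.dvd_of_dvd_pow h)

/-- **Factorisation step of (D)**: `C` a UFD with fraction field `F ⊇ K`, `π` a prime of `C` such that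
every element of `K` has a denominator `π ^ n`.  If `u ∈ F` is a `π`-unit (U1) and
`(m : ℤ) ∣ v.ord u` for every place `v` of `F / K` (U2), then `u = ε * f ^ m` with `ε ∈ Cˣ`. -/
theorem exists_unit_mul_pow_of_places {π : C} (hπ : Prime π)
    (hK : ∀ a : K, ∃ (c : C) (n : ℕ), algebraMap K F a * algebraMap C F π ^ n = algebraMap C F c)
    (m : ℕ) (hm : m ≠ 0) (u : F) (hu : u ≠ 0) (U1 : IsPUnit F π u)
    (U2 : ∀ v : Place K F, (m : ℤ) ∣ v.ord u) :
    ∃ (ε : Cˣ) (f : F), f ≠ 0 ∧ u = algebraMap C F (ε : C) * f ^ m := by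
  refine exists_unit_mul_pow m hm u hu fun p hp => ?_
  by_cases hpπ : Associated p π
  · refine ⟨1, one_ne_zero, ?_⟩
    rw [one_pow, div_one]
    obtain ⟨a, b, ha, hb, hab⟩ := U1
    exact ⟨a, b, fun h => ha (hpπ.symm.dvd.trans h), fun h => hb (hpπ.symm.dvd.trans h), hab⟩
  · have hKp := algebraMap_mem_primeVS_of_not_associated K hπ hp hpπ hK
    exact exists_isPUnit_div_pow_of_dvd_ord hp hKp u hu m (U2 (primePlace hp K hKp))

end Global

end Fermat.Agent.RED.CORE.PrimePlace15
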