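/-
Program H (S18), chapter RED/CORE (helper15): the LOCAL step of (D) (start of core (b'')).

`C` a UFD (the local ring `B_x` of a chart at a closed point of the special fibre) with
`Frac C = F ⊇ K`, `π` a prime of `C` with `C / π` integrally closed (a PID in the application),
`Ov` a valuation subring of `F` with `C ⊂ Ov`, `c⁻¹ ∈ Ov` for `π ∤ c`, `π⁻¹ ∉ Ov`
(these force `Ov = C_(π)`), every element of `K` has a denominator `π ^ n`.

If `u ≡ 1 mod π Ov` (U1) and `(m : ℤ) ∣ v.ord u` for all places `v` of `F / K` (U2), then there is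
`g ∈ F` with `g ^ m * u ∈ C` and `g ≡ 1 mod π Ov`.

Proof: `u = ε f ^ m` (`PrimePlace15.exists_unit_mul_pow_of_places`), `f = a / b` with `π ∤ a, b`,
`ε a ^ m ≡ b ^ m mod π`, so `b~ ∣ a~` in `C / π` by integral closedness: `a ≡ v b mod π`;
`g := v b / a`, `g ^ m u = v ^ m ε`.
-/
import Mathlib
import Fermat.Agent.RED.CORE.PrimePlace15

set_option autoImplicit false

namespace Fermat.Agent.RED.CORE.LocalStep15

open AlgebraicCurve UnitPow15 PrimePlace15

section OvEq

variable {C : Type*} [CommRing C] [IsDomain C] [WfDvdMonoid C] {F : Type*} [Field F]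
  [Algebra C F] [IsFractionRing C F] {π : C}

omit [IsDomain C] [WfDvdMonoid C] in
theorem algebraMap_pi_ne_zero (hπ : Prime π) : algebraMap C F π ≠ 0 := by
  rw [Ne, map_eq_zero_iff _ (FaithfulSMul.algebraMap_injective C F)]
  exact hπ.ne_zero

/-- `C_(π) ⊂ Ov`. -/
theorem mem_of_mem_primeVS (hπ : Prime π) (Ov : ValuationSubring F) (hC : ∀ c : C, algebraMap C F c ∈ Ov)
    (hinv : ∀ c : C, ¬ π ∣ c → (algebraMap C F c)⁻¹ ∈ Ov) {x : F} (hx : x ∈ primeVS F π hπ) :
    x ∈ Ov := by
  obtain ⟨a, b, hb, hab⟩ := hx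
  have hb0 : b ≠ 0 := fun h => hb (h ▸ dvd_zero π)
  have hbF : algebraMap C F b ≠ 0 := by
    rwa [Ne, map_eq_zero_iff _ (FaithfulSMul.algebraMap_injective C F)]
  have : x = algebraMap C F a * (algebraMap C F b)⁻¹ := by
    rw [← hab]; field_simp
  rw [this]
  exact Ov.mul_mem _ _ (hC a) (hinv b hb)

/-- `π`-units are units of `Ov`. -/
theorem mem_of_isPUnit (hπ : Prime π) (Ov : ValuationSubring F) (hC : ∀ c : C, algebraMap C F c ∈ Ov)
    (hinv : ∀ c : C, ¬ π ∣ c → (algebraMap C F c)⁻¹ ∈ Ov) {x : F} (hx : IsPUnit F π x) :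
    x ∈ Ov :=
  mem_of_mem_primeVS hπ Ov hC hinv ((isPUnit_iff_mem_and_inv_mem hπ hx.ne_zero).mp hx).1

/-- `Ov ⊂ C_(π)`. -/
theorem mem_primeVS_of_mem (hπ : Prime π) (Ov : ValuationSubring F) (hC : ∀ c : C, algebraMap C F c ∈ Ov)
    (hinv : ∀ c : C, ¬ π ∣ c → (algebraMap C F c)⁻¹ ∈ Ov)
    (hnu : (algebraMap C F π)⁻¹ ∉ Ov) {x : F} (hx : x ∈ Ov) : x ∈ primeVS F π hπ := by
  rcases (primeVS F π hπ).mem_or_inv_mem x with h | h
  · exact h
  · rcases eq_or_ne x 0 with rfl | hx0
    · exact (primeVS F π hπ).zero_mem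
    · have hxi0 : x⁻¹ ≠ 0 := inv_ne_zero hx0
      obtain ⟨n, w, hw, hxw⟩ := exists_pow_mul_isPUnit hπ h hxi0
      rcases Nat.eq_zero_or_pos n with rfl | hn
      · -- `x⁻¹` is a `π`-unit
        rw [pow_zero, one_mul] at hxw
        have : IsPUnit F π x := by
          have := hw.inv
          rwa [← hxw, inv_inv] at this
        exact ((isPUnit_iff_mem_and_inv_mem hπ hx0).mp this).1
      · exfalso
        apply hnu
        have hpF := algebraMap_pi_ne_zero (F := F) hπ
        have hw0 := hw.ne_zero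
        obtain ⟨n', rfl⟩ : ∃ n', n = n' + 1 := ⟨n - 1, (Nat.sub_add_cancel hn).symm⟩
        -- `π⁻¹ = π ^ n' * (x * w)`
        have : (algebraMap C F π)⁻¹ = algebraMap C F π ^ n' * (x * w) := by
          have h1 : x * (algebraMap C F π ^ (n' + 1) * w) = 1 := by
            rw [← hxw, mul_inv_cancel₀ hx0]
          rw [pow_succ] at h1
          symm
          apply eq_inv_of_mul_eq_one_left
          linear_combination h1
        rw [this]
        exact Ov.mul_mem _ _ (pow_mem (hC π) n')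
          (Ov.mul_mem _ _ hx (mem_of_isPUnit hπ Ov hC hinv hw))

theorem mem_iff_mem_primeVS (hπ : Prime π) (Ov : ValuationSubring F) (hC : ∀ c : C, algebraMap C F c ∈ Ov)
    (hinv : ∀ c : C, ¬ π ∣ c → (algebraMap C F c)⁻¹ ∈ Ov)
    (hnu : (algebraMap C F π)⁻¹ ∉ Ov) (x : F) : x ∈ Ov ↔ x ∈ primeVS F π hπ :=
  ⟨mem_primeVS_of_mem hπ Ov hC hinv hnu, mem_of_mem_primeVS hπ Ov hC hinv⟩

/-- The three conditions force `Ov = C_(π)`. -/
theorem eq_primeVS (hπ : Prime π) (Ov : ValuationSubring F) (hC : ∀ c : C, algebraMap C F c ∈ Ov)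
    (hinv : ∀ c : C, ¬ π ∣ c → (algebraMap C F c)⁻¹ ∈ Ov)
    (hnu : (algebraMap C F π)⁻¹ ∉ Ov) : Ov = primeVS F π hπ :=
  SetLike.ext (mem_iff_mem_primeVS hπ Ov hC hinv hnu)

/-- `1 + π c` is a `π`-unit for `c ∈ C_(π)`. -/
theorem isPUnit_of_sub_one (hπ : Prime π) {u c : F} (hc : c ∈ primeVS F π hπ)
    (hu : u - 1 = algebraMap C F π * c) : IsPUnit F π u := by
  obtain ⟨a, b, hb, hab⟩ := hc
  refine ⟨b + π * a, b, fun h => hb ?_, hb, ?_⟩
  · exact (dvd_add_left (Dvd.intro a rfl)).mp h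
  · have : u = 1 + algebraMap C F π * c := by linear_combination hu
    rw [this, map_add, map_mul, ← hab]; ring

/-- saturation: `z ∈ C`, `z = π o` with `o ∈ C_(π)` implies `π ∣ z` in `C`. -/
theorem dvd_of_eq_mul_mem (hπ : Prime π) {z : C} {o : F} (ho : o ∈ primeVS F π hπ)
    (hz : algebraMap C F z = algebraMap C F π * o) : π ∣ z := by
  obtain ⟨a, b, hb, hab⟩ := ho
  have h1 : algebraMap C F (z * b) = algebraMap C F (π * a) := by
    rw [map_mul, map_mul, hz, ← hab]; ring
  have h2 : z * b = π * a := FaithfulSMul.algebraMap_injective C F h1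
  exact (hπ.dvd_or_dvd (Dvd.intro a h2.symm)).resolve_right hb

end OvEq

section HK

variable {R K C F : Type*} [CommRing R] [Field K] [Algebra R K] [IsFractionRing R K]
  [CommRing C] [Field F] [Algebra K F] [Algebra R F] [IsScalarTower R K F] [Algebra R C]
  [Algebra C F] [IsScalarTower R C F]

/-- The hypothesis `hK` ("every element of `K` has a denominator `π ^ n`") from
`K = Frac R` and `R` a DVR with uniformiser `π₀`, for `π := algebraMap R C π₀`. -/
theorem hK_of_dvr (π₀ : R) (dvrR : ∀ r : R, r ≠ 0 → ∃ (k : ℕ) (v : Rˣ), r = π₀ ^ k * v)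
    (a : K) : ∃ (c : C) (n : ℕ),
      algebraMap K F a * algebraMap C F (algebraMap R C π₀) ^ n = algebraMap C F c := by
  obtain ⟨⟨r, ⟨s, hs⟩⟩, h1⟩ := IsLocalization.surj (nonZeroDivisors R) a
  have h1 : a * algebraMap R K s = algebraMap R K r := h1
  have hs0 : s ≠ 0 := by
    rintro rfl
    have h0 : algebraMap R K r = 0 := by rw [← h1, map_zero, mul_zero]
    have hr0 : r = 0 := (map_eq_zero_iff _ (IsFractionRing.injective R K)).mp h0
    have hK1 : (1 : K) = 0 := by
      have := (IsLocalization.map_units K (⟨(0 : R), hs⟩ : nonZeroDivisors R))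
      rw [map_zero] at this
      exact (isUnit_zero_iff.mp this).symm
    exact one_ne_zero hK1
  obtain ⟨k, v, hv⟩ := dvrR s hs0
  refine ⟨algebraMap R C (r * ((v⁻¹ : Rˣ) : R)), k, ?_⟩
  have h2 : algebraMap K F a * algebraMap R F s = algebraMap R F r := by
    rw [IsScalarTower.algebraMap_apply R K F, IsScalarTower.algebraMap_apply R K F, ← map_mul, h1]
  rw [← IsScalarTower.algebraMap_apply R C F, ← IsScalarTower.algebraMap_apply R C F, map_mul,
    ← h2, hv, map_mul, map_pow]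
  have h3 : algebraMap R F (v : R) * algebraMap R F ((v⁻¹ : Rˣ) : R) = 1 := by
    rw [← map_mul, Units.mul_inv, map_one]
  linear_combination (-(algebraMap K F a * algebraMap R F π₀ ^ k)) * h3

end HK

section Step

variable {C : Type*} [CommRing C] [IsDomain C] [UniqueFactorizationMonoid C] {F : Type*} [Field F]
  [Algebra C F] [IsFractionRing C F] (K : Type*) [Field K] [Algebra K F]

/-- **LOCAL step of (D)**, `C_(π)`-form. -/
theorem local_step_primeVS {π : C} (hπ : Prime π) [IsIntegrallyClosed (C ⧸ Ideal.span {π})]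
    (hK : ∀ a : K, ∃ (c : C) (n : ℕ), algebraMap K F a * algebraMap C F π ^ n = algebraMap C F c)
    (m : ℕ) (hm : m ≠ 0) (u : F)
    (hu1 : ∃ c ∈ primeVS F π hπ, u - 1 = algebraMap C F π * c)
    (hu2 : ∀ v : Place K F, (m : ℤ) ∣ v.ord u) :
    ∃ g : F, (∃ z : C, g ^ m * u = algebraMap C F z) ∧
      ∃ c ∈ primeVS F π hπ, g - 1 = algebraMap C F π * c := by
  obtain ⟨c₀, hc₀, hu⟩ := hu1
  have hU1 : IsPUnit F π u := isPUnit_of_sub_one hπ hc₀ hu
  have hu0 : u ≠ 0 := hU1.ne_zero
  obtain ⟨ε, f, hf0, huf⟩ := exists_unit_mul_pow_of_places K hπ hK m hm u hu0 hU1 hu2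
  -- `f` is a `π`-unit
  have hεF : algebraMap C F (ε : C) ≠ 0 := by
    rw [Ne, map_eq_zero_iff _ (FaithfulSMul.algebraMap_injective C F)]
    exact ε.ne_zero
  have hεP : IsPUnit F π (algebraMap C F (ε : C)) :=
    isPUnit_algebraMap (fun h => hπ.not_isUnit (isUnit_of_dvd_unit h ε.isUnit)) hπ.not_dvd_one
  have hfm : IsPUnit F π (f ^ m) := by
    have : f ^ m = u * (algebraMap C F (ε : C))⁻¹ := by
      rw [huf]; field_simp
    rw [this]
    exact hU1.mul hπ hεP.inv
  have hfP : IsPUnit F π f := by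
    have hm' : 0 < m := Nat.pos_of_ne_zero hm
    have h1 := (isPUnit_iff_mem_and_inv_mem hπ (pow_ne_zero m hf0)).mp hfm
    have root : ∀ x : F, x ^ m ∈ primeVS F π hπ → x ∈ primeVS F π hπ := by
      intro x hx
      rcases (primeVS F π hπ).mem_or_inv_mem x with h | h
      · exact h
      · rcases eq_or_ne x 0 with rfl | hx0
        · exact (primeVS F π hπ).zero_mem
        · obtain ⟨m', rfl⟩ : ∃ m', m = m' + 1 := ⟨m - 1, (Nat.sub_add_cancel hm').symm⟩
          have : x = x ^ (m' + 1) * (x⁻¹) ^ m' := by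
            rw [pow_succ, inv_pow]
            field_simp
          rw [this]
          exact (primeVS F π hπ).mul_mem _ _ hx (pow_mem h m')
    refine (isPUnit_iff_mem_and_inv_mem hπ hf0).mpr ⟨root f h1.1, root f⁻¹ ?_⟩
    rw [inv_pow]
    exact h1.2
  obtain ⟨a, b, ha, hb, hab⟩ := hfP
  have ha0 : a ≠ 0 := fun h => ha (h ▸ dvd_zero π)
  have hb0 : b ≠ 0 := fun h => hb (h ▸ dvd_zero π)
  have haF : algebraMap C F a ≠ 0 := by
    rwa [Ne, map_eq_zero_iff _ (FaithfulSMul.algebraMap_injective C F)]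
  have hbF : algebraMap C F b ≠ 0 := by
    rwa [Ne, map_eq_zero_iff _ (FaithfulSMul.algebraMap_injective C F)]
  have hfab : f = algebraMap C F a / algebraMap C F b := by
    rw [eq_div_iff hbF, hab]
  -- `ε a ^ m - b ^ m ∈ π C`
  have hdvd : π ∣ (ε : C) * a ^ m - b ^ m := by
    apply dvd_of_eq_mul_mem hπ (o := algebraMap C F b ^ m * c₀)
    · exact (primeVS F π hπ).mul_mem _ _ (pow_mem (algebraMap_mem_primeVS hπ b) m) hc₀
    · have h1 : u * algebraMap C F b ^ m = algebraMap C F (ε : C) * algebraMap C F a ^ m := by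
        rw [huf, hfab, div_pow]; field_simp
      rw [map_sub, map_mul, map_pow, map_pow]
      have : u = 1 + algebraMap C F π * c₀ := by linear_combination hu
      rw [this] at h1
      linear_combination (-1 : F) * h1
  -- in `D = C / π`: `b~ ^ m ∣ a~ ^ m`
  set D := C ⧸ Ideal.span {π} with hD
  set q : C →+* D := Ideal.Quotient.mk (Ideal.span {π}) with hq
  have : (Ideal.span {π} : Ideal C).IsPrime := (Ideal.span_singleton_prime hπ.ne_zero).mpr hπ
  have : IsDomain D := Ideal.Quotient.isDomain _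
  have hqeq : q ((ε : C) * a ^ m) = q (b ^ m) := by
    rw [← sub_eq_zero, ← map_sub, hq, Ideal.Quotient.eq_zero_iff_mem,
      Ideal.mem_span_singleton]
    exact hdvd
  have hdiv : q b ^ m ∣ q a ^ m := by
    refine ⟨q ((ε⁻¹ : Cˣ) : C), ?_⟩
    rw [← map_pow, ← map_pow, ← hqeq, ← map_mul]
    congr 1
    have : (ε : C) * ((ε⁻¹ : Cˣ) : C) = 1 := Units.mul_inv ε
    linear_combination (-(a ^ m)) * this
  have hdiv' : q b ∣ q a := (IsIntegrallyClosed.pow_dvd_pow_iff hm).mp hdiv
  obtain ⟨v', hv'⟩ := hdiv'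
  obtain ⟨v, rfl⟩ := Ideal.Quotient.mk_surjective v'
  -- `a - b v ∈ π C`
  have hdvd2 : π ∣ a - b * v := by
    rw [← Ideal.mem_span_singleton, ← Ideal.Quotient.eq_zero_iff_mem, map_sub, map_mul]
    rw [hq] at hv'
    rw [hv', sub_self]
  obtain ⟨w, hw⟩ := hdvd2
  refine ⟨algebraMap C F v * algebraMap C F b / algebraMap C F a, ⟨v ^ m * (ε : C), ?_⟩, ?_⟩
  · rw [huf, hfab, map_mul, map_pow]
    have h1 : algebraMap C F v * algebraMap C F b / algebraMap C F a *
        (algebraMap C F a / algebraMap C F b) = algebraMap C F v := by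
      field_simp
    calc (algebraMap C F v * algebraMap C F b / algebraMap C F a) ^ m *
          (algebraMap C F (ε : C) * (algebraMap C F a / algebraMap C F b) ^ m)
        = (algebraMap C F v * algebraMap C F b / algebraMap C F a *
          (algebraMap C F a / algebraMap C F b)) ^ m * algebraMap C F (ε : C) := by
          rw [mul_pow]; ring
      _ = algebraMap C F v ^ m * algebraMap C F (ε : C) := by rw [h1]
  · refine ⟨-(algebraMap C F w) * (algebraMap C F a)⁻¹, ?_, ?_⟩
    · exact (primeVS F π hπ).mul_mem _ _ (neg_mem (algebraMap_mem_primeVS hπ w))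
        (inv_algebraMap_mem_primeVS hπ ha)
    · have h1 : algebraMap C F a - algebraMap C F b * algebraMap C F v =
          algebraMap C F π * algebraMap C F w := by
        rw [← map_mul, ← map_sub, hw, map_mul]
      field_simp
      linear_combination (-1 : F) * h1

/-- **LOCAL step of (D)**: see the file header. -/
theorem local_step {π : C} (hπ : Prime π) [IsIntegrallyClosed (C ⧸ Ideal.span {π})]
    (Ov : ValuationSubring F) (hC : ∀ c : C, algebraMap C F c ∈ Ov)
    (hinv : ∀ c : C, ¬ π ∣ c → (algebraMap C F c)⁻¹ ∈ Ov)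
    (hnu : (algebraMap C F π)⁻¹ ∉ Ov)
    (hK : ∀ a : K, ∃ (c : C) (n : ℕ), algebraMap K F a * algebraMap C F π ^ n = algebraMap C F c)
    (m : ℕ) (hm : m ≠ 0) (u : F)
    (hu1 : ∃ c ∈ Ov, u - 1 = algebraMap C F π * c)
    (hu2 : ∀ v : Place K F, (m : ℤ) ∣ v.ord u) :
    ∃ g : F, (∃ z : C, g ^ m * u = algebraMap C F z) ∧
      ∃ c ∈ Ov, g - 1 = algebraMap C F π * c := by
  have hOv := eq_primeVS hπ Ov hC hinv hnu
  subst hOv
  exact local_step_primeVS K hπ hK m hm u hu1 hu2

end Step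

end Fermat.Agent.RED.CORE.LocalStep15
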