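/-
Program H (S18), chapter RED/CORE (helper28): step (D) "START" of the core argument (b'').

Part 1 (section `Light`; `B` any commutative ring with an algebra structure on the field `F`,
`Ov` a valuation subring containing the image of `B`, `PiMul Ov π x` meaning `x ∈ π · Ov`):

* `exists_start_of_local` : the GLOBAL `J`-ARGUMENT.  If `B` is closed under `m`-th roots in `F`
  and for every maximal ideal `𝔪 ∋ π` there are `g` with `g ^ m * u ∈ B` and `d ∈ B \ 𝔪` with
  `g ≡ d mod π Ov`, then there is `g` with `g ^ m * u ∈ B` and `g ≡ 1 mod π Ov`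
  (`J = {c ∈ B | ∃ g, g ^ m * u ∈ B ∧ g - c ∈ π Ov}` is an ideal containing `π`).
* `exists_start_of_local_subalgebra` : the same in the idiom of `CoreIface24` (`B : Subalgebra R F`).

Part 2 (`B` a domain inside `F`, `π ∈ B` prime, `Ov` the localisation of `B` at `(π)`):

* `exists_local` : the local step at a prime `𝔪 ∋ π`, for `C = B_𝔪` (any `IsLocalization.AtPrime`)
  with `C / π` a principal ideal ring and `u = ε f ^ m`, `ε ∈ Cˣ`: `f` is a unit of `Ov`,
  `f~ ^ m = ε~⁻¹` in `Frac (C / π)`, so `f~ ∈ C / π` (a domain which is a PIR is integrally closed);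
  lifting `f~` to `b ∈ C`, `g_loc = b / f` has `g_loc ^ m u = b ^ m ε ∈ C` and `g_loc ≡ 1`;
  clearing one denominator `d ∉ 𝔪` gives `g = d g_loc` with `g ^ m u ∈ B`, `g ≡ d`.
* `exists_start` : both parts combined.
-/
import Mathlib

set_option autoImplicit false
set_option linter.unusedSectionVars false

namespace Fermat.Agent.RED.CORE.StartD28

section Light

variable {F : Type*} [Field F] {B : Type*} [CommRing B] [Algebra B F]

/-- `x ∈ π · Ov`. -/
def PiMul (Ov : ValuationSubring F) (π : B) (x : F) : Prop :=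
  ∃ o ∈ Ov, x = algebraMap B F π * o

variable {Ov : ValuationSubring F} {π : B}

theorem PiMul.add {x y : F} (hx : PiMul Ov π x) (hy : PiMul Ov π y) : PiMul Ov π (x + y) := by
  obtain ⟨o, ho, rfl⟩ := hx
  obtain ⟨o', ho', rfl⟩ := hy
  exact ⟨o + o', Ov.add_mem _ _ ho ho', by ring⟩

theorem PiMul.mul_left {x : F} (hx : PiMul Ov π x) {c : F} (hc : c ∈ Ov) : PiMul Ov π (c * x) := by
  obtain ⟨o, ho, rfl⟩ := hx
  exact ⟨c * o, Ov.mul_mem _ _ hc ho, by ring⟩

theorem PiMul.neg {x : F} (hx : PiMul Ov π x) : PiMul Ov π (-x) := by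
  obtain ⟨o, ho, rfl⟩ := hx
  exact ⟨-o, Ov.neg_mem _ ho, by ring⟩

/-- If `S` is closed under `m`-th roots, `{g | g ^ m * u ∈ S}` is closed under addition. -/
theorem add_pow_mul_mem {S : Subring F} {m : ℕ} (hroot : ∀ x : F, x ^ m ∈ S → x ∈ S) {u x y : F}
    (hx : x ^ m * u ∈ S) (hy : y ^ m * u ∈ S) : (x + y) ^ m * u ∈ S := by
  rw [add_pow, Finset.sum_mul]
  refine S.sum_mem fun k hk => ?_
  have hk' : k ≤ m := Nat.lt_succ_iff.mp (Finset.mem_range.mp hk)
  obtain ⟨j, hj⟩ : ∃ j, m = k + j := ⟨m - k, by omega⟩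
  have hmk : m - k = j := by omega
  rw [hmk]
  have h1 : x ^ k * y ^ j * u ∈ S := by
    apply hroot
    have : (x ^ k * y ^ j * u) ^ m = (x ^ m * u) ^ k * (y ^ m * u) ^ j := by
      rw [hj]; ring
    rw [this]
    exact S.mul_mem (S.pow_mem hx k) (S.pow_mem hy j)
  have : x ^ k * y ^ j * (m.choose k : F) * u = (m.choose k : F) * (x ^ k * y ^ j * u) := by ring
  rw [this]
  exact S.mul_mem (natCast_mem S _) h1

/-- **Globalisation of START.** If at every maximal ideal `𝔪 ∋ π` of `B` there are `g` in the root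
module and `d ∈ B \ 𝔪` with `g ≡ d mod π Ov`, then there is `g` in the root module with
`g ≡ 1 mod π Ov`. -/
theorem exists_start_of_local (hB : ∀ b : B, algebraMap B F b ∈ Ov) {m : ℕ} (hm : m ≠ 0)
    (hroot : ∀ x : F, x ^ m ∈ (algebraMap B F).range → x ∈ (algebraMap B F).range) {u : F}
    (hloc : ∀ 𝔪 : Ideal B, 𝔪.IsMaximal → π ∈ 𝔪 → ∃ (g : F) (d : B), d ∉ 𝔪 ∧
      g ^ m * u ∈ (algebraMap B F).range ∧ PiMul Ov π (g - algebraMap B F d)) :
    ∃ g : F, g ^ m * u ∈ (algebraMap B F).range ∧ PiMul Ov π (g - 1) := by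
  classical
  let J : Ideal B :=
    { carrier := {c | ∃ g : F, g ^ m * u ∈ (algebraMap B F).range ∧
        PiMul Ov π (g - algebraMap B F c)}
      zero_mem' := ⟨0, by rw [zero_pow hm, zero_mul]; exact Subring.zero_mem _,
        ⟨0, Ov.zero_mem, by simp⟩⟩
      add_mem' := by
        rintro c₁ c₂ ⟨g₁, h₁, h₁'⟩ ⟨g₂, h₂, h₂'⟩
        refine ⟨g₁ + g₂, add_pow_mul_mem hroot h₁ h₂, ?_⟩
        have : g₁ + g₂ - algebraMap B F (c₁ + c₂) =
            (g₁ - algebraMap B F c₁) + (g₂ - algebraMap B F c₂) := by rw [map_add]; ring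
        rw [this]
        exact h₁'.add h₂'
      smul_mem' := by
        rintro b c ⟨g, h, h'⟩
        refine ⟨algebraMap B F b * g, ?_, ?_⟩
        · have : (algebraMap B F b * g) ^ m * u = algebraMap B F b ^ m * (g ^ m * u) := by ring
          rw [this]
          exact Subring.mul_mem _ (Subring.pow_mem _ (RingHom.mem_range_self _ b) m) h
        · have : algebraMap B F b * g - algebraMap B F (b • c) =
              algebraMap B F b * (g - algebraMap B F c) := by
            rw [smul_eq_mul, map_mul]; ring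
          rw [this]
          exact h'.mul_left (hB b) }
  have hπJ : π ∈ J :=
    ⟨0, by rw [zero_pow hm, zero_mul]; exact Subring.zero_mem _,
      ⟨-1, Ov.neg_mem _ Ov.one_mem, by ring⟩⟩
  have hJtop : J = ⊤ := by
    by_contra hne
    obtain ⟨𝔪, h𝔪, hJ𝔪⟩ := Ideal.exists_le_maximal J hne
    obtain ⟨g, d, hd, hg, hg'⟩ := hloc 𝔪 h𝔪 (hJ𝔪 hπJ)
    exact hd (hJ𝔪 ⟨g, hg, hg'⟩)
  have h1 : (1 : B) ∈ J := by rw [hJtop]; exact Submodule.mem_top
  obtain ⟨g, hg, hg'⟩ := h1
  exact ⟨g, hg, by rwa [map_one] at hg'⟩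

/-- Globalisation of START in the idiom of the contract `CoreIface24`: `B` a subalgebra of `F`. -/
theorem exists_start_of_local_subalgebra {R : Type*} [CommRing R] [Algebra R F] (π : R)
    (B : Subalgebra R F) (Ov : ValuationSubring F) (le_Ov : ∀ x ∈ B, x ∈ Ov) {m : ℕ} (hm : m ≠ 0)
    (hroot : ∀ x : F, x ^ m ∈ B → x ∈ B) {u : F}
    (hloc : ∀ x : Ideal B, x.IsMaximal → algebraMap R B π ∈ x → ∃ (g : F) (d : B), d ∉ x ∧
      g ^ m * u ∈ B ∧ ∃ c ∈ Ov, g - (d : F) = algebraMap R F π * c) :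
    ∃ g : F, g ^ m * u ∈ B ∧ ∃ c ∈ Ov, g - 1 = algebraMap R F π * c := by
  have key : ∀ y : F, y ∈ (algebraMap B F).range ↔ y ∈ B := by
    intro y
    constructor
    · rintro ⟨b, rfl⟩
      exact b.2
    · intro hy
      exact ⟨⟨y, hy⟩, rfl⟩
  have hπ : algebraMap B F (algebraMap R B π) = algebraMap R F π := rfl
  obtain ⟨g, hg, o, ho, hgo⟩ := exists_start_of_local (B := B) (Ov := Ov)
    (π := algebraMap R B π) (fun b => le_Ov b b.2) hm
    (fun y hy => (key y).mpr (hroot y ((key _).mp hy))) (u := u) (by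
      intro x hx hπx
      obtain ⟨g, d, hd, hg, c, hc, hgc⟩ := hloc x hx hπx
      exact ⟨g, d, hd, (key _).mpr hg, c, hc, by rw [hπ]; exact hgc⟩)
  exact ⟨g, (key _).mp hg, o, ho, by rw [← hπ]; exact hgo⟩

end Light

variable {F : Type*} [Field F] {B : Type*} [CommRing B] [IsDomain B] [Algebra B F]
  [FaithfulSMul B F]

/-- The canonical map from the localisation of `B` at a prime to the field `F`. -/
noncomputable def locToField (𝔪 : Ideal B) [𝔪.IsPrime] : Localization.AtPrime 𝔪 →+* F :=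
  IsLocalization.lift (M := 𝔪.primeCompl) (S := Localization.AtPrime 𝔪) (g := algebraMap B F)
    fun y => by
      have hy : (y : B) ≠ 0 := fun h => y.2 (by rw [h]; exact 𝔪.zero_mem)
      exact IsUnit.mk0 _ ((map_ne_zero_iff _ (FaithfulSMul.algebraMap_injective B F)).mpr hy)

theorem locToField_algebraMap (𝔪 : Ideal B) [𝔪.IsPrime] (b : B) :
    locToField (F := F) 𝔪 (algebraMap B (Localization.AtPrime 𝔪) b) = algebraMap B F b :=
  IsLocalization.lift_eq _ b

theorem locToField_injective (𝔪 : Ideal B) [𝔪.IsPrime] :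
    Function.Injective (locToField (F := F) 𝔪) := by
  rw [locToField, IsLocalization.lift_injective_iff]
  intro x y
  have h1 : Function.Injective (algebraMap B (Localization.AtPrime 𝔪)) :=
    IsLocalization.injective _ 𝔪.primeCompl_le_nonZeroDivisors
  exact ⟨fun h => by rw [h1 h], fun h => by rw [FaithfulSMul.algebraMap_injective B F h]⟩

/-- `Ov` is the localisation of `B` at the prime element `π`, inside `F`. -/
def IsLocAt (Ov : ValuationSubring F) (π : B) : Prop :=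
  ∀ x : F, x ∈ Ov ↔ ∃ a d : B, ¬ π ∣ d ∧ x * algebraMap B F d = algebraMap B F a

section Basic

variable {Ov : ValuationSubring F} {π : B}

theorem algebraMap_mem (hOv : IsLocAt Ov π) (hπ : Prime π) (b : B) : algebraMap B F b ∈ Ov :=
  (hOv _).mpr ⟨b, 1, fun h => hπ.not_isUnit (isUnit_of_dvd_one h), by rw [map_one, mul_one]⟩

theorem inv_algebraMap_mem (hOv : IsLocAt Ov π) {d : B} (hd : ¬ π ∣ d) :
    (algebraMap B F d)⁻¹ ∈ Ov := by
  have hd0 : d ≠ 0 := fun h => hd (h ▸ dvd_zero π)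
  have hd0' : algebraMap B F d ≠ 0 :=
    (map_ne_zero_iff _ (FaithfulSMul.algebraMap_injective B F)).mpr hd0
  exact (hOv _).mpr ⟨1, d, hd, by rw [map_one, inv_mul_cancel₀ hd0']⟩

theorem inv_pi_notMem (hOv : IsLocAt Ov π) (hπ : Prime π) : (algebraMap B F π)⁻¹ ∉ Ov := by
  intro h
  obtain ⟨a, d, hd, had⟩ := (hOv _).mp h
  have hπ0 : algebraMap B F π ≠ 0 :=
    (map_ne_zero_iff _ (FaithfulSMul.algebraMap_injective B F)).mpr hπ.ne_zero
  have h1 : algebraMap B F d = algebraMap B F (π * a) := by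
    rw [map_mul, ← had]
    field_simp
  exact hd ⟨a, FaithfulSMul.algebraMap_injective B F h1⟩

theorem valuation_pi_lt_one (hOv : IsLocAt Ov π) (hπ : Prime π) :
    Ov.valuation (algebraMap B F π) < 1 := by
  by_contra hge
  rw [not_lt] at hge
  apply inv_pi_notMem hOv hπ
  rw [← Ov.valuation_le_one_iff, map_inv₀]
  exact inv_le_one_of_one_le₀ hge

/-- `1 + π o` is a unit of `Ov`. -/
theorem valuation_eq_one_of_sub_one (hOv : IsLocAt Ov π) (hπ : Prime π) {u : F}
    (hu : PiMul Ov π (u - 1)) : Ov.valuation u = 1 := by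
  obtain ⟨o, ho, huo⟩ := hu
  have h1 : Ov.valuation (u - 1) < 1 := by
    rw [huo, map_mul]
    calc Ov.valuation (algebraMap B F π) * Ov.valuation o
        ≤ Ov.valuation (algebraMap B F π) * 1 :=
          mul_le_mul_right ((Ov.valuation_le_one_iff o).mpr ho) _
      _ < 1 := by rw [mul_one]; exact valuation_pi_lt_one hOv hπ
  have h2 : u = 1 + (u - 1) := by ring
  rw [h2]
  exact Ov.valuation.map_one_add_of_lt h1

end Basic

section Local

variable {Ov : ValuationSubring F} {π : B}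
variable {C : Type*} [CommRing C] [Algebra B C] (𝔪 : Ideal B) [𝔪.IsPrime]
  [IsLocalization.AtPrime C 𝔪] (φ : C →+* F)

theorem algebraMap_ne_zero {b : B} (hb : b ≠ 0) : algebraMap B F b ≠ 0 :=
  (map_ne_zero_iff _ (FaithfulSMul.algebraMap_injective B F)).mpr hb

/-- The image of the localisation at a prime containing `π` lies in `Ov`. -/
theorem loc_mem (hOv : IsLocAt Ov π) (hπ𝔪 : π ∈ 𝔪)
    (hφ : ∀ b : B, φ (algebraMap B C b) = algebraMap B F b) (c : C) : φ c ∈ Ov := by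
  obtain ⟨⟨a, s⟩, h⟩ := IsLocalization.surj 𝔪.primeCompl c
  refine (hOv _).mpr ⟨a, s, fun hdvd => s.2 (𝔪.mem_of_dvd hdvd hπ𝔪), ?_⟩
  have := congrArg φ h
  rwa [map_mul, hφ, hφ] at this

/-- `π ∤ d` in `B` implies `d ∉ π B_𝔪`. -/
theorem algebraMap_notMem_span (hπ : Prime π) (hπ𝔪 : π ∈ 𝔪) {d : B} (hd : ¬ π ∣ d) :
    algebraMap B C d ∉ Ideal.span {algebraMap B C π} := by
  intro hmem
  obtain ⟨c, hc⟩ := Ideal.mem_span_singleton'.mp hmem
  obtain ⟨⟨a, s⟩, h⟩ := IsLocalization.surj 𝔪.primeCompl c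
  have hinj : Function.Injective (algebraMap B C) :=
    IsLocalization.injective _ 𝔪.primeCompl_le_nonZeroDivisors
  have h1 : d * (s : B) = a * π := by
    apply hinj
    rw [map_mul, map_mul, ← hc, ← h]
    ring
  have h2 : π ∣ d * (s : B) := ⟨a, by rw [h1]; ring⟩
  rcases hπ.dvd_or_dvd h2 with h3 | h3
  · exact hd h3
  · exact s.2 (𝔪.mem_of_dvd h3 hπ𝔪)

theorem span_isPrime (hπ : Prime π) (hπ𝔪 : π ∈ 𝔪) :
    (Ideal.span {algebraMap B C π}).IsPrime := by
  have h1 : (Ideal.span {π} : Ideal B).IsPrime :=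
    (Ideal.span_singleton_prime hπ.ne_zero).mpr hπ
  have h2 : Disjoint (𝔪.primeCompl : Set B) ↑(Ideal.span {π} : Ideal B) := by
    rw [Set.disjoint_left]
    intro x hx hx'
    exact hx ((Ideal.span_singleton_le_iff_mem 𝔪).mpr hπ𝔪 hx')
  have h3 := IsLocalization.isPrime_of_isPrime_disjoint 𝔪.primeCompl C _ h1 h2
  rwa [Ideal.map_span, Set.image_singleton] at h3

/-- **Local START.** At a prime `𝔪 ∋ π` of `B` such that `C = B_𝔪` has `C / π` a principal ideal
ring and `u = ε f ^ m` with `ε ∈ Cˣ`: there are `g ∈ F`, `d ∈ B \ 𝔪` with `g ^ m u ∈ B` and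
`g ≡ d mod π Ov`. -/
theorem exists_local (hOv : IsLocAt Ov π) (hπ : Prime π) {m : ℕ} (hm : m ≠ 0) {u : F}
    (hu : PiMul Ov π (u - 1)) (hπ𝔪 : π ∈ 𝔪)
    (hφ : ∀ b : B, φ (algebraMap B C b) = algebraMap B F b) (hφinj : Function.Injective φ)
    [IsPrincipalIdealRing (C ⧸ Ideal.span {algebraMap B C π})]
    (ε : Cˣ) (f : F) (hf : f ≠ 0) (huf : u = φ (ε : C) * f ^ m) :
    ∃ (g : F) (d : B), d ∉ 𝔪 ∧ (∃ b : B, g ^ m * u = algebraMap B F b) ∧
      PiMul Ov π (g - algebraMap B F d) := by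
  classical
  have : (Ideal.span {algebraMap B C π}).IsPrime := span_isPrime (C := C) 𝔪 hπ hπ𝔪
  -- valuations
  have hvu : Ov.valuation u = 1 := valuation_eq_one_of_sub_one hOv hπ hu
  have hvε : Ov.valuation (φ ε) = 1 := by
    have h1 : Ov.valuation (φ ε) ≤ 1 :=
      (Ov.valuation_le_one_iff _).mpr (loc_mem 𝔪 φ hOv hπ𝔪 hφ _)
    have h2 : Ov.valuation (φ ((ε⁻¹ : Cˣ) : C)) ≤ 1 :=
      (Ov.valuation_le_one_iff _).mpr (loc_mem 𝔪 φ hOv hπ𝔪 hφ _)
    have h3 : Ov.valuation (φ ε) * Ov.valuation (φ ((ε⁻¹ : Cˣ) : C)) = 1 := by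
      rw [← map_mul, ← map_mul, Units.mul_inv, map_one, map_one]
    refine le_antisymm h1 ?_
    calc (1 : Ov.ValueGroup) = Ov.valuation (φ ε) * Ov.valuation (φ ((ε⁻¹ : Cˣ) : C)) := h3.symm
      _ ≤ Ov.valuation (φ ε) * 1 := mul_le_mul_right h2 _
      _ = Ov.valuation (φ ε) := mul_one _
  have hvf : Ov.valuation f = 1 := by
    have h1 : Ov.valuation u = Ov.valuation (φ ε) * Ov.valuation f ^ m := by
      rw [huf, map_mul, map_pow]
    rw [hvu, hvε, one_mul] at h1
    exact (pow_eq_one_iff_left hm).mp h1.symm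
  have hfOv : f ∈ Ov := (Ov.valuation_le_one_iff _).mp hvf.le
  have hfinvOv : f⁻¹ ∈ Ov :=
    (Ov.valuation_le_one_iff _).mp (by rw [map_inv₀, hvf, inv_one])
  obtain ⟨a, d, hd, had⟩ := (hOv f).mp hfOv
  obtain ⟨o, ho, huo⟩ := hu
  obtain ⟨a', d', hd', had'⟩ := (hOv o).mp ho
  have hd0 : algebraMap B F d ≠ 0 := algebraMap_ne_zero (fun h => hd (h ▸ dvd_zero π))
  -- the equation in `C`
  have hEqF : φ (algebraMap B C (d' + π * a') * algebraMap B C d ^ m) =
      φ (ε * algebraMap B C a ^ m * algebraMap B C d') := by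
    simp only [map_mul, map_pow, hφ, map_add]
    have h1 : φ (ε : C) * f ^ m = 1 + algebraMap B F π * o := by rw [← huf, ← huo]; ring
    rw [← had, ← had', mul_pow]
    linear_combination (-(algebraMap B F d' * algebraMap B F d ^ m)) * h1
  have hEqC : algebraMap B C (d' + π * a') * algebraMap B C d ^ m =
      ε * algebraMap B C a ^ m * algebraMap B C d' := hφinj hEqF
  -- reduce mod `π`
  have hqπ : Ideal.Quotient.mk (Ideal.span {algebraMap B C π}) (algebraMap B C π) = 0 :=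
    Ideal.Quotient.eq_zero_iff_mem.mpr (Ideal.mem_span_singleton_self _)
  have hqd' : Ideal.Quotient.mk (Ideal.span {algebraMap B C π}) (algebraMap B C d') ≠ 0 :=
    fun h => algebraMap_notMem_span 𝔪 hπ hπ𝔪 hd' (Ideal.Quotient.eq_zero_iff_mem.mp h)
  have hE : Ideal.Quotient.mk (Ideal.span {algebraMap B C π}) (algebraMap B C d) ^ m =
      Ideal.Quotient.mk _ (ε : C) * Ideal.Quotient.mk _ (algebraMap B C a) ^ m := by
    have := congrArg (Ideal.Quotient.mk (Ideal.span {algebraMap B C π})) hEqC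
    simp only [map_mul, map_pow, map_add, hqπ, zero_mul, add_zero] at this
    apply mul_left_cancel₀ hqd'
    rw [this]; ring
  have hdvd : Ideal.Quotient.mk (Ideal.span {algebraMap B C π}) (algebraMap B C d) ^ m ∣
      Ideal.Quotient.mk _ (algebraMap B C a) ^ m := by
    refine ⟨Ideal.Quotient.mk _ ((ε⁻¹ : Cˣ) : C), ?_⟩
    rw [hE, mul_right_comm, ← map_mul, Units.mul_inv, map_one, one_mul]
  obtain ⟨b', hb'⟩ := (IsIntegrallyClosed.pow_dvd_pow_iff hm).mp hdvd
  obtain ⟨b, rfl⟩ := Ideal.Quotient.mk_surjective b'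
  have hmemP : algebraMap B C a - algebraMap B C d * b ∈ Ideal.span {algebraMap B C π} := by
    rw [← Ideal.Quotient.eq_zero_iff_mem, map_sub, map_mul, hb', sub_self]
  obtain ⟨c, hc⟩ := Ideal.mem_span_singleton'.mp hmemP
  -- clear the denominator of `b ^ m * ε`
  obtain ⟨⟨a₁, d₁⟩, h₁⟩ := IsLocalization.surj 𝔪.primeCompl (b ^ m * (ε : C))
  obtain ⟨m', rfl⟩ : ∃ m', m = m' + 1 := ⟨m - 1, by omega⟩
  refine ⟨algebraMap B F d₁ * (φ b / f), d₁, d₁.2, ⟨(d₁ : B) ^ m' * a₁, ?_⟩, ?_⟩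
  · have h2 := congrArg φ h₁
    simp only [map_mul, map_pow, hφ] at h2
    rw [map_mul, map_pow, ← h2, huf, mul_pow, div_pow]
    field_simp
    ring
  · have h3 := congrArg φ hc
    simp only [map_mul, map_sub, hφ] at h3
    refine ⟨algebraMap B F d₁ * (-(φ c)) * (algebraMap B F d)⁻¹ * f⁻¹, ?_, ?_⟩
    · exact Ov.mul_mem _ _ (Ov.mul_mem _ _ (Ov.mul_mem _ _ (algebraMap_mem hOv hπ _)
        (Ov.neg_mem _ (loc_mem 𝔪 φ hOv hπ𝔪 hφ c))) (inv_algebraMap_mem hOv hd)) hfinvOv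
    · rw [← had] at h3
      field_simp
      linear_combination (algebraMap B F d₁) * h3

end Local

section Start

variable {Ov : ValuationSubring F} {π : B}

/-- **Step (D), START.** `B` a domain inside the field `F`, `π ∈ B` a prime element, `Ov` the
localisation of `B` at `(π)`, `B` closed under `m`-th roots in `F`, `u ≡ 1 mod π Ov`.  If for every
maximal ideal `𝔪 ∋ π` the ring `B_𝔪 / π` is a principal ideal ring and `u = ε f ^ m` with `ε` a
unit of `B_𝔪`, then there is `g` with `g ^ m u ∈ B` and `g ≡ 1 mod π Ov`. -/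
theorem exists_start (hOv : IsLocAt Ov π) (hπ : Prime π) {m : ℕ} (hm : m ≠ 0)
    (hroot : ∀ x : F, x ^ m ∈ (algebraMap B F).range → x ∈ (algebraMap B F).range) {u : F}
    (hu : PiMul Ov π (u - 1))
    (G2 : ∀ (𝔪 : Ideal B) [𝔪.IsMaximal], π ∈ 𝔪 → IsPrincipalIdealRing
      (Localization.AtPrime 𝔪 ⧸ Ideal.span {algebraMap B (Localization.AtPrime 𝔪) π}))
    (FACT : ∀ (𝔪 : Ideal B) [𝔪.IsMaximal], π ∈ 𝔪 → ∃ (ε : (Localization.AtPrime 𝔪)ˣ) (f : F),
      f ≠ 0 ∧ u = locToField 𝔪 (ε : Localization.AtPrime 𝔪) * f ^ m) :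
    ∃ g : F, g ^ m * u ∈ (algebraMap B F).range ∧ PiMul Ov π (g - 1) := by
  refine exists_start_of_local (algebraMap_mem hOv hπ) hm hroot fun 𝔪 h𝔪 hπ𝔪 => ?_
  have := h𝔪
  have := G2 𝔪 hπ𝔪
  obtain ⟨ε, f, hf, huf⟩ := FACT 𝔪 hπ𝔪
  obtain ⟨g, d, hd, ⟨b, hb⟩, hg⟩ := exists_local 𝔪 (locToField (F := F) 𝔪) hOv hπ hm hu hπ𝔪
    (locToField_algebraMap 𝔪) (locToField_injective 𝔪) ε f hf huf
  exact ⟨g, d, hd, ⟨b, hb.symm⟩, hg⟩

end Start

end Fermat.Agent.RED.CORE.StartD28
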