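/-
Program H (S18), chapter RED/CORE (helper28): step (D) START on one chart, FINAL assembly:

  `start_chart : CoreFinal24.StartChartStmt R K F`.

For every maximal ideal `x ∋ π` of the chart `B`, helper18's `LocalPkg18` gives the local ring
`C = B_x ⊂ Ov` (a UFD with `C / π` integrally closed), helper15's `LocalStep15.local_step` gives
`g` with `g ^ m * u ∈ C` and `g ≡ 1 mod π Ov`; clearing one denominator `d ∉ x` gives
`(d g) ^ m * u ∈ B`, `d g ≡ d mod π Ov`; the global `J`-argument
`StartD28.exists_start_of_local_subalgebra` concludes.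
-/
import Mathlib
import Fermat.Agent.RED.CORE.CoreFinal24
import Fermat.Agent.RED.CORE.LocalPkg18
import Fermat.Agent.RED.CORE.LocalStep15
import Fermat.Agent.RED.CORE.StartD28

set_option autoImplicit false

namespace Fermat.Agent.RED.CORE.StartChart28

open Fermat.Agent.RED.CORE.LocalPkg18

variable {R K F : Type*} [CommRing R] [Field K] [Field F] [Algebra R K] [Algebra K F]
  [Algebra R F] [IsScalarTower R K F]

/-- **Step (D), START on one chart.** -/
theorem start_chart : CoreFinal24.StartChartStmt R K F := by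
  intro π B Ov noethB fracR dvrR intcl frac le_Ov pi_ne pi_nonunit unif sat smooth m hm u hu1 hu2
  have h : ChartHyp π B Ov := ⟨noethB, frac, le_Ov, pi_ne, pi_nonunit, unif, sat, smooth⟩
  have : IsFractionRing ↥B F := LocalPkg18.isFractionRing h
  have : IsFractionRing R K := fracR
  have hm0 : m ≠ 0 := hm.ne'
  -- `B` is closed under `m`-th roots
  have hroot : ∀ y : F, y ^ m ∈ B → y ∈ B := by
    intro y hy
    apply intcl
    apply IsIntegral.of_pow hm
    have : y ^ m = algebraMap ↥B F ⟨y ^ m, hy⟩ := rfl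
    rw [this]
    exact isIntegral_algebraMap
  refine StartD28.exists_start_of_local_subalgebra π B Ov le_Ov hm0 hroot fun x hx hπx => ?_
  have : x.IsMaximal := hx
  -- the local step on `C = B_x`
  have : UniqueFactorizationMonoid ↥(locC (F := F) x) := LocalPkg18.ufd h x hπx
  have : IsIntegrallyClosed (↥(locC (F := F) x) ⧸ Ideal.span {piC (F := F) x π}) :=
    isIntegrallyClosed_quot h x hπx
  obtain ⟨g, ⟨z, hz⟩, c, hc, hgc⟩ :=
    LocalStep15.local_step (C := ↥(locC (F := F) x)) K (prime_piC h x hπx) Ov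
      (fun c => locC_le_Ov h x hπx c.2)
      (fun c hc => inv_mem_Ov_of_not_piC_dvd h x hπx c hc)
      pi_nonunit
      (fun a => LocalStep15.hK_of_dvr (C := ↥(locC (F := F) x)) π dvrR a) m hm0 u hu1 hu2
  -- clear the denominator
  obtain ⟨a, d, hd, hzad⟩ := (mem_locC_iff x (z : F)).mp z.2
  have hd0 : (d : F) ≠ 0 := by
    intro h0
    apply hd
    have : d = 0 := Subtype.ext h0
    rw [this]
    exact x.zero_mem
  obtain ⟨m', rfl⟩ : ∃ m', m = m' + 1 := ⟨m - 1, by omega⟩
  refine ⟨(d : F) * g, d, hd, ?_, (d : F) * c, Ov.mul_mem _ _ (le_Ov _ d.2) hc, ?_⟩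
  · have hz' : g ^ (m' + 1) * u = (a : F) * (d : F)⁻¹ := by rw [hz]; exact hzad
    have : ((d : F) * g) ^ (m' + 1) * u = (d : F) ^ m' * (a : F) := by
      rw [mul_pow, mul_assoc, hz']
      field_simp
      ring
    rw [this]
    exact B.mul_mem (B.pow_mem d.2 m') a.2
  · have hgc' : g - 1 = algebraMap R F π * c := hgc
    linear_combination (d : F) * hgc'

end Fermat.Agent.RED.CORE.StartChart28
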