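/-
Program H (S18), chapter RED/CORE (helper15): bridges between the three shapes of hypothesis (U2)
("the divisor of `u` on the generic fibre is divisible by `m`"):

* `CoreIface24.U2 K F m u` : for every valuation subring `O` of `F` with `IsKPlace K F O`
  there is `f ≠ 0` with `u / f ^ m ∈ O` and `f ^ m / u ∈ O`   (the CORE contract);
* the Prelude/`CLNum` shape: `∀ v : AlgebraicCurve.Place K F, (m : ℤ) ∣ v.ord u`;
* the `UnitPow15` shape (H): for every prime `p` of the local UFD `C` there is `x ≠ 0` with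
  `IsPUnit F p (u / x ^ m)`.

Main results: `u2_of_places`, `places_of_u2`, `u2_iff_places`, `isKPlace_primeVS`,
`exists_isPUnit_of_U2`, `exists_unit_mul_pow_of_U2`.
-/
import Mathlib
import Fermat.Agent.RED.CORE.CoreIface24
import Fermat.Agent.RED.CORE.PrimePlace15

set_option autoImplicit false

namespace Fermat.Agent.RED.CORE.U2Bridge15

open AlgebraicCurve UnitPow15 PrimePlace15 CoreIface24

section Places

variable {K F : Type*} [Field K] [Field F] [Algebra K F]

/-- The place attached to a valuation subring satisfying `IsKPlace`. -/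
def placeOfIsKPlace (O : ValuationSubring F) (h : IsKPlace K F O) : Place K F where
  toValuationSubring := O
  algebraMap_mem' := h.1
  ne_top' := h.2.1
  isPrincipalIdealRing' := h.2.2

theorem placeOfIsKPlace_toValuationSubring (O : ValuationSubring F) (h : IsKPlace K F O) :
    (placeOfIsKPlace O h).toValuationSubring = O := rfl

/-- Every place satisfies `IsKPlace`. -/
theorem isKPlace_of_place (v : Place K F) : IsKPlace K F v.toValuationSubring :=
  ⟨v.algebraMap_mem', v.ne_top', v.isPrincipalIdealRing'⟩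

/-- At a place `v`, if `(m : ℤ) ∣ v.ord u` then `u` is a `v`-unit times an `m`-th power. -/
theorem exists_div_pow_mem_of_dvd_ord (v : Place K F) (m : ℕ) (u : F) (hu : u ≠ 0)
    (h : (m : ℤ) ∣ v.ord u) :
    ∃ f : F, f ≠ 0 ∧ u / f ^ m ∈ v.toValuationSubring ∧ f ^ m / u ∈ v.toValuationSubring := by
  obtain ⟨k, hk⟩ := h
  obtain ⟨ϖ, hϖ⟩ := IsDiscreteValuationRing.exists_irreducible v.toValuationSubring
  obtain ⟨w, hw⟩ := v.exists_unit_mul_zpow hu hϖ
  have hϖF : (ϖ : F) ≠ 0 := by
    simpa [ne_eq, ZeroMemClass.coe_eq_zero] using hϖ.ne_zero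
  have hwF : ((w : v.toValuationSubring) : F) ≠ 0 := by
    simp [ne_eq, ZeroMemClass.coe_eq_zero]
  have hx : ((ϖ : F) ^ k) ^ m = (ϖ : F) ^ (v.ord u) := by
    rw [hk, ← zpow_natCast, ← zpow_mul, mul_comm]
  have h1 : u / ((ϖ : F) ^ k) ^ m = ((w : v.toValuationSubring) : F) := by
    rw [hx, div_eq_iff (zpow_ne_zero _ hϖF)]
    exact hw
  have h2 : ((ϖ : F) ^ k) ^ m / u = (((w⁻¹ : v.toValuationSubringˣ) : v.toValuationSubring) : F) := by
    have hinv : (((w⁻¹ : v.toValuationSubringˣ) : v.toValuationSubring) : F) =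
        (((w : v.toValuationSubring) : F))⁻¹ := by
      have : ((w : v.toValuationSubring) : F) *
          (((w⁻¹ : v.toValuationSubringˣ) : v.toValuationSubring) : F) = 1 := by
        rw [← MulMemClass.coe_mul, Units.mul_inv]; rfl
      exact eq_inv_of_mul_eq_one_right this
    rw [hinv, ← h1, inv_div]
  refine ⟨(ϖ : F) ^ k, zpow_ne_zero k hϖF, ?_, ?_⟩
  · rw [h1]; exact (w : v.toValuationSubring).2
  · rw [h2]; exact ((w⁻¹ : v.toValuationSubringˣ) : v.toValuationSubring).2

/-- Conversely, if `u` is a `v`-unit times an `m`-th power then `(m : ℤ) ∣ v.ord u`. -/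
theorem dvd_ord_of_div_pow_mem (v : Place K F) (m : ℕ) (u : F) (hu : u ≠ 0) (f : F) (hf : f ≠ 0)
    (h1 : u / f ^ m ∈ v.toValuationSubring) (h2 : f ^ m / u ∈ v.toValuationSubring) :
    (m : ℤ) ∣ v.ord u := by
  have hfm : f ^ m ≠ 0 := pow_ne_zero m hf
  have hw : IsUnit (⟨u / f ^ m, h1⟩ : v.toValuationSubring) := by
    refine IsUnit.of_mul_eq_one (⟨f ^ m / u, h2⟩ : v.toValuationSubring) ?_
    apply Subtype.ext
    show u / f ^ m * (f ^ m / u) = 1
    field_simp
  have h0 : v.ord (u / f ^ m) = 0 := by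
    have := v.ord_coe_unit hw.unit
    simpa using this
  have hu' : u = (u / f ^ m) * f ^ m := by field_simp
  have hne : u / f ^ m ≠ 0 := div_ne_zero hu hfm
  have : v.ord u = (m : ℤ) * v.ord f := by
    conv_lhs => rw [hu']
    rw [v.ord_mul hne hfm, h0, zero_add, ← zpow_natCast, v.ord_zpow]
  exact ⟨v.ord f, this⟩

/-- **Prelude places ⇒ contract shape.** -/
theorem u2_of_places (m : ℕ) (u : F) (hu : u ≠ 0)
    (h : ∀ v : Place K F, (m : ℤ) ∣ v.ord u) : U2 K F m u := fun O hO =>
  exists_div_pow_mem_of_dvd_ord (placeOfIsKPlace O hO) m u hu (h _)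

/-- **Contract shape ⇒ Prelude places.** -/
theorem places_of_u2 (m : ℕ) (u : F) (hu : u ≠ 0) (h : U2 K F m u) (v : Place K F) :
    (m : ℤ) ∣ v.ord u := by
  obtain ⟨f, hf, h1, h2⟩ := h v.toValuationSubring (isKPlace_of_place v)
  exact dvd_ord_of_div_pow_mem v m u hu f hf h1 h2

theorem u2_iff_places (m : ℕ) (u : F) (hu : u ≠ 0) :
    U2 K F m u ↔ ∀ v : Place K F, (m : ℤ) ∣ v.ord u :=
  ⟨places_of_u2 m u hu, u2_of_places m u hu⟩

end Places

section Local

variable {C : Type*} [CommRing C] [IsDomain C] [WfDvdMonoid C] {F : Type*} [Field F]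
  [Algebra C F] [IsFractionRing C F] (K : Type*) [Field K] [Algebra K F]

/-- `C_(p)` satisfies `IsKPlace` as soon as it contains `K`. -/
theorem isKPlace_primeVS {p : C} (hp : Prime p)
    (hK : ∀ a : K, algebraMap K F a ∈ primeVS F p hp) : IsKPlace K F (primeVS F p hp) :=
  ⟨hK, primeVS_ne_top hp, isPrincipalIdealRing_primeVS hp⟩

/-- **Contract shape ⇒ `UnitPow15` shape (H)** at a prime `p` with `K ⊂ C_(p)`. -/
theorem exists_isPUnit_of_U2 {p : C} (hp : Prime p)
    (hK : ∀ a : K, algebraMap K F a ∈ primeVS F p hp) (m : ℕ) (u : F) (hu : u ≠ 0)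
    (h : U2 K F m u) : ∃ x : F, x ≠ 0 ∧ IsPUnit F p (u / x ^ m) := by
  obtain ⟨f, hf, h1, h2⟩ := h _ (isKPlace_primeVS K hp hK)
  refine ⟨f, hf, ?_⟩
  have hne : u / f ^ m ≠ 0 := div_ne_zero hu (pow_ne_zero m hf)
  rw [isPUnit_iff_mem_and_inv_mem hp hne]
  refine ⟨h1, ?_⟩
  rw [inv_div]
  exact h2

end Local

section Global

variable {C : Type*} [CommRing C] [IsDomain C] [UniqueFactorizationMonoid C] {F : Type*} [Field F]
  [Algebra C F] [IsFractionRing C F] (K : Type*) [Field K] [Algebra K F]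

/-- **Factorisation step of (D), directly from the contract shape of (U2)**: `C` a UFD with
fraction field `F ⊇ K`, `π` a prime of `C` such that every element of `K` has a denominator
`π ^ n`.  If `u ∈ F` is a `π`-unit and `CoreIface24.U2 K F m u` holds then `u = ε * f ^ m`
with `ε ∈ Cˣ`. -/
theorem exists_unit_mul_pow_of_U2 {π : C} (hπ : Prime π)
    (hK : ∀ a : K, ∃ (c : C) (n : ℕ), algebraMap K F a * algebraMap C F π ^ n = algebraMap C F c)
    (m : ℕ) (hm : m ≠ 0) (u : F) (hu : u ≠ 0) (hU1 : IsPUnit F π u) (hU2 : U2 K F m u) :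
    ∃ (ε : Cˣ) (f : F), f ≠ 0 ∧ u = algebraMap C F (ε : C) * f ^ m :=
  exists_unit_mul_pow_of_places K hπ hK m hm u hu hU1 (places_of_u2 m u hu hU2)

end Global

end Fermat.Agent.RED.CORE.U2Bridge15
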