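/-
Program H (S18), chapter RED/CORE (helper24): the chapter theorem.

`coreB : CoreIface24.CoreB R K F` — the abstract core (b''), unconditional:
`CoreFinal24.core_b_places_of` applied to `StartChart28.start_chart` (step (D)),
with (U2) converted from the contract shape by `U2Bridge15.places_of_u2`.
Also the place-form and the constant-form with step (D) plugged in.
-/
import Mathlib
import Fermat.Agent.RED.CORE.CoreFinal24
import Fermat.Agent.RED.CORE.StartChart28
import Fermat.Agent.RED.CORE.U2Bridge15

set_option autoImplicit false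

namespace Fermat.Agent.RED.CORE.CoreMain24

open CoreIface24

variable {R K F : Type*} [CommRing R] [Field K] [Field F] [Algebra R K] [Algebra K F]
  [Algebra R F] [IsScalarTower R K F]

omit [Algebra K F] [IsScalarTower R K F] in
/-- (U1) forces `u ≠ 0`. -/
theorem ne_zero_of_U1 {π : R} {t : F} {B0 B1 : Subalgebra R F} {Ov : ValuationSubring F}
    (M : TwoChartModel R K F π t B0 B1 Ov) {u : F} (hu1 : U1 R F π Ov u) : u ≠ 0 := by
  rintro rfl
  obtain ⟨o, ho, h⟩ := hu1
  apply M.pi_nonunit
  have hp0 := M.pi_ne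
  have : (algebraMap R F π)⁻¹ = -o := by
    field_simp
    linear_combination -h
  rw [this]
  exact neg_mem ho

/-- The abstract core, (U2) over the prelude places. -/
theorem core_b_places (π : R) (t : F) (B0 B1 : Subalgebra R F) (Ov : ValuationSubring F)
    (M : TwoChartModel R K F π t B0 B1 Ov) (m : ℕ) (hm : 0 < m) (minv : R)
    (hminv : (m : R) * minv = 1) (u : F) (hu1 : U1 R F π Ov u)
    (hu2 : ∀ v : AlgebraicCurve.Place K F, (m : ℤ) ∣ v.ord u) :
    ∃ s : F, s ≠ 0 ∧ IsIntegral K (s ^ m * u) :=
  CoreFinal24.core_b_places_of StartChart28.start_chart π t B0 B1 Ov M m hm minv hminv u hu1 hu2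

/-- The abstract core, constant form. -/
theorem core_b_const (π : R) (t : F) (B0 B1 : Subalgebra R F) (Ov : ValuationSubring F)
    (M : TwoChartModel R K F π t B0 B1 Ov) (m : ℕ) (hm : 0 < m) (minv : R)
    (hminv : (m : R) * minv = 1) (u : F) (hu1 : U1 R F π Ov u)
    (hu2 : ∀ v : AlgebraicCurve.Place K F, (m : ℤ) ∣ v.ord u)
    (hKF : ∀ y : F, IsAlgebraic K y → ∃ c : K, algebraMap K F c = y) :
    ∃ s : F, s ≠ 0 ∧ ∃ c : K, c ≠ 0 ∧ s ^ m = algebraMap K F c * u :=
  CoreFinal24.core_b_const_of StartChart28.start_chart π t B0 B1 Ov M m hm minv hminv u hu1 hu2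
    hKF

/-- **CHAPTER CORE**: the contract statement `CoreIface24.CoreB`. -/
theorem coreB : CoreB R K F := by
  intro π t B0 B1 Ov M m hm minv hminv u hu1 hu2
  exact core_b_places π t B0 B1 Ov M m hm minv hminv u hu1
    (fun v => U2Bridge15.places_of_u2 m u (ne_zero_of_U1 M hu1) hu2 v)

end Fermat.Agent.RED.CORE.CoreMain24
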