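/-
Program H (S18), chapter RED/CORE (helper14): lifting and gluing of idempotents on a two-chart
model, and the resulting "the special fibre is connected" statement in its final abstract form.

`E` a commutative ring, `p ∈ E`, `B₁ B₂ ≤ B₁₂` subrings ("charts") containing `p`.
* `newton`: `e ↦ 3e² - 2e³` improves `e² - e ∈ p^k B` to `p^(2k) B`, staying in the class of `e`.
* `exists_lift`: an idempotent modulo `p` lifts to an idempotent modulo `p^n`.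
* `sub_mem_of_idem`: two idempotents modulo `p^n` congruent modulo `p` are congruent modulo `p^n`.
* `exists_glued`: compatible idempotents mod `p` on the two charts lift to a section mod `p^n`.
* `connected`: with the Čech hypotheses of `CechConnected14`, every compatible pair of
  idempotents modulo `p` is trivial.
-/
import Mathlib
import Fermat.Agent.RED.CORE.CechConnected14

set_option autoImplicit false

namespace Fermat.Agent.RED.CORE.IdemGlue14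

open Polynomial

section ring

variable {E : Type*} [CommRing E]

/-- `x ∈ p^k B` (explicit form). -/
def Dvd (B : Subring E) (p : E) (k : ℕ) (x : E) : Prop := ∃ b ∈ B, x = p ^ k * b

theorem Dvd.mono {B : Subring E} {p : E} (hp : p ∈ B) {k l : ℕ} (hkl : l ≤ k) {x : E}
    (h : Dvd B p k x) : Dvd B p l x := by
  obtain ⟨b, hb, rfl⟩ := h
  obtain ⟨d, rfl⟩ := Nat.exists_eq_add_of_le hkl
  exact ⟨p ^ d * b, B.mul_mem (B.pow_mem hp d) hb, by rw [pow_add, mul_assoc]⟩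

theorem Dvd.of_le {B B' : Subring E} (hBB' : B ≤ B') {p : E} {k : ℕ} {x : E}
    (h : Dvd B p k x) : Dvd B' p k x := by
  obtain ⟨b, hb, rfl⟩ := h
  exact ⟨b, hBB' hb, rfl⟩

theorem Dvd.add {B : Subring E} {p : E} {k : ℕ} {x y : E} (hx : Dvd B p k x) (hy : Dvd B p k y) :
    Dvd B p k (x + y) := by
  obtain ⟨a, ha, rfl⟩ := hx
  obtain ⟨b, hb, rfl⟩ := hy
  exact ⟨a + b, B.add_mem ha hb, by ring⟩

theorem Dvd.sub {B : Subring E} {p : E} {k : ℕ} {x y : E} (hx : Dvd B p k x) (hy : Dvd B p k y) :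
    Dvd B p k (x - y) := by
  obtain ⟨a, ha, rfl⟩ := hx
  obtain ⟨b, hb, rfl⟩ := hy
  exact ⟨a - b, B.sub_mem ha hb, by ring⟩

theorem Dvd.mul_left {B : Subring E} {p : E} {k : ℕ} {x : E} (hx : Dvd B p k x) {c : E}
    (hc : c ∈ B) : Dvd B p k (c * x) := by
  obtain ⟨a, ha, rfl⟩ := hx
  exact ⟨c * a, B.mul_mem hc ha, by ring⟩

theorem Dvd.mul {B : Subring E} {p : E} {k l : ℕ} {x y : E} (hx : Dvd B p k x)
    (hy : Dvd B p l y) : Dvd B p (k + l) (x * y) := by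
  obtain ⟨a, ha, rfl⟩ := hx
  obtain ⟨b, hb, rfl⟩ := hy
  exact ⟨a * b, B.mul_mem ha hb, by rw [pow_add]; ring⟩

/-- One Newton step for idempotents. -/
theorem newton (B : Subring E) (p : E) (k : ℕ) (e : E) (he : e ∈ B)
    (h : Dvd B p k (e * e - e)) :
    (3 * e ^ 2 - 2 * e ^ 3) ∈ B ∧ Dvd B p k ((3 * e ^ 2 - 2 * e ^ 3) - e) ∧
      Dvd B p (k + k) ((3 * e ^ 2 - 2 * e ^ 3) * (3 * e ^ 2 - 2 * e ^ 3) - (3 * e ^ 2 - 2 * e ^ 3)) := by
  have h2 : (2 : E) ∈ B := by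
    have : (2 : E) = 1 + 1 := by norm_num
    rw [this]; exact B.add_mem B.one_mem B.one_mem
  have h3 : (3 : E) ∈ B := by
    have : (3 : E) = 2 + 1 := by norm_num
    rw [this]; exact B.add_mem h2 B.one_mem
  refine ⟨B.sub_mem (B.mul_mem h3 (B.pow_mem he 2)) (B.mul_mem h2 (B.pow_mem he 3)), ?_, ?_⟩
  · -- f - e = (e² - e)(1 - 2e)
    have : (3 * e ^ 2 - 2 * e ^ 3) - e = (1 - 2 * e) * (e * e - e) := by ring
    rw [this]
    exact h.mul_left (B.sub_mem B.one_mem (B.mul_mem h2 he))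
  · -- f² - f = (e² - e)² (4e² - 4e - 3)
    have : (3 * e ^ 2 - 2 * e ^ 3) * (3 * e ^ 2 - 2 * e ^ 3) - (3 * e ^ 2 - 2 * e ^ 3)
        = (4 * e ^ 2 - 4 * e - 3) * ((e * e - e) * (e * e - e)) := by ring
    rw [this]
    have h4 : (4 : E) ∈ B := by
      have : (4 : E) = 2 + 2 := by norm_num
      rw [this]; exact B.add_mem h2 h2
    exact (h.mul h).mul_left
      (B.sub_mem (B.sub_mem (B.mul_mem h4 (B.pow_mem he 2)) (B.mul_mem h4 he)) h3)

/-- An idempotent modulo `p` lifts to an idempotent modulo `p ^ n`, in the same class mod `p`. -/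
theorem exists_lift (B : Subring E) (p : E) (hp : p ∈ B) (e : E) (he : e ∈ B)
    (h : Dvd B p 1 (e * e - e)) (n : ℕ) :
    ∃ f ∈ B, Dvd B p 1 (f - e) ∧ Dvd B p n (f * f - f) := by
  -- iterate Newton: exponent `2 ^ j`
  have key : ∀ j : ℕ, ∃ f ∈ B, Dvd B p 1 (f - e) ∧ Dvd B p (2 ^ j) (f * f - f) := by
    intro j
    induction j with
    | zero => exact ⟨e, he, ⟨0, B.zero_mem, by ring⟩, by simpa using h⟩
    | succ j ih =>
      obtain ⟨f, hf, hfe, hff⟩ := ih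
      obtain ⟨hg, hgf, hgg⟩ := newton B p (2 ^ j) f hf hff
      refine ⟨_, hg, ?_, ?_⟩
      · have h1 : Dvd B p 1 ((3 * f ^ 2 - 2 * f ^ 3) - f) :=
          hgf.mono hp (Nat.one_le_two_pow)
        have := h1.add hfe
        have e1 : (3 * f ^ 2 - 2 * f ^ 3) - f + (f - e) = (3 * f ^ 2 - 2 * f ^ 3) - e := by ring
        rw [e1] at this
        exact this
      · have : 2 ^ (j + 1) = 2 ^ j + 2 ^ j := by rw [pow_succ]; ring
        rw [this]
        exact hgg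
  obtain ⟨f, hf, hfe, hff⟩ := key n
  exact ⟨f, hf, hfe, hff.mono hp (Nat.lt_two_pow_self).le⟩

/-- Uniqueness of idempotent lifts: two idempotents modulo `p ^ n` which are congruent modulo `p`
are congruent modulo `p ^ n`. -/
theorem sub_mem_of_idem (B : Subring E) (p : E) (hp : p ∈ B) (n : ℕ) (e f : E) (he : e ∈ B)
    (hf : f ∈ B) (hee : Dvd B p n (e * e - e)) (hff : Dvd B p n (f * f - f))
    (hef : Dvd B p 1 (e - f)) : Dvd B p n (e - f) := by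
  obtain ⟨d, hd⟩ : ∃ d, d = e - f := ⟨_, rfl⟩
  rw [← hd] at hef ⊢
  have hdB : d ∈ B := by rw [hd]; exact B.sub_mem he hf
  -- d³ - d ∈ p^n B
  have h3 : Dvd B p n (d ^ 3 - d) := by
    have : d ^ 3 - d = (e - 3 * f + 1) * (e * e - e) + (3 * e - f - 1) * (f * f - f)
        + 0 := by
      rw [hd]; ring
    rw [this, add_zero]
    have h2 : (2 : E) ∈ B := by
      have : (2 : E) = 1 + 1 := by norm_num
      rw [this]; exact B.add_mem B.one_mem B.one_mem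
    have h3' : (3 : E) ∈ B := by
      have : (3 : E) = 2 + 1 := by norm_num
      rw [this]; exact B.add_mem h2 B.one_mem
    exact (hee.mul_left (B.add_mem (B.sub_mem he (B.mul_mem h3' hf)) B.one_mem)).add
      (hff.mul_left (B.sub_mem (B.sub_mem (B.mul_mem h3' he) hf) B.one_mem))
  -- d^(2n+1) ∈ p^n B
  have hpow : ∀ k : ℕ, Dvd B p k (d ^ k) := by
    intro k
    induction k with
    | zero => exact ⟨1, B.one_mem, by simp⟩
    | succ k ih =>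
      have := ih.mul hef
      rw [pow_succ]
      exact this
  -- d = -(d³ - d)(1 + d² + ... + d^(2(n-1))) + d^(2n+1)
  have hgeom : d = d ^ (2 * n + 1) - (d ^ 3 - d) * ∑ i ∈ Finset.range n, (d ^ 2) ^ i := by
    have hg := Commute.geom_sum₂_mul (Commute.all (d ^ 2) 1) n
    simp only [one_pow, mul_one] at hg
    -- hg : (∑ i in range n, (d^2)^i) * (d^2 - 1) = (d^2)^n - 1
    have : (d ^ 3 - d) * ∑ i ∈ Finset.range n, (d ^ 2) ^ i
        = d * ((∑ i ∈ Finset.range n, (d ^ 2) ^ i) * (d ^ 2 - 1)) := by ring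
    rw [this, hg]
    ring
  rw [hgeom]
  refine ((hpow (2 * n + 1)).mono hp (by omega)).sub ?_
  have hs : (∑ i ∈ Finset.range n, (d ^ 2) ^ i) ∈ B :=
    B.sum_mem fun i _ => B.pow_mem (B.pow_mem hdB 2) i
  have := h3.mul_left hs
  rwa [mul_comm] at this

/-- Compatible idempotents modulo `p` on the two charts lift to a section modulo `p ^ n`. -/
theorem exists_glued (B₁ B₂ B₁₂ : Subring E) (h1 : B₁ ≤ B₁₂) (h2 : B₂ ≤ B₁₂) (p : E)
    (hp₁ : p ∈ B₁) (hp₂ : p ∈ B₂) (e₁ e₂ : E) (he₁ : e₁ ∈ B₁) (he₂ : e₂ ∈ B₂)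
    (hid₁ : Dvd B₁ p 1 (e₁ * e₁ - e₁)) (hid₂ : Dvd B₂ p 1 (e₂ * e₂ - e₂))
    (hcomp : Dvd B₁₂ p 1 (e₁ - e₂)) (n : ℕ) :
    ∃ f₁ ∈ B₁, ∃ f₂ ∈ B₂, Dvd B₁ p 1 (f₁ - e₁) ∧ Dvd B₁ p n (f₁ * f₁ - f₁) ∧
      Dvd B₁₂ p n (f₁ - f₂) := by
  obtain ⟨f₁, hf₁, hfe₁, hff₁⟩ := exists_lift B₁ p hp₁ e₁ he₁ hid₁ n
  obtain ⟨f₂, hf₂, hfe₂, hff₂⟩ := exists_lift B₂ p hp₂ e₂ he₂ hid₂ n
  refine ⟨f₁, hf₁, f₂, hf₂, hfe₁, hff₁, ?_⟩
  apply sub_mem_of_idem B₁₂ p (h1 hp₁) n f₁ f₂ (h1 hf₁) (h2 hf₂) (hff₁.of_le h1) (hff₂.of_le h2)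
  have : f₁ - f₂ = (f₁ - e₁) + (e₁ - e₂) - (f₂ - e₂) := by ring
  rw [this]
  exact ((hfe₁.of_le h1).add hcomp).sub (hfe₂.of_le h2)

end ring

section connected

variable {O E : Type*} [CommRing O] [CommRing E] [Algebra O E]

/-- **The special fibre of a two-chart model is connected** (final abstract form): under the
Čech hypotheses of `CechConnected14.special_fibre_connected`, every pair `e₁ ∈ B₁`, `e₂ ∈ B₂`
of idempotents modulo `π` that agree modulo `π` on the overlap `B₁₂` is trivial: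
`e₁ ∈ π B₁` or `e₁ - 1 ∈ π B₁`. -/
theorem connected [IsNoetherianRing O] (π : O) (t u : E) (htu : t * u = 1)
    (B₁ B₂ B₁₂ : Subalgebra O E) (h1 : B₁ ≤ B₁₂) (h2 : B₂ ≤ B₁₂)
    (ht : t ∈ B₁) (hu : u ∈ B₂) {r : ℕ} (b : Fin r → E)
    (hb : ∀ i, b i ∈ B₁)
    (hgen : ∀ x ∈ B₁, ∃ P : Fin r → O[X], x = ∑ i, aeval t (P i) * b i)
    (h12 : ∀ x ∈ B₁₂, ∃ k : ℕ, t ^ k * x ∈ B₁)
    (N : ℕ) (hN : ∀ i, u ^ N * b i ∈ B₂)
    (hH0 : ∀ x : E, x ∈ B₁ → x ∈ B₂ → ∃ a : O, algebraMap O E a = x)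
    (hsat : ∀ a : O, (∃ b ∈ B₁, algebraMap O E a = algebraMap O E π * b) → π ∣ a)
    (hidem : ∀ a : O, π ∣ a * a - a → π ∣ a ∨ π ∣ a - 1)
    (e₁ e₂ : E) (he₁ : e₁ ∈ B₁) (he₂ : e₂ ∈ B₂)
    (hid₁ : ∃ b ∈ B₁, e₁ * e₁ - e₁ = algebraMap O E π * b)
    (hid₂ : ∃ b ∈ B₂, e₂ * e₂ - e₂ = algebraMap O E π * b)
    (hcomp : ∃ b ∈ B₁₂, e₁ - e₂ = algebraMap O E π * b) :
    (∃ b ∈ B₁, e₁ = algebraMap O E π * b) ∨ (∃ b ∈ B₁, e₁ - 1 = algebraMap O E π * b) := by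
  set p : E := algebraMap O E π with hp
  obtain ⟨c, hc⟩ := CechConnected14.special_fibre_connected π t u htu B₁ B₂ B₁₂ ht hu b hb hgen
    h12 N hN hH0 hsat hidem
  have hp₁ : p ∈ B₁.toSubring := B₁.algebraMap_mem π
  have hp₂ : p ∈ B₂.toSubring := B₂.algebraMap_mem π
  have to1 : ∀ (B : Subalgebra O E) (x : E), (∃ b ∈ B, x = p * b) → Dvd B.toSubring p 1 x := by
    rintro B x ⟨b, hb, rfl⟩
    exact ⟨b, hb, by rw [pow_one]⟩
  obtain ⟨f₁, hf₁, f₂, hf₂, hfe, hff, hglue⟩ := exists_glued B₁.toSubring B₂.toSubring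
    B₁₂.toSubring h1 h2 p hp₁ hp₂ e₁ e₂ he₁ he₂ (to1 B₁ _ hid₁) (to1 B₂ _ hid₂)
    (to1 B₁₂ _ hcomp) (c + 1)
  obtain ⟨x, hx, hxe⟩ := hglue
  have hff1 : ∃ b ∈ B₁, f₁ * f₁ - f₁ = p * b := by
    obtain ⟨b, hb, hb'⟩ := hff.mono hp₁ (Nat.le_add_left 1 c)
    exact ⟨b, hb, by rw [hb', pow_one]⟩
  obtain ⟨d, hd, hde⟩ := hfe
  rw [pow_one] at hde
  rcases hc f₁ f₂ x hf₁ hf₂ hx hxe hff1 with ⟨b, hb, hb'⟩ | ⟨b, hb, hb'⟩
  · left
    refine ⟨b - d, B₁.sub_mem hb hd, ?_⟩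
    have : e₁ = f₁ - p * d := by rw [← hde]; ring
    rw [this, hb']; ring
  · right
    refine ⟨b - d, B₁.sub_mem hb hd, ?_⟩
    have : e₁ - 1 = (f₁ - 1) - p * d := by rw [← hde]; ring
    rw [this, hb']; ring

end connected

end Fermat.Agent.RED.CORE.IdemGlue14
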