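/-
Program H (S18), chapter RED/CORE, helper18: leaf (FIN) of core (b'') in the literal shape of
`CoreIface24`: an element of `B0 ∩ B1` (`B0` integral over `R[t]`, `B1` over `R[t⁻¹]`) is integral
over `K`.  Thin wrapper of `Constants18.isAlgebraic_of_isIntegral_both`.
-/
import Mathlib
import Fermat.Agent.RED.CORE.Constants18

set_option autoImplicit false

namespace Fermat.Agent.RED.CORE.FinConst18

variable (R K F : Type*) [CommRing R] [Field K] [Field F] [Algebra R K] [Algebra K F] [Algebra R F]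
  [IsScalarTower R K F]

/-- **(FIN)** an element of `B0 ∩ B1` is integral (= algebraic) over `K`. -/
theorem isIntegral_of_mem_both (t : F) (B0 B1 : Subalgebra R F)
    (int0 : ∀ x ∈ B0, IsIntegral (Algebra.adjoin R {t}) x)
    (int1 : ∀ x ∈ B1, IsIntegral (Algebra.adjoin R {t⁻¹}) x)
    (ρ : F) (h0 : ρ ∈ B0) (h1 : ρ ∈ B1) : IsIntegral K ρ :=
  isAlgebraic_iff_isIntegral.mp
    (Constants18.isAlgebraic_of_isIntegral_both (K := K) (R₀ := R) t ρ (int0 ρ h0) (int1 ρ h1))

/-- If moreover `K` is algebraically closed in `F`, the element comes from `K`. -/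
theorem exists_algebraMap_eq_of_mem_both
    (hKF : ∀ y : F, IsIntegral K y → ∃ c : K, algebraMap K F c = y) (t : F)
    (B0 B1 : Subalgebra R F)
    (int0 : ∀ x ∈ B0, IsIntegral (Algebra.adjoin R {t}) x)
    (int1 : ∀ x ∈ B1, IsIntegral (Algebra.adjoin R {t⁻¹}) x)
    (ρ : F) (h0 : ρ ∈ B0) (h1 : ρ ∈ B1) : ∃ c : K, algebraMap K F c = ρ :=
  hKF ρ (isIntegral_of_mem_both R K F t B0 B1 int0 int1 ρ h0 h1)

end Fermat.Agent.RED.CORE.FinConst18
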