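/-
Program H (S18), chapter RED/CORE, helper15: abstract Hensel lemmas for `m`-th roots (Mathlib only).

Setting: a commutative ring `B`, an element `π : B`, and `m : ℕ` invertible in `B`
(`hm : (m : B) * w = 1`).

* `exists_pow_sub_mem` (K2): for `e ≡ 1 mod π` and every `n`, there is `β ≡ 1 mod π` with
  `β ^ m ≡ e mod π ^ n`  (Newton iteration; no completeness needed since only a finite level is asked).
* `exists_pow_sub_mem'` : same with explicit witnesses (`β - 1 = π * a`, `β ^ m - e = π ^ n * c`).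
* `exists_pow_mul_sub_one_mem` / `'` (K2, multiplicative form): `γ ≡ 1 mod π` with
  `γ ^ m * e ≡ 1 mod π ^ n` (this is the Newton step `g ↦ g (1 - π^n β / m)` iterated).
* `sub_one_mem_of_pow_sub_one_mem` (K3): if `geomSum ρ m = ∑_{i<m} ρ^i` is a unit (e.g. `B` local,
  `π` in the maximal ideal, `ρ ≡ 1 mod π`), then `ρ ^ m ≡ 1 mod I` implies `ρ ≡ 1 mod I`.
* `isUnit_geom_sum_of_isLocalRing` : the unit hypothesis in a local ring.
* `sub_one_mem_span_pow` (K3 in a local ring): `ρ ≡ 1 mod π`, `ρ^m ≡ 1 mod π^n` ⟹ `ρ ≡ 1 mod π^n`.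
-/
import Mathlib

set_option autoImplicit false

namespace Fermat.Agent.RED.CORE.HenselRoot15

open Finset

variable {B : Type*} [CommRing B]

/-- `(β + π^n d)^m ≡ β^m + m β^(m-1) π^n d  mod π^(2n)`, in the form needed below. -/
theorem add_pow_sub_mem (β x : B) (m : ℕ) :
    ∃ y : B, (β + x) ^ m = β ^ m + (m : B) * β ^ (m - 1) * x + x ^ 2 * y := by
  induction m with
  | zero => exact ⟨0, by simp⟩
  | succ k ih =>
    obtain ⟨y, hy⟩ := ih
    rcases Nat.eq_zero_or_pos k with rfl | hk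
    · exact ⟨0, by simp⟩
    · obtain ⟨k', rfl⟩ : ∃ k', k = k' + 1 := ⟨k - 1, (Nat.sub_add_cancel hk).symm⟩
      refine ⟨y * (β + x) + ((k' + 1 : ℕ) : B) * β ^ k', ?_⟩
      rw [pow_succ (β + x), hy]
      simp only [Nat.add_sub_cancel]
      push_cast
      ring

/-- **(K2)** Newton iteration at finite level: if `m` is invertible in `B` and `e ≡ 1 mod π`, then for
every `n` there is `β ≡ 1 mod π` with `β ^ m ≡ e mod π ^ n`. -/
theorem exists_pow_sub_mem' (π : B) (m : ℕ) (w : B) (hm : (m : B) * w = 1) (e a₀ : B)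
    (he : e - 1 = π * a₀) (n : ℕ) :
    ∃ β a c : B, β - 1 = π * a ∧ β ^ m - e = π ^ n * c := by
  induction n with
  | zero => exact ⟨1, 0, 1 - e, by simp, by simp⟩
  | succ n ih =>
    obtain ⟨β, a, c, hβ, hc⟩ := ih
    rcases Nat.eq_zero_or_pos n with rfl | hn
    · -- level 1: `β = 1`
      exact ⟨1, 0, -a₀, by simp, by rw [one_pow, pow_one, mul_neg, ← he]; ring⟩
    · -- `β' = β - π^n c w`
      obtain ⟨y, hy⟩ := add_pow_sub_mem β (-(π ^ n * c * w)) m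
      -- `β^(m-1) = 1 + π * b`
      obtain ⟨b, hb⟩ : ∃ b : B, β ^ (m - 1) = 1 + π * b := by
        have hβ' : β = 1 + π * a := by rw [← hβ]; ring
        obtain ⟨z, hz⟩ := add_pow_sub_mem 1 (π * a) (m - 1)
        refine ⟨((m - 1 : ℕ) : B) * a + π * a ^ 2 * z, ?_⟩
        rw [hβ', hz]
        simp only [one_pow, mul_one]
        ring
      obtain ⟨n', rfl⟩ : ∃ n', n = n' + 1 := ⟨n - 1, (Nat.sub_add_cancel hn).symm⟩
      refine ⟨β + -(π ^ (n' + 1) * c * w), a - π ^ n' * c * w,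
        -(c * b) + π ^ n' * (c * w) ^ 2 * y, ?_, ?_⟩
      · have hβ' : β = 1 + π * a := by rw [← hβ]; ring
        rw [hβ']; ring
      · have h1 : β ^ m = e + π ^ (n' + 1) * c := by rw [← hc]; ring
        rw [hy, h1, hb]
        have h2 : (m : B) * (1 + π * b) * -(π ^ (n' + 1) * c * w) =
            -((m : B) * w) * (π ^ (n' + 1) * c * (1 + π * b)) := by ring
        rw [h2, hm]
        ring

theorem exists_pow_sub_mem (π : B) (m : ℕ) (hm : IsUnit (m : B)) (e : B)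
    (he : e - 1 ∈ Ideal.span {π}) (n : ℕ) :
    ∃ β : B, β - 1 ∈ Ideal.span {π} ∧ β ^ m - e ∈ Ideal.span {π ^ n} := by
  obtain ⟨a₀, ha₀⟩ := Ideal.mem_span_singleton'.mp he
  obtain ⟨w, hw⟩ := hm.exists_right_inv
  obtain ⟨β, a, c, hβ, hc⟩ :=
    exists_pow_sub_mem' π m w hw e a₀ (by rw [← ha₀]; ring) n
  exact ⟨β, Ideal.mem_span_singleton'.mpr ⟨a, by rw [hβ]; ring⟩,
    Ideal.mem_span_singleton'.mpr ⟨c, by rw [hc]; ring⟩⟩

/-- **(K2), multiplicative form** (Newton step `γ ↦ γ (1 - π^n c / m)`): if `m` is invertible in `B`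
and `e ≡ 1 mod π`, then for every `n` there is `γ ≡ 1 mod π` with `γ ^ m * e ≡ 1 mod π ^ n`. -/
theorem exists_pow_mul_sub_one_mem' (π : B) (m : ℕ) (w : B) (hm : (m : B) * w = 1) (e a₀ : B)
    (he : e - 1 = π * a₀) (n : ℕ) :
    ∃ γ a c : B, γ - 1 = π * a ∧ γ ^ m * e - 1 = π ^ n * c := by
  induction n with
  | zero => exact ⟨1, 0, e - 1, by simp, by simp⟩
  | succ n ih =>
    obtain ⟨γ, a, c, hγ, hc⟩ := ih
    rcases Nat.eq_zero_or_pos n with rfl | hn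
    · exact ⟨1, 0, a₀, by simp, by rw [one_pow, one_mul, pow_one, he]⟩
    · obtain ⟨n', rfl⟩ : ∃ n', n = n' + 1 := ⟨n - 1, (Nat.sub_add_cancel hn).symm⟩
      obtain ⟨y, hy⟩ := add_pow_sub_mem 1 (-(π ^ (n' + 1) * c * w)) m
      refine ⟨γ * (1 + -(π ^ (n' + 1) * c * w)), a - π ^ n' * c * w * γ,
        -(π ^ n' * c ^ 2) + π ^ n' * (c * w) ^ 2 * y * (1 + π ^ (n' + 1) * c), ?_, ?_⟩
      · have hγ' : γ = 1 + π * a := by rw [← hγ]; ring
        rw [hγ']; ring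
      · have h1 : γ ^ m * e = 1 + π ^ (n' + 1) * c := by rw [← hc]; ring
        rw [mul_pow, mul_right_comm, h1, hy]
        simp only [one_pow, mul_one]
        have h2 : (m : B) * -(π ^ (n' + 1) * c * w) = -((m : B) * w) * (π ^ (n' + 1) * c) := by
          ring
        rw [h2, hm]
        ring

theorem exists_pow_mul_sub_one_mem (π : B) (m : ℕ) (hm : IsUnit (m : B)) (e : B)
    (he : e - 1 ∈ Ideal.span {π}) (n : ℕ) :
    ∃ γ : B, γ - 1 ∈ Ideal.span {π} ∧ γ ^ m * e - 1 ∈ Ideal.span {π ^ n} := by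
  obtain ⟨a₀, ha₀⟩ := Ideal.mem_span_singleton'.mp he
  obtain ⟨w, hw⟩ := hm.exists_right_inv
  obtain ⟨γ, a, c, hγ, hc⟩ :=
    exists_pow_mul_sub_one_mem' π m w hw e a₀ (by rw [← ha₀]; ring) n
  exact ⟨γ, Ideal.mem_span_singleton'.mpr ⟨a, by rw [hγ]; ring⟩,
    Ideal.mem_span_singleton'.mpr ⟨c, by rw [hc]; ring⟩⟩

/-- **(K3)**, general form: if `∑_{i<m} ρ^i` is a unit then `ρ^m ≡ 1 mod I ⟹ ρ ≡ 1 mod I`. -/
theorem sub_one_mem_of_pow_sub_one_mem (I : Ideal B) (ρ : B) (m : ℕ)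
    (hu : IsUnit (∑ i ∈ range m, ρ ^ i)) (h : ρ ^ m - 1 ∈ I) : ρ - 1 ∈ I := by
  have hgeo : (∑ i ∈ range m, ρ ^ i) * (ρ - 1) = ρ ^ m - 1 := geom_sum_mul ρ m
  obtain ⟨v, hv⟩ := hu.exists_left_inv
  have : ρ - 1 = v * (ρ ^ m - 1) := by
    rw [← hgeo, ← mul_assoc, hv, one_mul]
  rw [this]
  exact I.mul_mem_left v h

/-- In a local ring: if `ρ ≡ 1` modulo the maximal ideal and `m` is a unit, then `∑_{i<m} ρ^i` is a
unit. -/
theorem isUnit_geom_sum_of_isLocalRing [IsLocalRing B] (ρ : B) (m : ℕ) (hm : IsUnit (m : B))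
    (hρ : ρ - 1 ∈ IsLocalRing.maximalIdeal B) : IsUnit (∑ i ∈ range m, ρ ^ i) := by
  have key : (∑ i ∈ range m, ρ ^ i) - (m : B) ∈ IsLocalRing.maximalIdeal B := by
    have : (∑ i ∈ range m, ρ ^ i) - (m : B) = ∑ i ∈ range m, (ρ ^ i - 1) := by
      rw [Finset.sum_sub_distrib]
      simp
    rw [this]
    refine Ideal.sum_mem _ fun i _ => ?_
    have hdvd : ρ - 1 ∣ ρ ^ i - 1 := by
      simpa using sub_dvd_pow_sub_pow ρ 1 i
    obtain ⟨z, hz⟩ := hdvd
    rw [hz]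
    exact Ideal.mul_mem_right _ _ hρ
  by_contra hnu
  have hmem : (∑ i ∈ range m, ρ ^ i) ∈ IsLocalRing.maximalIdeal B :=
    (IsLocalRing.mem_maximalIdeal _).mpr hnu
  have hm' : (m : B) ∈ IsLocalRing.maximalIdeal B := by
    have := Ideal.sub_mem _ hmem key
    simpa using this
  exact (IsLocalRing.mem_maximalIdeal _).mp hm' hm

/-- **(K3)** in a local ring: `ρ ≡ 1 mod π`, `π` a non-unit, `m` a unit, `ρ^m ≡ 1 mod π^n`
⟹ `ρ ≡ 1 mod π^n`. -/
theorem sub_one_mem_span_pow [IsLocalRing B] (π ρ : B) (m n : ℕ) (hm : IsUnit (m : B))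
    (hπ : ¬ IsUnit π) (hρ : ρ - 1 ∈ Ideal.span {π}) (h : ρ ^ m - 1 ∈ Ideal.span {π ^ n}) :
    ρ - 1 ∈ Ideal.span {π ^ n} := by
  refine sub_one_mem_of_pow_sub_one_mem _ ρ m
    (isUnit_geom_sum_of_isLocalRing ρ m hm ?_) h
  have hle : Ideal.span {π} ≤ IsLocalRing.maximalIdeal B := by
    rw [Ideal.span_le, Set.singleton_subset_iff]
    exact (IsLocalRing.mem_maximalIdeal _).mpr hπ
  exact hle hρ

end Fermat.Agent.RED.CORE.HenselRoot15
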