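/-
Program H (S18), chapter RED/CORE, helper18: the local ring `C = B_𝔪` of the model at a closed
point of the special fibre (step (D) of core (b'')).

`B` a commutative ring, `π : B`, `𝔪 ∋ π` a prime of `B`, `C = B_𝔪`.  If `B/πB` is a Dedekind domain
then `C/πC` is a principal ideal ring (it is a quotient of the PID `(B/π)_{𝔪/π}`), `π` is a prime
element of `C` lying in the Jacobson radical, and (for `B` a noetherian domain) `C` is a UFD.
-/
import Mathlib
import Fermat.Agent.RED.CORE.LocalPrincipal14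

set_option autoImplicit false
set_option linter.style.haveILetI false

namespace Fermat.Agent.RED.CORE.LocQuot18

open Ideal

variable {B : Type*} [CommRing B] (π : B) (𝔪 : Ideal B) [h𝔪 : 𝔪.IsPrime]
  (C : Type*) [CommRing C] [Algebra B C] [IsLocalization.AtPrime C 𝔪]

/-- The image of `𝔪` in `B/π` is prime. -/
theorem map_mk_isPrime (hπ𝔪 : π ∈ 𝔪) :
    (𝔪.map (Ideal.Quotient.mk (Ideal.span {π}))).IsPrime := by
  apply Ideal.map_isPrime_of_surjective Ideal.Quotient.mk_surjective
  rw [Ideal.mk_ker, Ideal.span_singleton_le_iff_mem]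
  exact hπ𝔪

/-- A localisation of a Dedekind domain at a prime is a principal ideal ring. -/
theorem isPrincipalIdealRing_atPrime (A : Type*) [CommRing A] [IsDedekindDomain A] (P : Ideal A)
    [P.IsPrime] (D : Type*) [CommRing D] [Algebra A D] [IsLocalization.AtPrime D P] :
    IsPrincipalIdealRing D := by
  by_cases hP : P = ⊥
  · -- `D` is a field
    haveI : IsDomain D := IsLocalization.isDomain_of_atPrime D P
    haveI : IsLocalRing D := IsLocalization.AtPrime.isLocalRing D P
    have hmax : IsLocalRing.maximalIdeal D = ⊥ := by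
      rw [← IsLocalization.AtPrime.map_eq_maximalIdeal P D, hP, Ideal.map_bot]
    have hF : IsField D := IsLocalRing.isField_iff_maximalIdeal_eq.mpr hmax
    letI := hF.toField
    infer_instance
  · haveI : IsDomain D := IsLocalization.isDomain_of_atPrime D P
    haveI := IsLocalization.AtPrime.isDiscreteValuationRing_of_dedekind_domain A hP D
    infer_instance

/-- **`C/πC` is a principal ideal ring** when `B/πB` is a Dedekind domain. -/
theorem isPrincipalIdealRing_quotient [IsDedekindDomain (B ⧸ Ideal.span {π})] (hπ𝔪 : π ∈ 𝔪) :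
    IsPrincipalIdealRing (C ⧸ Ideal.span {algebraMap B C π}) := by
  classical
  set q := Ideal.Quotient.mk (Ideal.span {π}) with hq
  set qC := Ideal.Quotient.mk (Ideal.span {algebraMap B C π}) with hqC
  haveI hP : (𝔪.map q).IsPrime := map_mk_isPrime π 𝔪 hπ𝔪
  let D := Localization.AtPrime (𝔪.map q)
  haveI : IsPrincipalIdealRing D := isPrincipalIdealRing_atPrime (B ⧸ Ideal.span {π}) (𝔪.map q) D
  -- `f : B/π → C/πC`
  let f : (B ⧸ Ideal.span {π}) →+* (C ⧸ Ideal.span {algebraMap B C π}) :=
    Ideal.Quotient.lift (Ideal.span {π}) (qC.comp (algebraMap B C)) (by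
      intro a ha
      obtain ⟨c, rfl⟩ := Ideal.mem_span_singleton'.mp ha
      rw [RingHom.comp_apply, map_mul, map_mul]
      have : qC (algebraMap B C π) = 0 :=
        Ideal.Quotient.eq_zero_iff_mem.mpr (Ideal.mem_span_singleton_self _)
      rw [this, mul_zero])
  have hf : ∀ b : B, f (q b) = qC (algebraMap B C b) := fun b => rfl
  have hunits : ∀ y : (𝔪.map q).primeCompl, IsUnit (f y) := by
    rintro ⟨y, hy⟩
    obtain ⟨b, rfl⟩ := Ideal.Quotient.mk_surjective y
    have hb : b ∉ 𝔪 := fun hb => hy (Ideal.mem_map_of_mem q hb)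
    have hu : IsUnit (algebraMap B C b) := IsLocalization.map_units C (⟨b, hb⟩ : 𝔪.primeCompl)
    exact hu.map qC
  let ψ : D →+* (C ⧸ Ideal.span {algebraMap B C π}) := IsLocalization.lift hunits
  have hψ : Function.Surjective ψ := by
    intro z
    obtain ⟨c, rfl⟩ := Ideal.Quotient.mk_surjective z
    obtain ⟨⟨b, s⟩, rfl⟩ := IsLocalization.mk'_surjective 𝔪.primeCompl c
    have hs : q (s : B) ∈ (𝔪.map q).primeCompl := by
      intro hmem
      obtain ⟨b', hb', hbs⟩ := (Ideal.mem_map_iff_of_surjective q Ideal.Quotient.mk_surjective).mp hmem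
      have hker : b' - (s : B) ∈ Ideal.span {π} := by
        rw [← Ideal.Quotient.eq_zero_iff_mem, map_sub, hbs, sub_self]
      have hle : Ideal.span {π} ≤ 𝔪 := (Ideal.span_singleton_le_iff_mem _).mpr hπ𝔪
      have : (s : B) ∈ 𝔪 := by
        have := 𝔪.sub_mem hb' (hle hker)
        simpa using this
      exact s.2 this
    refine ⟨IsLocalization.mk' D (q b) ⟨q (s : B), hs⟩, ?_⟩
    rw [IsLocalization.lift_mk'_spec]
    show f (q b) = f (q (s : B)) * qC (IsLocalization.mk' C b s)
    rw [hf, hf, ← map_mul, mul_comm, IsLocalization.mk'_spec]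
  exact IsPrincipalIdealRing.of_surjective ψ hψ

/-- `π` lies in the Jacobson radical of `C`. -/
theorem algebraMap_mem_jacobson (hπ𝔪 : π ∈ 𝔪) :
    algebraMap B C π ∈ Ideal.jacobson (⊥ : Ideal C) := by
  haveI : IsLocalRing C := IsLocalization.AtPrime.isLocalRing C 𝔪
  rw [IsLocalRing.jacobson_eq_maximalIdeal ⊥ bot_ne_top,
    ← IsLocalization.AtPrime.map_eq_maximalIdeal 𝔪 C]
  exact Ideal.mem_map_of_mem _ hπ𝔪

/-- `π` stays prime in `C`. -/
theorem prime_algebraMap [IsDomain B] (hπ : Prime π) (hπ𝔪 : π ∈ 𝔪) :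
    Prime (algebraMap B C π) := by
  haveI : IsDomain C := IsLocalization.isDomain_of_atPrime C 𝔪
  have hinj : Function.Injective (algebraMap B C) :=
    IsLocalization.injective C 𝔪.primeCompl_le_nonZeroDivisors
  have h0 : algebraMap B C π ≠ 0 := fun h => hπ.ne_zero (hinj (by rw [h, map_zero]))
  rw [← Ideal.span_singleton_prime h0]
  have hprime : (Ideal.span {π} : Ideal B).IsPrime := (Ideal.span_singleton_prime hπ.ne_zero).mpr hπ
  have hdisj : Disjoint (𝔪.primeCompl : Set B) (Ideal.span {π} : Ideal B) := by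
    rw [Set.disjoint_left]
    intro x hx hxπ
    exact hx ((Ideal.span_singleton_le_iff_mem _).mpr hπ𝔪 hxπ)
  have := IsLocalization.isPrime_of_isPrime_disjoint 𝔪.primeCompl C _ hprime hdisj
  rwa [Ideal.map_span, Set.image_singleton] at this

/-- **`C = B_𝔪` is a UFD** (`B` noetherian domain, `π` prime, `π ∈ 𝔪`, `B/π` Dedekind). -/
theorem ufd_atPrime [IsDomain B] [IsNoetherianRing B] (hπ : Prime π) (hπ𝔪 : π ∈ 𝔪)
    [IsDedekindDomain (B ⧸ Ideal.span {π})] : UniqueFactorizationMonoid C := by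
  haveI : IsDomain C := IsLocalization.isDomain_of_atPrime C 𝔪
  haveI : IsNoetherianRing C := IsLocalization.isNoetherianRing 𝔪.primeCompl C inferInstance
  haveI := isPrincipalIdealRing_quotient π 𝔪 C hπ𝔪
  exact LocalPrincipal14.uniqueFactorizationMonoid (algebraMap B C π)
    (algebraMap_mem_jacobson π 𝔪 C hπ𝔪) (prime_algebraMap π 𝔪 C hπ hπ𝔪)

/-- `C/πC` is a domain. -/
theorem isDomain_quotient [IsDomain B] (hπ : Prime π) (hπ𝔪 : π ∈ 𝔪) :
    IsDomain (C ⧸ Ideal.span {algebraMap B C π}) := by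
  have hp := prime_algebraMap π 𝔪 C hπ hπ𝔪
  haveI : (Ideal.span {algebraMap B C π} : Ideal C).IsPrime :=
    (Ideal.span_singleton_prime hp.ne_zero).mpr hp
  infer_instance

omit h𝔪 in
/-- **Normality step**: in an integrally closed domain, `a^m ε = b^m` with `ε` a unit and `m > 0`
forces `a` and `b` to be associated. -/
theorem exists_unit_mul_of_pow_mul_eq {D : Type*} [CommRing D] [IsDomain D] [IsIntegrallyClosed D]
    {a b ε : D} (hε : IsUnit ε) {m : ℕ} (hm : m ≠ 0) (h : a ^ m * ε = b ^ m) :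
    ∃ v : Dˣ, a = v * b := by
  have h1 : a ∣ b := by
    rw [← IsIntegrallyClosed.pow_dvd_pow_iff hm]
    exact ⟨ε, h.symm⟩
  have h2 : b ∣ a := by
    rw [← IsIntegrallyClosed.pow_dvd_pow_iff hm]
    obtain ⟨ε', hε'⟩ := hε.exists_right_inv
    refine ⟨ε', ?_⟩
    rw [← h, mul_assoc, hε', mul_one]
  obtain ⟨v, hv⟩ := associated_of_dvd_dvd h2 h1
  exact ⟨v, by rw [← hv, mul_comm]⟩

end Fermat.Agent.RED.CORE.LocQuot18
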