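/-
Program H (S18), chapter RED/CORE, helper18: the abstract ROOT MODULE of core route (b'').

`F` a field, `B ⊂ F` a subring integrally closed in `F`, `m > 0`, `u : F`.
`rootModule B hB m hm u = {g : F | g ^ m * u ∈ B}` is a `B`-submodule of `F`
(closed under addition because `(x^a y^b u)^m = (x^m u)^a (y^m u)^b` for `a + b = m`).

* `mem_of_pow_mem`, `rootModule`, `mem_rootModule_iff`, `prod_mul_mem`, `pow_mul_pow_mem`;
* `rootModule_mono`, `exists_pow_mul_mem_rootModule` (localisation `B' = B[1/t]`);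
* `rootModule_fg` (noetherian `B`, `u = p / q`);
* `overlap_unique` : step (U), uniqueness of the approximate roots on the overlap;
* `newton` : step (N), the chartwise Newton iteration (wrapper of `HenselRoot15`).
-/
import Mathlib
import Fermat.Agent.RED.CORE.HenselRoot15

set_option autoImplicit false

namespace Fermat.Agent.RED.CORE.RootModule18

open Finset

variable {F : Type*} [Field F]

/-- `B` is integrally closed in `F`. -/
def IntClosedIn (B : Subring F) : Prop := ∀ x : F, IsIntegral ↥B x → x ∈ B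

theorem mem_of_pow_mem {B : Subring F} (hB : IntClosedIn B) {m : ℕ} (hm : 0 < m) {x : F}
    (h : x ^ m ∈ B) : x ∈ B := by
  apply hB
  apply IsIntegral.of_pow hm
  have : x ^ m = algebraMap ↥B F ⟨x ^ m, h⟩ := rfl
  rw [this]
  exact isIntegral_algebraMap

variable (B : Subring F) (hB : IntClosedIn B) (m : ℕ) (hm : 0 < m) (u : F)

include hB hm

theorem pow_mul_pow_mem' {x y : F} (hx : x ^ m * u ∈ B) (hy : y ^ m * u ∈ B) {a b : ℕ}
    (hab : a + b = m) : x ^ a * y ^ b * u ∈ B := by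
  apply mem_of_pow_mem hB hm
  have : (x ^ a * y ^ b * u) ^ m = (x ^ m * u) ^ a * (y ^ m * u) ^ b := by
    subst hab; ring
  rw [this]
  exact mul_mem (pow_mem hx a) (pow_mem hy b)

/-- The root module `I = {g | g^m u ∈ B}`. -/
def rootModule : Submodule ↥B F where
  carrier := {g | g ^ m * u ∈ B}
  zero_mem' := by
    show (0 : F) ^ m * u ∈ B
    rw [zero_pow hm.ne', zero_mul]; exact zero_mem B
  add_mem' := fun {x y} hx hy => by
    show (x + y) ^ m * u ∈ B
    rw [add_pow, Finset.sum_mul]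
    refine sum_mem fun k hk => ?_
    have hk' : k ≤ m := Nat.lt_succ_iff.mp (Finset.mem_range.mp hk)
    have h1 := pow_mul_pow_mem' B hB m hm u hx hy (Nat.add_sub_cancel' hk')
    have : x ^ k * y ^ (m - k) * (m.choose k : F) * u =
        (m.choose k : F) * (x ^ k * y ^ (m - k) * u) := by ring
    rw [this]
    exact mul_mem (natCast_mem B _) h1
  smul_mem' := fun b g hg => by
    show (b • g) ^ m * u ∈ B
    have : (b • g) ^ m * u = (b : F) ^ m * (g ^ m * u) := by
      rw [Subring.smul_def, smul_eq_mul]; ring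
    rw [this]
    exact mul_mem (pow_mem b.2 m) hg

theorem mem_rootModule_iff (g : F) : g ∈ rootModule B hB m hm u ↔ g ^ m * u ∈ B := Iff.rfl

theorem mul_mem_rootModule {b g : F} (hb : b ∈ B) (hg : g ∈ rootModule B hB m hm u) :
    b * g ∈ rootModule B hB m hm u :=
  (rootModule B hB m hm u).smul_mem ⟨b, hb⟩ hg

theorem pow_mul_pow_mem {x y : F} (hx : x ∈ rootModule B hB m hm u)
    (hy : y ∈ rootModule B hB m hm u) {a b : ℕ} (hab : a + b = m) : x ^ a * y ^ b * u ∈ B :=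
  pow_mul_pow_mem' B hB m hm u hx hy hab

/-- A product of `m` elements of the root module, times `u`, lies in `B`. -/
theorem prod_mul_mem (x : Fin m → F) (hx : ∀ i, x i ∈ rootModule B hB m hm u) :
    (∏ i, x i) * u ∈ B := by
  apply mem_of_pow_mem hB hm
  have : ((∏ i, x i) * u) ^ m = ∏ i, (x i ^ m * u) := by
    rw [mul_pow, Finset.prod_mul_distrib, Finset.prod_const, Finset.card_univ, Fintype.card_fin,
      Finset.prod_pow]
  rw [this]
  exact prod_mem fun i _ => hx i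

/-- monotonicity in `B`. -/
theorem rootModule_mono {B' : Subring F} (hB' : IntClosedIn B') (hle : B ≤ B') {g : F}
    (hg : g ∈ rootModule B hB m hm u) : g ∈ rootModule B' hB' m hm u :=
  hle hg

/-- localisation: if `B' = B[1/t]` (in the form `∀ b ∈ B', ∃ k, t^k b ∈ B`) then
`I_{B'} = I_B[1/t]`. -/
theorem exists_pow_mul_mem_rootModule {B' : Subring F} (hB' : IntClosedIn B') {t : F} (ht : t ∈ B)
    (hloc : ∀ b ∈ B', ∃ k : ℕ, t ^ k * b ∈ B) {g : F} (hg : g ∈ rootModule B' hB' m hm u) :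
    ∃ k : ℕ, t ^ k * g ∈ rootModule B hB m hm u := by
  obtain ⟨k, hk⟩ := hloc _ hg
  refine ⟨k, ?_⟩
  show (t ^ k * g) ^ m * u ∈ B
  obtain ⟨m', rfl⟩ : ∃ m', m = m' + 1 := ⟨m - 1, (Nat.sub_add_cancel hm).symm⟩
  have : (t ^ k * g) ^ (m' + 1) * u = (t ^ k) ^ m' * (t ^ k * (g ^ (m' + 1) * u)) := by ring
  rw [this]
  exact mul_mem (pow_mem (pow_mem ht k) m') hk

/-- `p * g ∈ B` for `g` in the root module, when `u * q = p` with `p q ∈ B`. -/
theorem num_mul_mem {p q : F} (hp : p ∈ B) (hq : q ∈ B) (hpq : u * q = p) {g : F}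
    (hg : g ∈ rootModule B hB m hm u) : p * g ∈ B := by
  apply mem_of_pow_mem hB hm
  obtain ⟨m', rfl⟩ : ∃ m', m = m' + 1 := ⟨m - 1, (Nat.sub_add_cancel hm).symm⟩
  have : (p * g) ^ (m' + 1) = (g ^ (m' + 1) * u) * q * p ^ m' := by
    rw [← hpq]; ring
  rw [this]
  exact mul_mem (mul_mem hg hq) (pow_mem hp m')

/-- The root module is finitely generated over a noetherian `B` when `u = p / q ≠ 0`, `p q ∈ B`:
multiplication by `p` embeds it into `B`. -/
theorem rootModule_fg [IsNoetherianRing ↥B] (hu : u ≠ 0)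
    (hfrac : ∃ p ∈ B, ∃ q ∈ B, q ≠ 0 ∧ u * q = p) : (rootModule B hB m hm u).FG := by
  obtain ⟨p, hp, q, hq, hq0, hpq⟩ := hfrac
  have hp0 : p ≠ 0 := by rw [← hpq]; exact mul_ne_zero hu hq0
  let φ : ↥(rootModule B hB m hm u) →ₗ[↥B] ↥B :=
    { toFun := fun g => ⟨p * (g : F), num_mul_mem B hB m hm u hp hq hpq g.2⟩
      map_add' := fun g h => Subtype.ext (by simp [mul_add])
      map_smul' := fun b g => Subtype.ext (by
        simp only [Submodule.coe_smul, Subring.smul_def, smul_eq_mul, RingHom.id_apply,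
          Subring.coe_mul]
        ring) }
  have hinj : Function.Injective φ := by
    intro g h hgh
    have h1 : p * (g : F) = p * (h : F) := congrArg Subtype.val hgh
    exact Subtype.ext (mul_left_cancel₀ hp0 h1)
  have : Module.Finite ↥B ↥(rootModule B hB m hm u) := Module.Finite.of_injective φ hinj
  exact Module.Finite.iff_fg.mp this

/-! ### `1 + π Ov` -/

omit hB hm in
/-- `1 + π Ov` is closed under multiplication. -/
theorem one_add_mul_mem (Ov : Subring F) (π : F) (hπ : π ∈ Ov) {a b : F}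
    (ha : ∃ o ∈ Ov, a - 1 = π * o) (hb : ∃ o ∈ Ov, b - 1 = π * o) :
    ∃ o ∈ Ov, a * b - 1 = π * o := by
  obtain ⟨o₁, ho₁, h₁⟩ := ha
  obtain ⟨o₂, ho₂, h₂⟩ := hb
  refine ⟨o₁ + o₂ + π * o₁ * o₂, add_mem (add_mem ho₁ ho₂) (mul_mem (mul_mem hπ ho₁) ho₂), ?_⟩
  have ha' : a = 1 + π * o₁ := by rw [← h₁]; ring
  have hb' : b = 1 + π * o₂ := by rw [← h₂]; ring
  rw [ha', hb']; ring

omit hB hm in
theorem one_add_pow_mem (Ov : Subring F) (π : F) (hπ : π ∈ Ov) {a : F}
    (ha : ∃ o ∈ Ov, a - 1 = π * o) (k : ℕ) : ∃ o ∈ Ov, a ^ k - 1 = π * o := by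
  induction k with
  | zero => exact ⟨0, zero_mem _, by simp⟩
  | succ k ih =>
    rw [pow_succ]
    exact one_add_mul_mem Ov π hπ ih ha

/-! ### (U): uniqueness of approximate roots on the overlap -/

/-- **(U)**: two elements `x, y` of the root module, both `≡ 1 mod π Ov`, with
`x^m u ≡ y^m u ≡ 1 mod π^n B`, differ by an element of `π^n • rootModule`.  Hypotheses: `B ≤ Ov`,
`B ∩ π Ov = π B` (G1), `m` invertible in `B`, `u ≡ 1 mod π Ov`. -/
theorem overlap_unique (Ov : Subring F) (hBO : B ≤ Ov) (π : F) (hπ : π ∈ B)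
    (G1 : ∀ b ∈ B, (∃ o ∈ Ov, b = π * o) → ∃ b' ∈ B, b = π * b')
    (w : F) (hw : w ∈ B) (hmw : (m : F) * w = 1)
    (hu : ∃ o ∈ Ov, u - 1 = π * o)
    {x y : F} (hx : x ∈ rootModule B hB m hm u) (hy : y ∈ rootModule B hB m hm u)
    (hx1 : ∃ o ∈ Ov, x - 1 = π * o) (hy1 : ∃ o ∈ Ov, y - 1 = π * o)
    (n : ℕ) (hxn : ∃ b ∈ B, x ^ m * u - 1 = π ^ n * b) (hyn : ∃ b ∈ B, y ^ m * u - 1 = π ^ n * b) :
    ∃ g ∈ rootModule B hB m hm u, x - y = π ^ n * g := by
  have hπO : π ∈ Ov := hBO hπ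
  -- the terms `t k = x^(m-k) y^k u`, `k < m`
  have hterm : ∀ k ∈ range m, ∃ b ∈ B, x ^ (m - k) * y ^ k * u - 1 = π * b := by
    intro k hk
    have hk' : k < m := Finset.mem_range.mp hk
    have hmem : x ^ (m - k) * y ^ k * u ∈ B :=
      pow_mul_pow_mem B hB m hm u hx hy (Nat.sub_add_cancel hk'.le)
    have h1 : ∃ o ∈ Ov, x ^ (m - k) * y ^ k * u - 1 = π * o :=
      one_add_mul_mem Ov π hπO
        (one_add_mul_mem Ov π hπO (one_add_pow_mem Ov π hπO hx1 _) (one_add_pow_mem Ov π hπO hy1 _))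
        hu
    obtain ⟨o, ho, h⟩ := h1
    exact G1 _ (sub_mem hmem (one_mem B)) ⟨o, ho, h⟩
  choose! bk hbkB hbk using hterm
  set b : F := ∑ k ∈ range m, bk k with hb
  have hbB : b ∈ B := sum_mem fun k hk => hbkB k hk
  -- `z x = m + π b` where `z = u * Σ x^(m-1-k) y^k`
  have hzx : (∑ k ∈ range m, x ^ (m - k) * y ^ k * u) = (m : F) + π * b := by
    have : ∀ k ∈ range m, x ^ (m - k) * y ^ k * u = 1 + π * bk k := by
      intro k hk; rw [← hbk k hk]; ring
    rw [Finset.sum_congr rfl this, Finset.sum_add_distrib, Finset.sum_const, Finset.card_range,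
      nsmul_eq_mul, mul_one, hb, Finset.mul_sum]
  -- `(x - y) * Σ x^(m-k) y^k u = (x^m u - y^m u) * x`
  have hgeom : (x - y) * (∑ k ∈ range m, x ^ (m - k) * y ^ k * u) = (x ^ m * u - y ^ m * u) * x := by
    have h1 : (∑ k ∈ range m, x ^ (m - k) * y ^ k * u) =
        (∑ k ∈ range m, y ^ k * x ^ (m - 1 - k)) * (x * u) := by
      rw [Finset.sum_mul]
      refine Finset.sum_congr rfl fun k hk => ?_
      have hk' : k < m := Finset.mem_range.mp hk
      have : m - k = (m - 1 - k) + 1 := by omega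
      rw [this, pow_succ]; ring
    have h2 := (Commute.all y x).geom_sum₂_mul m
    rw [h1]
    have : (x - y) * ((∑ k ∈ range m, y ^ k * x ^ (m - 1 - k)) * (x * u)) =
        -((∑ k ∈ range m, y ^ k * x ^ (m - 1 - k)) * (y - x)) * (x * u) := by ring
    rw [this, h2]; ring
  obtain ⟨bx, hbx, hxn'⟩ := hxn
  obtain ⟨by', hby, hyn'⟩ := hyn
  -- `w0 = x - y`, `w0 * (m + π b) = π^n c x`
  set w0 : F := x - y with hw0
  have hw0I : w0 ∈ rootModule B hB m hm u := (rootModule B hB m hm u).sub_mem hx hy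
  have hkey : w0 * ((m : F) + π * b) = π ^ n * ((bx - by') * x) := by
    rw [← hzx, hgeom]
    have : x ^ m * u - y ^ m * u = π ^ n * (bx - by') := by
      have : x ^ m * u - y ^ m * u = (x ^ m * u - 1) - (y ^ m * u - 1) := by ring
      rw [this, hxn', hyn']; ring
    rw [this]; ring
  -- `w0 = π^n g1 + (π β) w0`
  set g1 : F := w * ((bx - by') * x) with hg1
  have hg1I : g1 ∈ rootModule B hB m hm u :=
    mul_mem_rootModule B hB m hm u hw (mul_mem_rootModule B hB m hm u (sub_mem hbx hby) hx)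
  set β : F := -(w * b) with hβ
  have hβB : β ∈ B := neg_mem (mul_mem hw hbB)
  have hstep : w0 = π ^ n * g1 + (π * β) * w0 := by
    have h1 : w0 = w0 * ((m : F) * w) := by rw [hmw, mul_one]
    have h2 : w0 * (m : F) = π ^ n * ((bx - by') * x) - w0 * (π * b) := by
      rw [← hkey]; ring
    calc w0 = (w0 * (m : F)) * w := by rw [mul_assoc, hmw, mul_one]
      _ = π ^ n * g1 + (π * β) * w0 := by rw [h2, hg1, hβ]; ring
  -- iterate
  have hiter : ∀ j : ℕ, ∃ g ∈ rootModule B hB m hm u, w0 = π ^ n * g + (π * β) ^ j * w0 := by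
    intro j
    induction j with
    | zero => exact ⟨0, zero_mem _, by simp⟩
    | succ j ih =>
      obtain ⟨g, hg, hgj⟩ := ih
      refine ⟨g + (π * β) ^ j * g1, ?_, ?_⟩
      · exact add_mem hg (mul_mem_rootModule B hB m hm u (pow_mem (mul_mem hπ hβB) j) hg1I)
      · calc w0 = π ^ n * g + (π * β) ^ j * w0 := hgj
          _ = π ^ n * g + (π * β) ^ j * (π ^ n * g1 + (π * β) * w0) := by rw [← hstep]
          _ = π ^ n * (g + (π * β) ^ j * g1) + (π * β) ^ (j + 1) * w0 := by ring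
  obtain ⟨g, hg, hgn⟩ := hiter n
  refine ⟨g + β ^ n * w0, ?_, ?_⟩
  · exact add_mem hg (mul_mem_rootModule B hB m hm u (pow_mem hβB n) hw0I)
  · calc w0 = π ^ n * g + (π * β) ^ n * w0 := hgn
      _ = π ^ n * (g + β ^ n * w0) := by rw [mul_pow]; ring

/-! ### (N): chartwise Newton iteration -/

/-- **(N)**: from `g` in the root module with `g^m u ≡ 1 mod π B`, for every `n` there is `g'` in
the root module with `g'^m u ≡ 1 mod π^n B` and `g' = g * γ`, `γ ∈ B`, `γ ≡ 1 mod π B`. -/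
theorem newton (π : F) (hπ : π ∈ B) (w : F) (hw : w ∈ B) (hmw : (m : F) * w = 1)
    {g : F} (hg : g ∈ rootModule B hB m hm u) (hg1 : ∃ b ∈ B, g ^ m * u - 1 = π * b) (n : ℕ) :
    ∃ γ ∈ B, (∃ a ∈ B, γ - 1 = π * a) ∧ g * γ ∈ rootModule B hB m hm u ∧
      ∃ c ∈ B, (g * γ) ^ m * u - 1 = π ^ n * c := by
  obtain ⟨a₀, ha₀, h0⟩ := hg1
  have hmw' : ((m : ℕ) : ↥B) * (⟨w, hw⟩ : ↥B) = 1 := by
    apply Subtype.ext
    simp only [Subring.coe_mul, Subring.coe_natCast, Subring.coe_one]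
    exact hmw
  have he : (⟨g ^ m * u, hg⟩ : ↥B) - 1 = (⟨π, hπ⟩ : ↥B) * ⟨a₀, ha₀⟩ := Subtype.ext h0
  obtain ⟨γ, a, c, hγ, hc⟩ :=
    HenselRoot15.exists_pow_mul_sub_one_mem' (⟨π, hπ⟩ : ↥B) m ⟨w, hw⟩ hmw' ⟨g ^ m * u, hg⟩ ⟨a₀, ha₀⟩
      he n
  have hγ' : (γ : F) - 1 = π * (a : F) := congrArg Subtype.val hγ
  have hc' : (γ : F) ^ m * (g ^ m * u) - 1 = π ^ n * (c : F) := congrArg Subtype.val hc
  refine ⟨γ, γ.2, ⟨a, a.2, hγ'⟩, ?_, c, c.2, ?_⟩
  · rw [mul_comm]; exact mul_mem_rootModule B hB m hm u γ.2 hg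
  · rw [← hc']; ring

end Fermat.Agent.RED.CORE.RootModule18
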